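import Fermat.Agent.LT.FA.HS

/-!
# Integral operators with square integrable kernels
-/

set_option autoImplicit false
set_option linter.unusedSectionVars false

open scoped InnerProductSpace ENNReal NNReal
open MeasureTheory

namespace Fermat.Agent.LT.FA

section countable

variable {J H : Type*} [NormedAddCommGroup H] [InnerProductSpace ℂ H] [CompleteSpace H]

/-- Hilbert bases of separable spaces are countable -/
theorem countable_of_hilbertBasis [TopologicalSpace.SeparableSpace H] (b : HilbertBasis J ℂ H) :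
    Countable J := by
  have h1 : (Set.univ : Set J).PairwiseDisjoint (fun j => Metric.ball (b j) (1 / 2)) := by
    intro i _ j _ hij
    refine Metric.ball_disjoint_ball ?_
    rw [dist_eq_norm]
    have h2 : ‖b i - b j‖ ^ 2 = 2 := by
      rw [@norm_sub_sq ℂ]
      have h3 : ⟪b i, b j⟫_ℂ = 0 := b.orthonormal.2 hij
      rw [h3, b.orthonormal.1 i, b.orthonormal.1 j]
      norm_num
    nlinarith [norm_nonneg (b i - b j)]
  have h2 := h1.countable_of_isOpen (fun i _ => Metric.isOpen_ball)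
    (fun i _ => Metric.nonempty_ball.mpr (by norm_num))
  exact Set.countable_univ_iff.mp h2

end countable

variable {Ω : Type*} [MeasurableSpace Ω] {μ : Measure Ω} [SigmaFinite μ]

variable (μ) in
/-- the norm of the kernel -/
noncomputable def kerNrm (K : Ω → Ω → ℂ) : ℝ := (eLpNorm (Function.uncurry K) 2 (μ.prod μ)).toReal

variable (μ) in
/-- square integrable kernels (all rows are square integrable) -/
structure IsL2Ker (K : Ω → Ω → ℂ) : Prop where
  meas : StronglyMeasurable (Function.uncurry K)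
  row : ∀ x, MemLp (K x) 2 μ
  memLp : MemLp (Function.uncurry K) 2 (μ.prod μ)

namespace IsL2Ker

variable {K : Ω → Ω → ℂ} (hK : IsL2Ker μ K)

include hK in
theorem row_star (x : Ω) : MemLp (fun y => (starRingEnd ℂ) (K x y)) 2 μ := (hK.row x).star

/-- the rows -/
noncomputable def rowV (x : Ω) : Lp ℂ 2 μ := (hK.row_star x).toLp _

/-- the function `x ↦ ∫ K x y f y` -/
noncomputable def app (f : Lp ℂ 2 μ) (x : Ω) : ℂ := ⟪hK.rowV x, f⟫_ℂ

theorem app_eq (f : Lp ℂ 2 μ) (x : Ω) : hK.app f x = ∫ y, K x y * f y ∂μ := by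
  rw [app, L2.inner_def]
  refine integral_congr_ae ?_
  filter_upwards [(hK.row_star x).coeFn_toLp] with y hy
  rw [rowV, hy, RCLike.inner_apply, RingHomCompTriple.comp_apply, RingHom.id_apply, mul_comm]

include hK in
theorem aestronglyMeasurable_app (f : Lp ℂ 2 μ) : AEStronglyMeasurable (hK.app f) μ := by
  have h1 : AEStronglyMeasurable (fun p : Ω × Ω => K p.1 p.2 * f p.2) (μ.prod μ) :=
    hK.meas.aestronglyMeasurable.mul ((Lp.aestronglyMeasurable f).comp_snd)
  have h2 := h1.integral_prod_right'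
  refine h2.congr (Filter.Eventually.of_forall fun x => ?_)
  exact (hK.app_eq f x).symm

theorem enorm_rowV_sq (x : Ω) : ‖hK.rowV x‖ₑ ^ 2 = ∫⁻ y, ‖K x y‖ₑ ^ 2 ∂μ := by
  rw [rowV, Lp.enorm_toLp, eLpNorm_eq_lintegral_rpow_enorm_toReal (by norm_num) (by norm_num)]
  rw [← ENNReal.rpow_natCast, ← ENNReal.rpow_mul]
  norm_num

theorem lintegral_rowV : ∫⁻ x, ‖hK.rowV x‖ₑ ^ 2 ∂μ = eLpNorm (Function.uncurry K) 2 (μ.prod μ) ^ 2 := by
  simp_rw [hK.enorm_rowV_sq]
  rw [eLpNorm_eq_lintegral_rpow_enorm_toReal (by norm_num) (by norm_num), ← ENNReal.rpow_natCast,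
    ← ENNReal.rpow_mul]
  norm_num
  rw [lintegral_prod _ (by
    exact (hK.meas.measurable.enorm.pow_const 2).aemeasurable)]
  rfl

include hK in
theorem rowV_ne_top : ∫⁻ x, ‖hK.rowV x‖ₑ ^ 2 ∂μ ≠ ∞ := by
  rw [hK.lintegral_rowV]
  exact ENNReal.pow_ne_top hK.memLp.2.ne

theorem lintegral_app_le (f : Lp ℂ 2 μ) :
    ∫⁻ x, ‖hK.app f x‖ₑ ^ 2 ∂μ ≤ eLpNorm (Function.uncurry K) 2 (μ.prod μ) ^ 2 * ‖f‖ₑ ^ 2 := by
  rw [← hK.lintegral_rowV, ← lintegral_mul_const' _ _ (by simp)]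
  refine lintegral_mono fun x => ?_
  rw [← mul_pow]
  refine pow_le_pow_left₀ zero_le ?_ 2
  rw [app, ← ofReal_norm, ← ofReal_norm, ← ofReal_norm, ← ENNReal.ofReal_mul (norm_nonneg _)]
  exact ENNReal.ofReal_le_ofReal (norm_inner_le_norm _ _)

theorem eLpNorm_app_le (f : Lp ℂ 2 μ) :
    eLpNorm (hK.app f) 2 μ ≤ eLpNorm (Function.uncurry K) 2 (μ.prod μ) * ‖f‖ₑ := by
  rw [← ENNReal.rpow_le_rpow_iff (z := 2) (by norm_num)]
  have h1 : eLpNorm (hK.app f) 2 μ ^ (2 : ℝ) = ∫⁻ x, ‖hK.app f x‖ₑ ^ 2 ∂μ := by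
    rw [eLpNorm_eq_lintegral_rpow_enorm_toReal (by norm_num) (by norm_num), ← ENNReal.rpow_mul]
    norm_num
  rw [h1]
  refine (hK.lintegral_app_le f).trans ?_
  rw [← mul_pow, ← ENNReal.rpow_natCast]
  norm_num

theorem memLp_app (f : Lp ℂ 2 μ) : MemLp (hK.app f) 2 μ :=
  ⟨hK.aestronglyMeasurable_app f, (hK.eLpNorm_app_le f).trans_lt
    (ENNReal.mul_lt_top hK.memLp.2 (by simp))⟩

/-- the integral operator -/
noncomputable def op : Lp ℂ 2 μ →L[ℂ] Lp ℂ 2 μ :=
  LinearMap.mkContinuous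
    { toFun := fun f => (hK.memLp_app f).toLp _
      map_add' := fun f g => by
        rw [← MemLp.toLp_add]
        refine MemLp.toLp_congr _ _ (Filter.Eventually.of_forall fun x => ?_)
        simp only [app, Pi.add_apply, inner_add_right]
      map_smul' := fun c f => by
        rw [RingHom.id_apply, ← MemLp.toLp_const_smul]
        refine MemLp.toLp_congr _ _ (Filter.Eventually.of_forall fun x => ?_)
        simp only [app, Pi.smul_apply, inner_smul_right, smul_eq_mul] }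
    (kerNrm μ K) (fun f => by
      change ‖(hK.memLp_app f).toLp _‖ ≤ _
      rw [Lp.norm_toLp, kerNrm, ← toReal_enorm f, ← ENNReal.toReal_mul]
      exact ENNReal.toReal_mono (ENNReal.mul_ne_top hK.memLp.2.ne (by simp)) (hK.eLpNorm_app_le f))

theorem coeFn_op (f : Lp ℂ 2 μ) : hK.op f =ᵐ[μ] hK.app f := (hK.memLp_app f).coeFn_toLp

/-- the defining property of the operator -/
theorem op_ae (f : Lp ℂ 2 μ) : ∀ᵐ x ∂μ, hK.op f x = ∫ y, K x y * f y ∂μ := by
  filter_upwards [hK.coeFn_op f] with x hx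
  rw [hx, hK.app_eq]

theorem norm_op_le : ‖hK.op‖ ≤ kerNrm μ K :=
  LinearMap.mkContinuous_norm_le _ ENNReal.toReal_nonneg _

theorem enorm_op_sq (f : Lp ℂ 2 μ) : ‖hK.op f‖ₑ ^ 2 = ∫⁻ x, ‖hK.app f x‖ₑ ^ 2 ∂μ := by
  change ‖(hK.memLp_app f).toLp _‖ₑ ^ 2 = _
  rw [Lp.enorm_toLp, eLpNorm_eq_lintegral_rpow_enorm_toReal (by norm_num) (by norm_num),
    ← ENNReal.rpow_natCast, ← ENNReal.rpow_mul]
  norm_num

theorem aemeasurable_app (f : Lp ℂ 2 μ) : AEMeasurable (fun x => ‖hK.app f x‖ₑ ^ 2) μ :=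
  ((hK.aestronglyMeasurable_app f).aemeasurable.enorm).pow_const 2

/-- integral operators are Hilbert–Schmidt -/
theorem isHS_op : IsHS hK.op := by
  rw [IsHS, hsSq]
  have h1 : ∀ s : Finset (stdSet (Lp ℂ 2 μ)), ∑ j ∈ s, ‖hK.op (stdB _ j)‖ₑ ^ 2 ≤
      ∫⁻ x, ‖hK.rowV x‖ₑ ^ 2 ∂μ := by
    intro s
    simp_rw [hK.enorm_op_sq]
    rw [← lintegral_finsetSum' _ (fun j _ => hK.aemeasurable_app _)]
    refine lintegral_mono fun x => ?_
    rw [← tsum_enorm_sq (stdB _) (hK.rowV x)]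
    refine (ENNReal.sum_le_tsum s).trans' (le_of_eq ?_)
    refine Finset.sum_congr rfl fun j _ => ?_
    rw [app, ← inner_conj_symm, RCLike.enorm_conj]
  refine ne_top_of_le_ne_top hK.rowV_ne_top ?_
  rw [ENNReal.tsum_eq_iSup_sum]
  exact iSup_le h1

/-- the inner product in terms of the rows -/
theorem inner_op (f g : Lp ℂ 2 μ) : ⟪g, hK.op f⟫_ℂ = ∫ x, (starRingEnd ℂ) (g x) * hK.app f x ∂μ := by
  rw [L2.inner_def]
  refine integral_congr_ae ?_
  filter_upwards [hK.coeFn_op f] with x hx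
  rw [hx, RCLike.inner_apply, mul_comm]

/-- composition of two operators as a double integral -/
theorem inner_op_op {A : Ω → Ω → ℂ} (hA : IsL2Ker μ A) (f g : Lp ℂ 2 μ) :
    ⟪hA.op g, hK.op f⟫_ℂ = ∫ x, (starRingEnd ℂ) (hA.app g x) * hK.app f x ∂μ := by
  rw [hK.inner_op]
  refine integral_congr_ae ?_
  filter_upwards [hA.coeFn_op g] with x hx
  rw [hx]

theorem norm_op_sq (f : Lp ℂ 2 μ) : ‖hK.op f‖ ^ 2 = ∫ x, ‖hK.app f x‖ ^ 2 ∂μ := by
  have h1 := hK.inner_op_op hK f f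
  rw [inner_self_eq_norm_sq_to_K] at h1
  have h2 : ∀ x, (starRingEnd ℂ) (hK.app f x) * hK.app f x = ((‖hK.app f x‖ ^ 2 : ℝ) : ℂ) := by
    intro x
    rw [RCLike.conj_mul]
    push_cast
    rfl
  simp_rw [h2] at h1
  have h3 : ∫ x, ((‖hK.app f x‖ ^ 2 : ℝ) : ℂ) ∂μ = ((∫ x, ‖hK.app f x‖ ^ 2 ∂μ : ℝ) : ℂ) :=
    integral_ofReal
  rw [h3] at h1
  have h4 : (((‖hK.op f‖ ^ 2 : ℝ)) : ℂ) = ((∫ x, ‖hK.app f x‖ ^ 2 ∂μ : ℝ) : ℂ) := by
    rw [← h1]
    push_cast
    rfl
  exact Complex.ofReal_injective h4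

theorem integrable_sq (f : Lp ℂ 2 μ) : Integrable (fun x => ‖hK.app f x‖ ^ 2) μ :=
  (hK.memLp_app f).integrable_norm_pow (by norm_num)

/-- the sum over an orthonormal basis of `⟪A b, K b⟫` -/
theorem hasSum_inner_op [TopologicalSpace.SeparableSpace (Lp ℂ 2 μ)] {A : Ω → Ω → ℂ}
    (hA : IsL2Ker μ A) {J : Type*} (b : HilbertBasis J ℂ (Lp ℂ 2 μ)) :
    HasSum (fun j => ⟪hA.op (b j), hK.op (b j)⟫_ℂ) (∫ x, ⟪hK.rowV x, hA.rowV x⟫_ℂ ∂μ) := by
  have : Countable J := countable_of_hilbertBasis b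
  let F : J → Ω → ℂ := fun j x => (starRingEnd ℂ) (hA.app (b j) x) * hK.app (b j) x
  have h1 : ∀ x, ∑' j, F j x = ⟪hK.rowV x, hA.rowV x⟫_ℂ := by
    intro x
    rw [← (b.hasSum_inner_mul_inner (hK.rowV x) (hA.rowV x)).tsum_eq]
    refine tsum_congr fun j => ?_
    change (starRingEnd ℂ) ⟪hA.rowV x, b j⟫_ℂ * ⟪hK.rowV x, b j⟫_ℂ = _
    rw [inner_conj_symm, mul_comm]
  have hint : ∀ j, Integrable (F j) μ := fun j =>
    MemLp.integrable_mul (hA.memLp_app (b j)).star (hK.memLp_app (b j))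
  have hb : ∀ j, ∫ x, ‖F j x‖ ∂μ ≤ ‖hA.op (b j)‖ ^ 2 + ‖hK.op (b j)‖ ^ 2 := by
    intro j
    rw [hA.norm_op_sq, hK.norm_op_sq, ← integral_add (hA.integrable_sq _) (hK.integrable_sq _)]
    refine integral_mono (hint j).norm ((hA.integrable_sq _).add (hK.integrable_sq _)) fun x => ?_
    change ‖F j x‖ ≤ ‖hA.app (b j) x‖ ^ 2 + ‖hK.app (b j) x‖ ^ 2
    rw [norm_mul, RCLike.norm_conj]
    nlinarith [sq_nonneg (‖hA.app (b j) x‖ - ‖hK.app (b j) x‖), norm_nonneg (hA.app (b j) x),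
      norm_nonneg (hK.app (b j) x)]
  have hsum : Summable fun j => ∫ x, ‖F j x‖ ∂μ :=
    Summable.of_nonneg_of_le (fun j => integral_nonneg fun x => norm_nonneg _) hb
      ((hA.isHS_op.summable b).add (hK.isHS_op.summable b))
  have h2 := hasSum_integral_of_summable_integral_norm hint hsum
  simp_rw [h1] at h2
  have h3 : (fun j => ⟪hA.op (b j), hK.op (b j)⟫_ℂ) = fun j => ∫ x, F j x ∂μ :=
    funext fun j => hK.inner_op_op hA _ _
  rw [h3]
  exact h2

theorem inner_rowV {A : Ω → Ω → ℂ} (hA : IsL2Ker μ A) (x : Ω) :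
    ⟪hK.rowV x, hA.rowV x⟫_ℂ = ∫ y, K x y * (starRingEnd ℂ) (A x y) ∂μ := by
  change hK.app (hA.rowV x) x = _
  rw [hK.app_eq]
  refine integral_congr_ae ?_
  filter_upwards [(hA.row_star x).coeFn_toLp] with y hy
  rw [rowV, hy]

end IsL2Ker

section adjoint

variable {K : Ω → Ω → ℂ}

variable (μ) in
/-- square integrable kernels with square integrable rows and columns -/
structure IsL2Ker₂ (K : Ω → Ω → ℂ) : Prop extends IsL2Ker μ K where
  col : ∀ y, MemLp (fun x => K x y) 2 μ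

/-- the adjoint kernel -/
def adjK (K : Ω → Ω → ℂ) : Ω → Ω → ℂ := fun x y => (starRingEnd ℂ) (K y x)

theorem IsL2Ker₂.adjK (hK : IsL2Ker₂ μ K) : IsL2Ker₂ μ (adjK K) where
  meas := by
    have h1 : StronglyMeasurable fun p : Ω × Ω => Function.uncurry K p.swap :=
      hK.meas.comp_measurable measurable_swap
    exact continuous_star.comp_stronglyMeasurable h1
  row x := (hK.col x).star
  memLp := by
    have h1 : MemLp (fun p : Ω × Ω => Function.uncurry K p.swap) 2 (μ.prod μ) :=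
      hK.memLp.comp_measurePreserving Measure.measurePreserving_swap
    exact h1.star
  col x := (hK.row x).star

/-- the absolute value of a kernel -/
theorem IsL2Ker.abs (hK : IsL2Ker μ K) : IsL2Ker μ (fun x y => ((‖K x y‖ : ℝ) : ℂ)) where
  meas := Complex.continuous_ofReal.comp_stronglyMeasurable hK.meas.norm
  row x := (hK.row x).norm.ofReal
  memLp := hK.memLp.norm.ofReal

theorem IsL2Ker.integrable_prod (hK : IsL2Ker μ K) (f g : Lp ℂ 2 μ) :
    Integrable (fun p : Ω × Ω => (starRingEnd ℂ) (f p.1) * (K p.1 p.2 * g p.2)) (μ.prod μ) := by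
  have hmeas : AEStronglyMeasurable
      (fun p : Ω × Ω => (starRingEnd ℂ) (f p.1) * (K p.1 p.2 * g p.2)) (μ.prod μ) :=
    (continuous_star.comp_aestronglyMeasurable ((Lp.aestronglyMeasurable f).comp_fst)).mul
      (hK.meas.aestronglyMeasurable.mul ((Lp.aestronglyMeasurable g).comp_snd))
  rw [integrable_prod_iff hmeas]
  constructor
  · refine Filter.Eventually.of_forall fun x => ?_
    exact (MemLp.integrable_mul (hK.row x) (Lp.memLp g)).const_mul ((starRingEnd ℂ) (f x))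
  · let g' : Lp ℂ 2 μ := ((Lp.memLp g).norm.ofReal).toLp _
    have h1 : ∀ x, ∫ y, ‖(starRingEnd ℂ) (f x) * (K x y * g y)‖ ∂μ = ‖f x‖ * ‖hK.abs.app g' x‖ := by
      intro x
      have h2 : hK.abs.app g' x = ((∫ y, ‖K x y‖ * ‖g y‖ ∂μ : ℝ) : ℂ) := by
        rw [hK.abs.app_eq, ← integral_complex_ofReal]
        refine integral_congr_ae ?_
        filter_upwards [((Lp.memLp g).norm.ofReal (K := ℂ)).coeFn_toLp] with y hy
        rw [hy]
        push_cast
        rfl
      rw [h2, Complex.norm_real, Real.norm_of_nonneg (integral_nonneg fun y => by positivity),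
        ← integral_const_mul]
      refine integral_congr_ae (Filter.Eventually.of_forall fun y => ?_)
      simp only [norm_mul, RCLike.norm_conj]
    simp_rw [h1]
    exact MemLp.integrable_mul (Lp.memLp f).norm (hK.abs.memLp_app g').norm

theorem IsL2Ker₂.op_adjK (hK : IsL2Ker₂ μ K) :
    hK.adjK.op = ContinuousLinearMap.adjoint hK.op := by
  rw [ContinuousLinearMap.eq_adjoint_iff]
  intro f g
  rw [← inner_conj_symm, hK.adjK.inner_op, hK.inner_op, ← integral_conj]
  simp_rw [IsL2Ker.app_eq]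
  have h1 := integral_integral_swap (μ := μ) (ν := μ)
    (f := fun x y => (starRingEnd ℂ) (f x) * (K x y * g y)) (hK.integrable_prod f g)
  have h2 : ∀ x, (starRingEnd ℂ) (f x) * ∫ y, K x y * g y ∂μ =
      ∫ y, (starRingEnd ℂ) (f x) * (K x y * g y) ∂μ := fun x => (integral_const_mul _ _).symm
  simp_rw [h2]
  rw [h1]
  refine integral_congr_ae (Filter.Eventually.of_forall fun y => ?_)
  simp only [map_mul, RCLike.conj_conj]
  rw [← integral_conj, ← integral_const_mul]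
  refine integral_congr_ae (Filter.Eventually.of_forall fun x => ?_)
  simp only [LT.FA.adjK, map_mul, RCLike.conj_conj]
  ring

/-- **The trace of a product of two integral operators.** -/
theorem IsL2Ker₂.hsTrace_op [TopologicalSpace.SeparableSpace (Lp ℂ 2 μ)] {K' : Ω → Ω → ℂ}
    (hK : IsL2Ker₂ μ K) (hK' : IsL2Ker μ K') :
    hsTrace hK.op hK'.op = ∫ x, ∫ y, K' x y * K y x ∂μ ∂μ := by
  rw [hsTrace, ← hK.op_adjK, (hK'.hasSum_inner_op hK.adjK.toIsL2Ker (stdB (Lp ℂ 2 μ))).tsum_eq]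
  refine integral_congr_ae (Filter.Eventually.of_forall fun x => ?_)
  change ⟪hK'.rowV x, hK.adjK.rowV x⟫_ℂ = _
  rw [hK'.inner_rowV]
  refine integral_congr_ae (Filter.Eventually.of_forall fun y => ?_)
  change K' x y * (starRingEnd ℂ) ((starRingEnd ℂ) (K y x)) = _
  rw [RCLike.conj_conj]

end adjoint

section bounded

variable {K : Ω → Ω → ℂ} [IsFiniteMeasure μ]

/-- bounded kernels on finite measure spaces -/
theorem isL2Ker₂_of_bound (hm : StronglyMeasurable (Function.uncurry K)) {C : ℝ}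
    (hC : ∀ x y, ‖K x y‖ ≤ C) : IsL2Ker₂ μ K where
  meas := hm
  row x := MemLp.of_bound (hm.comp_measurable measurable_prodMk_left).aestronglyMeasurable C
    (Filter.Eventually.of_forall fun y => hC x y)
  memLp := MemLp.of_bound hm.aestronglyMeasurable C (Filter.Eventually.of_forall fun p => hC _ _)
  col y := MemLp.of_bound (hm.comp_measurable measurable_prodMk_right).aestronglyMeasurable C
    (Filter.Eventually.of_forall fun x => hC x y)

end bounded

end Fermat.Agent.LT.FA
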