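import Fermat.Agent.LT.FA.Weight

/-!
# Integration over the quotient by a countable group, class unfolding
-/

set_option autoImplicit false
set_option linter.unusedSectionVars false
set_option linter.unusedVariables false

open scoped ENNReal NNReal
open MeasureTheory

namespace Fermat.Agent.LT.FA

theorem tsum_nnreal_smul' {ι E : Type*} [NormedAddCommGroup E] [NormedSpace ℝ E] {a : ι → ℝ≥0}
    {c : ℝ≥0} (ha : ∑' i, (a i : ℝ≥0∞) = c) (x : E) : ∑' i, a i • x = c • x := by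
  have h5 : Summable a := by
    rw [← ENNReal.tsum_coe_ne_top_iff_summable, ha]
    exact ENNReal.coe_ne_top
  have h6 : ∑' i, a i = c := by
    have := ENNReal.coe_tsum h5
    rw [ha] at this
    exact_mod_cast this
  have h8 : HasSum (fun i => (a i : ℝ)) c := by
    have := h5.hasSum
    rw [h6] at this
    exact NNReal.hasSum_coe.mpr this
  exact (h8.smul_const x).tsum_eq

section exist

variable {G Y : Type*} [Group G] [MulAction G Y] [MeasurableSpace Y] [MeasurableConstSMul G Y]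
  {μ : Measure Y} [SMulInvariantMeasure G Y μ] [Countable G]

/-- **existence of weights** -/
theorem exists_isWt (S : Set Y) (hS : MeasurableSet S)
    (h1 : ∀ᵐ y ∂μ, ∃ g : G, g • y ∈ S) (h2 : ∀ᵐ y ∂μ, {g : G | g • y ∈ S}.Finite) :
    ∃ w : Y → ℝ≥0, IsWt G μ w ∧ (∀ y, w y ≤ 1) ∧ ∀ y, y ∉ S → w y = 0 := by
  classical
  set N : Y → ℝ≥0∞ := fun y => ∑' g : G, S.indicator 1 (g • y) with hN
  have hNm : Measurable N := Measurable.tsum fun g =>
    (measurable_one.indicator hS).comp (measurable_const_smul g)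
  have hNg : ∀ (g : G) (y : Y), N (g • y) = N y := by
    intro g y
    simp only [hN]
    rw [← (Equiv.mulRight g).tsum_eq (fun h : G => S.indicator (1 : Y → ℝ≥0∞) (h • y))]
    simp [mul_smul]
  have hN1 : ∀ y, y ∈ S → 1 ≤ N y := by
    intro y hy
    have := ENNReal.le_tsum (f := fun g : G => S.indicator (1 : Y → ℝ≥0∞) (g • y)) 1
    simpa [hy] using this
  have hNt : ∀ y, {g : G | g • y ∈ S}.Finite → N y ≠ ∞ := by
    intro y hy
    have h3 : N y = ∑ g ∈ hy.toFinset, S.indicator (1 : Y → ℝ≥0∞) (g • y) := by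
      refine tsum_eq_sum fun g hg => ?_
      rw [Set.indicator_of_notMem]
      simpa using hg
    rw [h3]
    refine (ENNReal.sum_lt_top.mpr fun g _ => ?_).ne
    by_cases h : g • y ∈ S <;> simp [h]
  refine ⟨fun y => (S.indicator (fun _ => 1) y / N y).toNNReal, ⟨?_, ?_⟩, ?_, ?_⟩
  · exact (((measurable_const.indicator hS).div hNm)).ennreal_toNNReal
  · filter_upwards [h1, h2] with y hy1 hy2
    have h3 : ∀ g : G, (((S.indicator (fun _ => (1 : ℝ≥0∞)) (g • y) / N (g • y)).toNNReal : ℝ≥0) :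
        ℝ≥0∞) = S.indicator 1 (g • y) / N y := by
      intro g
      rw [hNg, ENNReal.coe_toNNReal]
      · rfl
      · by_cases h : g • y ∈ S
        · rw [Set.indicator_of_mem h, ← hNg g y]
          exact (ENNReal.div_lt_top ENNReal.one_ne_top
            (fun h0 => by have := hN1 _ h; rw [h0] at this; simp at this)).ne
        · rw [Set.indicator_of_notMem h]; simp
    simp_rw [h3, div_eq_mul_inv]
    rw [ENNReal.tsum_mul_right]
    obtain ⟨g, hg⟩ := hy1
    refine ENNReal.mul_inv_cancel ?_ (hNt y hy2)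
    change N y ≠ 0
    rw [← hNg g y]
    intro h0
    have := hN1 _ hg
    rw [h0] at this
    simp at this
  · intro y
    by_cases h : y ∈ S
    · have h4 : S.indicator (fun _ => (1 : ℝ≥0∞)) y / N y ≤ 1 := by
        rw [Set.indicator_of_mem h]
        exact ENNReal.div_le_of_le_mul (by simpa using hN1 y h)
      have := ENNReal.toNNReal_mono ENNReal.one_ne_top h4
      simpa using this
    · simp [h]
  · intro y h
    simp [h]

end exist

section sub

instance instCountableCosets {G : Type*} [Group G] [Countable G] (T : Subgroup G) :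
    Countable (G ⧸ T) := Quotient.countable

variable {G Y : Type*} [Group G] [MulAction G Y] [MeasurableSpace Y] [MeasurableConstSMul G Y]
  {μ : Measure Y} [SMulInvariantMeasure G Y μ] [Countable G] {w : Y → ℝ≥0}

/-- the induced weight for a subgroup -/
noncomputable def wtSub (T : Subgroup G) (w : Y → ℝ≥0) (y : Y) : ℝ≥0 :=
  (∑' q : G ⧸ T, (w (q.out • y) : ℝ≥0∞)).toNNReal

/-- coset representatives -/
noncomputable def outEquiv (T : Subgroup G) : (G ⧸ T) × T ≃ G :=
  Equiv.ofBijective (fun p => p.1.out * p.2) (by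
    constructor
    · rintro ⟨q, t⟩ ⟨q', t'⟩ h
      have h1 : q = q' := by
        have h2 : ((q.out * t : G) : G ⧸ T) = ((q'.out * t' : G) : G ⧸ T) := congrArg _ h
        rw [QuotientGroup.mk_mul_of_mem _ t.2, QuotientGroup.mk_mul_of_mem _ t'.2] at h2
        simpa using h2
      subst h1
      have h3 : (t : G) = t' := mul_left_cancel h
      rw [Subtype.ext h3]
    · intro g
      refine ⟨((g : G ⧸ T), ⟨(g : G ⧸ T).out⁻¹ * g, ?_⟩), ?_⟩
      · exact QuotientGroup.eq.mp (QuotientGroup.out_eq' _)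
      · simp)

theorem tsum_eq_tsum_sub (T : Subgroup G) (f : G → ℝ≥0∞) :
    ∑' g : G, f g = ∑' (t : T) (q : G ⧸ T), f (q.out * t) := by
  rw [ENNReal.tsum_comm, ← (outEquiv T).tsum_eq, ENNReal.tsum_prod']
  rfl

theorem IsWt.coe_wtSub (hw : IsWt G μ w) (T : Subgroup G) :
    ∀ᵐ y ∂μ, (wtSub T w y : ℝ≥0∞) = ∑' q : G ⧸ T, (w (q.out • y) : ℝ≥0∞) := by
  filter_upwards [hw.sum_eq] with y hy
  rw [wtSub, ENNReal.coe_toNNReal]
  have h1 := tsum_eq_tsum_sub T (fun g => (w (g • y) : ℝ≥0∞))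
  rw [hy] at h1
  have h2 := ENNReal.le_tsum (f := fun t : T => ∑' q : G ⧸ T, (w ((q.out * t) • y) : ℝ≥0∞)) 1
  rw [← h1] at h2
  refine (lt_of_le_of_lt ?_ ENNReal.one_lt_top).ne
  simpa using h2

theorem measurable_wtSub (hw : Measurable w) (T : Subgroup G) : Measurable (wtSub T w) := by
  refine Measurable.ennreal_toNNReal ?_
  exact Measurable.tsum fun q => hw.coe_nnreal_ennreal.comp (measurable_const_smul q.out)

/-- the induced weight for a subgroup -/
theorem IsWt.sub (hw : IsWt G μ w) (T : Subgroup G) : IsWt T μ (wtSub T w) := by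
  refine ⟨measurable_wtSub hw.meas T, ?_⟩
  have h1 : ∀ᵐ y ∂μ, ∀ t : T, (wtSub T w (t • y) : ℝ≥0∞) =
      ∑' q : G ⧸ T, (w (q.out • (t • y)) : ℝ≥0∞) := by
    rw [ae_all_iff]
    exact fun t => ae_smul (G := G) (hw.coe_wtSub T) (t : G)
  filter_upwards [h1, hw.sum_eq] with y hy hy2
  simp_rw [hy]
  rw [← hy2, tsum_eq_tsum_sub T]
  refine tsum_congr fun t => tsum_congr fun q => ?_
  rw [mul_smul]
  rfl

end sub

section comap

variable {G₁ G₂ Y₁ Y₂ : Type*} [Group G₁] [Group G₂] [MulAction G₁ Y₁] [MulAction G₂ Y₂]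
  [MeasurableSpace Y₁] [MeasurableSpace Y₂] [Countable G₁] {μ₁ : Measure Y₁} {μ₂ : Measure Y₂}
  {w : Y₂ → ℝ≥0}

/-- pull back of weights -/
theorem IsWt.comap (hw : IsWt G₂ μ₂ w) {φ : Y₁ → Y₂} (hm : Measurable φ)
    (hφ : ∀ s, MeasurableSet s → μ₂ s = 0 → μ₁ (φ ⁻¹' s) = 0) (e : G₁ ≃ G₂)
    (heq : ∀ t, ∀ᵐ y ∂μ₁, φ (t • y) = e t • φ y) : IsWt G₁ μ₁ (fun y => w (φ y)) := by
  refine ⟨hw.meas.comp hm, ?_⟩
  have hq : Measure.QuasiMeasurePreserving φ μ₁ μ₂ := ⟨hm, by
    refine Measure.AbsolutelyContinuous.mk fun s hs h0 => ?_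
    rw [Measure.map_apply hm hs]
    exact hφ s hs h0⟩
  have h1 : ∀ᵐ y ∂μ₁, ∑' g : G₂, (w (g • φ y) : ℝ≥0∞) = 1 := hq.ae hw.sum_eq
  have h2 : ∀ᵐ y ∂μ₁, ∀ t, φ (t • y) = e t • φ y := by rw [ae_all_iff]; exact heq
  filter_upwards [h1, h2] with y hy hy2
  simp_rw [hy2]
  rw [← hy]
  exact e.tsum_eq (fun g : G₂ => (w (g • φ y) : ℝ≥0∞))

end comap

instance instSMulInvariantSubgroup {G Y : Type*} [Group G] [MulAction G Y] [MeasurableSpace Y]
    {μ : Measure Y} [SMulInvariantMeasure G Y μ] (T : Subgroup G) : SMulInvariantMeasure T Y μ :=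
  ⟨fun t _ hs => SMulInvariantMeasure.measure_preimage_smul (t : G) hs⟩

section qint

variable {G Y E : Type*} [Group G] [MulAction G Y] [MeasurableSpace Y] [MeasurableConstSMul G Y]
  {μ : Measure Y} [SMulInvariantMeasure G Y μ] [Countable G] {w : Y → ℝ≥0}
  [NormedAddCommGroup E] [NormedSpace ℝ E] [CompleteSpace E]

open Classical in
/-- the integral of an invariant function over the quotient -/
noncomputable def qint (G : Type*) {Y E : Type*} [Group G] [MulAction G Y] [MeasurableSpace Y]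
    [NormedAddCommGroup E] [NormedSpace ℝ E] (μ : Measure Y) (F : Y → E) : E :=
  if h : ∃ w : Y → ℝ≥0, IsWt G μ w then ∫ y, F y ∂(wtM μ h.choose) else 0

open Classical in
/-- the integral of an invariant function over the quotient -/
noncomputable def qlint (G : Type*) {Y : Type*} [Group G] [MulAction G Y] [MeasurableSpace Y]
    (μ : Measure Y) (F : Y → ℝ≥0∞) : ℝ≥0∞ :=
  if h : ∃ w : Y → ℝ≥0, IsWt G μ w then ∫⁻ y, F y ∂(wtM μ h.choose) else 0

theorem IsWt.qint_eq (hw : IsWt G μ w) {F : Y → E} (hF : AEStronglyMeasurable F μ)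
    (hi : AEInv G μ F) : qint G μ F = ∫ y, F y ∂(wtM μ w) := by
  have h : ∃ w : Y → ℝ≥0, IsWt G μ w := ⟨w, hw⟩
  rw [qint, dif_pos h]
  exact h.choose_spec.integral_eq hw hF hi

theorem IsWt.qlint_eq (hw : IsWt G μ w) {F : Y → ℝ≥0∞} (hF : AEMeasurable F μ)
    (hi : AEInv G μ F) : qlint G μ F = ∫⁻ y, F y ∂(wtM μ w) := by
  have h : ∃ w : Y → ℝ≥0, IsWt G μ w := ⟨w, hw⟩
  rw [qlint, dif_pos h]
  exact h.choose_spec.lintegral_eq hw hF hi

end qint

section classes

variable {G Y S E : Type*} [Group G] [MulAction G Y] [MeasurableSpace Y] [MeasurableConstSMul G Y]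
  {μ : Measure Y} [SMulInvariantMeasure G Y μ] [Countable G] {w : Y → ℝ≥0}
  [NormedAddCommGroup E] [NormedSpace ℝ E] [CompleteSpace E] [MulAction G S] [Countable S]

theorem sigma_symm_apply (ω : MulAction.orbitRel.Quotient G S)
    (q : G ⧸ MulAction.stabilizer G ω.out) :
    (MulAction.selfEquivSigmaOrbitsQuotientStabilizer G S).symm ⟨ω, q⟩ = q.out • ω.out := by
  have h1 : (MulAction.selfEquivSigmaOrbitsQuotientStabilizer G S).symm ⟨ω, q⟩ =
      MulAction.ofQuotientStabilizer G ω.out q := rfl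
  rw [h1]
  conv_lhs => rw [← QuotientGroup.out_eq' q]
  rfl

/-- sum over a `G`-set as a sum over the orbits -/
theorem tsum_orbits (f : S → ℝ≥0∞) : ∑' X : S, f X =
    ∑' (ω : MulAction.orbitRel.Quotient G S) (q : G ⧸ MulAction.stabilizer G ω.out),
      f (q.out • ω.out) := by
  rw [← (MulAction.selfEquivSigmaOrbitsQuotientStabilizer G S).symm.tsum_eq, ENNReal.tsum_sigma']
  refine tsum_congr fun ω => tsum_congr fun q => ?_
  rw [sigma_symm_apply]

theorem lintegral_move {F : S → Y → ℝ≥0∞} (hF : ∀ X, AEMeasurable (F X) μ) (hw : Measurable w)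
    (hi : ∀ (g : G) (X : S), ∀ᵐ y ∂μ, F (g • X) (g • y) = F X y) (g : G) (X : S) :
    ∫⁻ y, F (g • X) y ∂(wtM μ w) = ∫⁻ y, w (g • y) * F X y ∂μ := by
  rw [lintegral_wtM hw (hF _), ← lintegral_smul' (μ := μ) g (fun y => w y * F (g • X) y)]
  refine lintegral_congr_ae ?_
  filter_upwards [hi g X] with y hy
  rw [hy]

/-- **class unfolding** (nonnegative functions) -/
theorem IsWt.lintegral_classes (hw : IsWt G μ w) {F : S → Y → ℝ≥0∞}
    (hF : ∀ X, AEMeasurable (F X) μ)
    (hi : ∀ (g : G) (X : S), ∀ᵐ y ∂μ, F (g • X) (g • y) = F X y) :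
    ∫⁻ y, ∑' X : S, F X y ∂(wtM μ w) = ∑' ω : MulAction.orbitRel.Quotient G S,
      ∫⁻ y, F ω.out y ∂(wtM μ (wtSub (MulAction.stabilizer G ω.out) w)) := by
  rw [lintegral_tsum (fun X => (hF X).mono_ac wtM_ac), tsum_orbits (G := G)]
  refine tsum_congr fun ω => ?_
  simp_rw [lintegral_move hF hw.meas hi]
  have h2 : ∀ q : G ⧸ MulAction.stabilizer G ω.out,
      AEMeasurable (fun y => (w (q.out • y) : ℝ≥0∞) * F ω.out y) μ := fun q =>
    (aemeasurable_smul hw.meas.coe_nnreal_ennreal.aemeasurable q.out).mul (hF _)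
  rw [← lintegral_tsum h2, lintegral_wtM (measurable_wtSub hw.meas _) (hF _)]
  refine lintegral_congr_ae ?_
  filter_upwards [hw.coe_wtSub (MulAction.stabilizer G ω.out)] with y hy
  rw [ENNReal.tsum_mul_right, hy]

theorem integral_move {F : S → Y → E} (hw : Measurable w)
    (hi : ∀ (g : G) (X : S), ∀ᵐ y ∂μ, F (g • X) (g • y) = F X y) (g : G) (X : S) :
    ∫ y, F (g • X) y ∂(wtM μ w) = ∫ y, w (g • y) • F X y ∂μ := by
  rw [integral_wtM hw, ← integral_smul' (μ := μ) g (fun y => w y • F (g • X) y)]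
  refine integral_congr_ae ?_
  filter_upwards [hi g X] with y hy
  rw [hy]

theorem summable_integral_of_lintegral {Ω' ι E' : Type*} [MeasurableSpace Ω'] {ν : Measure Ω'}
    [NormedAddCommGroup E'] [NormedSpace ℝ E'] [CompleteSpace E'] {F : ι → Ω' → E'}
    (hs : ∑' i, ∫⁻ y, ‖F i y‖ₑ ∂ν ≠ ∞) : Summable (fun i => ∫ y, F i y ∂ν) := by
  refine Summable.of_norm_bounded (ENNReal.summable_toReal hs) fun i => ?_
  rw [← toReal_enorm]
  exact ENNReal.toReal_mono (ENNReal.ne_top_of_tsum_ne_top hs i) (enorm_integral_le_lintegral_enorm _)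

/-- **class unfolding** -/
theorem IsWt.integral_classes (hw : IsWt G μ w) {F : S → Y → E}
    (hF : ∀ X, AEStronglyMeasurable (F X) μ)
    (hi : ∀ (g : G) (X : S), ∀ᵐ y ∂μ, F (g • X) (g • y) = F X y)
    (hfin : ∑' X : S, ∫⁻ y, ‖F X y‖ₑ ∂(wtM μ w) ≠ ∞) :
    HasSum (fun ω : MulAction.orbitRel.Quotient G S =>
      ∫ y, F ω.out y ∂(wtM μ (wtSub (MulAction.stabilizer G ω.out) w)))
      (∫ y, ∑' X : S, F X y ∂(wtM μ w)) := by
  rw [MeasureTheory.integral_tsum (fun X => (hF X).mono_ac wtM_ac) hfin]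
  have h1 := (summable_integral_of_lintegral hfin).hasSum
  rw [← (MulAction.selfEquivSigmaOrbitsQuotientStabilizer G S).symm.hasSum_iff] at h1
  have h2 := h1.sigma (fun ω => (h1.summable.comp_injective (sigma_mk_injective (i := ω))).hasSum)
  have key : ∀ ω : MulAction.orbitRel.Quotient G S,
      (∑' q : G ⧸ MulAction.stabilizer G ω.out,
        (((fun i => ∫ y, F i y ∂wtM μ w) ∘
          ⇑(MulAction.selfEquivSigmaOrbitsQuotientStabilizer G S).symm) ∘ Sigma.mk ω) q) =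
      ∫ y, F ω.out y ∂(wtM μ (wtSub (MulAction.stabilizer G ω.out) w)) := by
    intro ω
    have e1 : ∀ q : G ⧸ MulAction.stabilizer G ω.out,
        (((fun i => ∫ y, F i y ∂wtM μ w) ∘
          ⇑(MulAction.selfEquivSigmaOrbitsQuotientStabilizer G S).symm) ∘ Sigma.mk ω) q =
        ∫ y, w (q.out • y) • F ω.out y ∂μ := by
      intro q
      rw [← integral_move hw.meas hi, Function.comp_apply, Function.comp_apply, sigma_symm_apply]
    simp_rw [e1]
    have e2 : ∀ q : G ⧸ MulAction.stabilizer G ω.out,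
        AEStronglyMeasurable (fun y => w (q.out • y) • F ω.out y) μ := fun q =>
      (aesm_smul hw.meas.aestronglyMeasurable q.out).smul (hF _)
    have hi' : ∀ (g : G) (X : S), ∀ᵐ y ∂μ, ‖F (g • X) (g • y)‖ₑ = ‖F X y‖ₑ := by
      intro g X
      filter_upwards [hi g X] with y hy
      rw [hy]
    have e3 : ∑' q : G ⧸ MulAction.stabilizer G ω.out,
        ∫⁻ y, ‖w (q.out • y) • F ω.out y‖ₑ ∂μ ≠ ∞ := by
      have e4 : ∀ q : G ⧸ MulAction.stabilizer G ω.out,
          ∫⁻ y, ‖w (q.out • y) • F ω.out y‖ₑ ∂μ = ∫⁻ y, ‖F (q.out • ω.out) y‖ₑ ∂(wtM μ w) := by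
        intro q
        rw [lintegral_move (F := fun X y => ‖F X y‖ₑ) (fun X => (hF X).enorm) hw.meas hi']
        simp_rw [enorm_nnreal_smul]
      simp_rw [e4]
      rw [tsum_orbits (G := G)] at hfin
      exact ENNReal.ne_top_of_tsum_ne_top hfin ω
    rw [← MeasureTheory.integral_tsum e2 e3, integral_wtM (measurable_wtSub hw.meas _)]
    refine integral_congr_ae ?_
    filter_upwards [hw.coe_wtSub (MulAction.stabilizer G ω.out)] with y hy
    exact tsum_nnreal_smul' hy.symm (F ω.out y)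
  simp_rw [key] at h2
  exact h2

theorem aeInv_stab {E' : Type*} {F : S → Y → E'}
    (hi : ∀ (g : G) (X : S), ∀ᵐ y ∂μ, F (g • X) (g • y) = F X y) (X : S) :
    AEInv (MulAction.stabilizer G X) μ (F X) := by
  intro t
  filter_upwards [hi (t : G) X] with y hy
  rw [MulAction.mem_stabilizer_iff.mp t.2] at hy
  exact hy

/-- **class unfolding** -/
theorem IsWt.integral_classes_qint (hw : IsWt G μ w) {F : S → Y → E}
    (hF : ∀ X, AEStronglyMeasurable (F X) μ)
    (hi : ∀ (g : G) (X : S), ∀ᵐ y ∂μ, F (g • X) (g • y) = F X y)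
    (hfin : ∑' X : S, ∫⁻ y, ‖F X y‖ₑ ∂(wtM μ w) ≠ ∞) :
    HasSum (fun ω : MulAction.orbitRel.Quotient G S =>
      qint (MulAction.stabilizer G ω.out) μ (F ω.out))
      (∫ y, ∑' X : S, F X y ∂(wtM μ w)) := by
  have h1 := hw.integral_classes hF hi hfin
  convert h1 using 2 with ω
  exact (hw.sub _).qint_eq (hF _) (aeInv_stab hi ω.out)

/-- **class unfolding** -/
theorem IsWt.lintegral_classes_qlint (hw : IsWt G μ w) {F : S → Y → ℝ≥0∞}
    (hF : ∀ X, AEMeasurable (F X) μ)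
    (hi : ∀ (g : G) (X : S), ∀ᵐ y ∂μ, F (g • X) (g • y) = F X y) :
    ∫⁻ y, ∑' X : S, F X y ∂(wtM μ w) = ∑' ω : MulAction.orbitRel.Quotient G S,
      qlint (MulAction.stabilizer G ω.out) μ (F ω.out) := by
  rw [hw.lintegral_classes hF hi]
  refine tsum_congr fun ω => ?_
  exact ((hw.sub _).qlint_eq (hF _) (aeInv_stab hi ω.out)).symm

/-- conjugation of stabilisers -/
def stabConj (g : G) (X : S) : MulAction.stabilizer G (g • X) ≃ MulAction.stabilizer G X where
  toFun t := ⟨g⁻¹ * t * g, by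
    have := MulAction.mem_stabilizer_iff.mp t.2
    rw [MulAction.mem_stabilizer_iff, mul_smul, mul_smul, this, inv_smul_smul]⟩
  invFun t := ⟨g * t * g⁻¹, by
    have := MulAction.mem_stabilizer_iff.mp t.2
    rw [MulAction.mem_stabilizer_iff, mul_smul, mul_smul, inv_smul_smul, this]⟩
  left_inv t := Subtype.ext (by simp [mul_assoc])
  right_inv t := Subtype.ext (by simp [mul_assoc])

theorem IsWt.stab_conj (g : G) (X : S) {w₁ : Y → ℝ≥0} (hw₁ : IsWt (MulAction.stabilizer G X) μ w₁) :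
    IsWt (MulAction.stabilizer G (g • X)) μ (fun y => w₁ (g⁻¹ • y)) := by
  refine hw₁.comap (measurable_const_smul g⁻¹) ?_ (stabConj g X) ?_
  · intro s hs h0
    rw [measure_preimage_smul]
    exact h0
  · intro t
    refine Filter.Eventually.of_forall fun y => ?_
    change g⁻¹ • ((t : G) • y) = (g⁻¹ * (t : G) * g) • (g⁻¹ • y)
    rw [mul_smul, mul_smul, smul_inv_smul]

/-- the class terms only depend on the class -/
theorem IsWt.qint_smul (hw : IsWt G μ w) {F : S → Y → E}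
    (hF : ∀ X, AEStronglyMeasurable (F X) μ)
    (hi : ∀ (g : G) (X : S), ∀ᵐ y ∂μ, F (g • X) (g • y) = F X y) (g : G) (X : S) :
    qint (MulAction.stabilizer G (g • X)) μ (F (g • X)) =
      qint (MulAction.stabilizer G X) μ (F X) := by
  have h1 := hw.sub (MulAction.stabilizer G X)
  have h2 := IsWt.stab_conj g X h1
  rw [h1.qint_eq (hF _) (aeInv_stab hi X), h2.qint_eq (hF _) (aeInv_stab hi (g • X)),
    integral_wtM h1.meas, integral_wtM h2.meas,
    ← integral_smul' (μ := μ) g (fun y => wtSub (MulAction.stabilizer G X) w (g⁻¹ • y) • F (g • X) y)]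
  refine integral_congr_ae ?_
  filter_upwards [hi g X] with y hy
  rw [hy, inv_smul_smul]

end classes

section push

variable {G₁ G₂ Y₁ Y₂ E : Type*} [Group G₁] [Group G₂] [MulAction G₁ Y₁] [MulAction G₂ Y₂]
  [MeasurableSpace Y₁] [MeasurableSpace Y₂] [MeasurableConstSMul G₁ Y₁] [MeasurableConstSMul G₂ Y₂]
  [Countable G₁] [Countable G₂] {μ₁ : Measure Y₁} {μ₂ : Measure Y₂}
  [SMulInvariantMeasure G₁ Y₁ μ₁] [SMulInvariantMeasure G₂ Y₂ μ₂]
  {w : Y₂ → ℝ≥0} [NormedAddCommGroup E] [NormedSpace ℝ E] [CompleteSpace E]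

/-- comparison of integrals over quotients along an equivariant map -/
theorem IsWt.qint_push (hw : IsWt G₂ μ₂ w) {φ : Y₁ → Y₂} (hm : Measurable φ)
    (hφ : ∀ s, MeasurableSet s → μ₂ s = 0 → μ₁ (φ ⁻¹' s) = 0) (e : G₁ ≃ G₂)
    (heq : ∀ t, ∀ᵐ y ∂μ₁, φ (t • y) = e t • φ y) {F₁ : Y₁ → E} {F₂ : Y₂ → E}
    (hF₁ : AEStronglyMeasurable F₁ μ₁) (hF₂ : AEStronglyMeasurable F₂ μ₂)
    (hi₁ : AEInv G₁ μ₁ F₁) (hi₂ : AEInv G₂ μ₂ F₂)
    (h : ∫ y, w (φ y) • F₁ y ∂μ₁ = ∫ y, w y • F₂ y ∂μ₂) : qint G₁ μ₁ F₁ = qint G₂ μ₂ F₂ := by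
  have h1 := hw.comap hm hφ e heq
  rw [hw.qint_eq hF₂ hi₂, h1.qint_eq hF₁ hi₁, integral_wtM hw.meas, integral_wtM h1.meas, h]

/-- comparison of integrals over quotients along an equivariant measure preserving map -/
theorem IsWt.qint_comp (hw : IsWt G₂ μ₂ w) {φ : Y₁ → Y₂} (hφ : MeasurePreserving φ μ₁ μ₂)
    (e : G₁ ≃ G₂) (heq : ∀ t, ∀ᵐ y ∂μ₁, φ (t • y) = e t • φ y) {F : Y₂ → E}
    (hF : AEStronglyMeasurable F μ₂) (hi : AEInv G₂ μ₂ F) :
    qint G₁ μ₁ (fun y => F (φ y)) = qint G₂ μ₂ F := by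
  refine hw.qint_push hφ.measurable ?_ e heq
    (hF.comp_measurePreserving hφ) hF ?_ hi ?_
  · intro s hs h0
    rw [hφ.measure_preimage hs.nullMeasurableSet]
    exact h0
  · intro t
    have h1 : ∀ᵐ y ∂μ₁, F (e t • φ y) = F (φ y) := hφ.quasiMeasurePreserving.ae (hi (e t))
    filter_upwards [heq t, h1] with y hy hy2
    rw [hy, hy2]
  · have h2 : AEStronglyMeasurable (fun y => w y • F y) μ₂ :=
      hw.meas.aestronglyMeasurable.smul hF
    rw [← hφ.map_eq] at h2
    have h3 := integral_map hφ.measurable.aemeasurable h2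
    rw [hφ.map_eq] at h3
    exact h3.symm

end push

end Fermat.Agent.LT.FA
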