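import Fermat.Agent.LT.FA.Trace

/-!
# The operator of an automorphism normalising the group, and the twisted trace formula
-/

set_option autoImplicit false
set_option linter.unusedSectionVars false
set_option linter.unusedVariables false

open scoped ENNReal NNReal InnerProductSpace
open MeasureTheory ProbabilityTheory

namespace Fermat.Agent.LT.FA

/-- automorphisms normalising the group -/
structure TwD (G : Type*) {Y : Type*} [Group G] [MulAction G Y] [MeasurableSpace Y]
    (μ : Measure Y) where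
  θ : Y ≃ᵐ Y
  e : G ≃* G
  mp : MeasurePreserving θ μ μ
  smul : ∀ (g : G) (y : Y), θ (g • y) = e g • θ y

variable {G Y : Type*} [Group G] [MulAction G Y] [MeasurableSpace Y] [MeasurableConstSMul G Y]
  {μ : Measure Y} [SMulInvariantMeasure G Y μ] [Countable G] {w : Y → ℝ≥0}

namespace TwD

/-- the inverse -/
def symm (D : TwD G μ) : TwD G μ where
  θ := D.θ.symm
  e := D.e.symm
  mp := D.mp.symm D.θ
  smul g y := by
    rw [MeasurableEquiv.symm_apply_eq, D.smul]
    simp

/-- the identity -/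
def refl (G : Type*) {Y : Type*} [Group G] [MulAction G Y] [MeasurableSpace Y]
    (μ : Measure Y) : TwD G μ where
  θ := MeasurableEquiv.refl Y
  e := MulEquiv.refl G
  mp := MeasurePreserving.id μ
  smul _ _ := rfl

theorem smul_symm (D : TwD G μ) (g : G) (y : Y) : D.θ.symm (g • y) = D.e.symm g • D.θ.symm y :=
  D.symm.smul g y

theorem isWt (D : TwD G μ) (hw : IsWt G μ w) : IsWt G μ (fun y => w (D.θ y)) := by
  refine hw.comap D.θ.measurable ?_ D.e.toEquiv (fun t => Filter.Eventually.of_forall (D.smul t))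
  intro s hs h0
  rw [D.mp.measure_preimage hs.nullMeasurableSet, h0]

theorem lintegral_comp (D : TwD G μ) (hw : IsWt G μ w) {F : Y → ℝ≥0∞} (hF : Measurable F)
    (hi : ∀ (g : G) y, F (g • y) = F y) :
    ∫⁻ y, F (D.θ.symm y) ∂(wtM μ w) = ∫⁻ y, F y ∂(wtM μ w) := by
  have h1 : Measurable (fun y => F (D.θ.symm y)) := hF.comp D.θ.symm.measurable
  rw [lintegral_wtM hw.meas h1.aemeasurable,
    ← D.mp.lintegral_comp_emb D.θ.measurableEmbedding (fun y => w y * F (D.θ.symm y))]
  simp only [MeasurableEquiv.symm_apply_apply]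
  rw [← lintegral_wtM (D.isWt hw).meas hF.aemeasurable]
  exact (D.isWt hw).lintegral_eq hw hF.aemeasurable
    (fun g => Filter.Eventually.of_forall fun y => hi g y)

theorem integral_comp (D : TwD G μ) (hw : IsWt G μ w) {F : Y → ℂ} (hF : Measurable F)
    (hi : ∀ (g : G) y, F (g • y) = F y) :
    ∫ y, F (D.θ.symm y) ∂(wtM μ w) = ∫ y, F y ∂(wtM μ w) := by
  rw [integral_wtM hw.meas,
    ← D.mp.integral_comp D.θ.measurableEmbedding (fun y => w y • F (D.θ.symm y))]
  simp only [MeasurableEquiv.symm_apply_apply]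
  rw [← integral_wtM (D.isWt hw).meas]
  exact (D.isWt hw).integral_eq hw hF.aestronglyMeasurable
    (fun g => Filter.Eventually.of_forall fun y => hi g y)

theorem fop (D : TwD G μ) (hw : IsWt G μ w) : FOp G μ w (fun F y => F (D.θ.symm y)) where
  meas F hF := hF.comp D.θ.symm.measurable
  inv F _ hi g y := by rw [D.smul_symm, hi]
  bdd := ⟨1, fun F hm hi hF => by
    rw [D.lintegral_comp hw (F := fun y => ‖F y‖ₑ ^ 2) (hm.enorm.pow_const 2)
      (fun g y => by rw [hi])]
    simp⟩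
  add F F' _ _ _ _ _ _ := Filter.Eventually.of_forall fun y => rfl
  smul c F _ _ _ := Filter.Eventually.of_forall fun y => rfl
  congr F F' h := D.symm.mp.quasiMeasurePreserving.ae h

/-- the operator `f ↦ f ∘ θ⁻¹` -/
noncomputable def op (D : TwD G μ) (hw : IsWt G μ w) : HA G μ →L[ℂ] HA G μ := FOp.op hw (D.fop hw)

theorem op_ae (D : TwD G μ) (hw : IsWt G μ w) (f : HA G μ) :
    ∀ᵐ y ∂μ, afn (D.op hw f) y = afn f (D.θ.symm y) := FOp.op_ae hw (D.fop hw) f

theorem op_eq_iff (D : TwD G μ) (hw : IsWt G μ w) (A : HA G μ →L[ℂ] HA G μ) :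
    A = D.op hw ↔ ∀ f, ∀ᵐ y ∂μ, afn (A f) y = afn f (D.θ.symm y) :=
  FOp.op_eq_iff hw (D.fop hw) A

theorem inner_op (D : TwD G μ) (hw : IsWt G μ w) (f h : HA G μ) :
    ⟪D.op hw f, h⟫_ℂ = ⟪f, D.symm.op hw h⟫_ℂ := by
  rw [HA.inner_eq hw, HA.inner_eq hw]
  have hFm : Measurable (afn f) := (HA.stronglyMeasurable_fn f).measurable
  have hHm : Measurable (afn h) := (HA.stronglyMeasurable_fn h).measurable
  have h1 := D.integral_comp hw (F := fun y => (starRingEnd ℂ) (afn f y) * afn h (D.θ y))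
    ((Complex.continuous_conj.measurable.comp hFm).mul (hHm.comp D.θ.measurable))
    (fun g y => by rw [D.smul, HA.afn_smul, HA.afn_smul])
  have e1 : ∫ y, (starRingEnd ℂ) (afn (D.op hw f) y) * afn h y ∂(wtM μ w) =
      ∫ y, (starRingEnd ℂ) (afn f (D.θ.symm y)) * afn h (D.θ (D.θ.symm y)) ∂(wtM μ w) := by
    refine integral_congr_ae (wtM_ac.ae_le ?_)
    filter_upwards [D.op_ae hw f] with y hy
    rw [hy, MeasurableEquiv.apply_symm_apply]
  have e2 : ∫ y, (starRingEnd ℂ) (afn f y) * afn (D.symm.op hw h) y ∂(wtM μ w) =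
      ∫ y, (starRingEnd ℂ) (afn f y) * afn h (D.θ y) ∂(wtM μ w) := by
    refine integral_congr_ae (wtM_ac.ae_le ?_)
    filter_upwards [D.symm.op_ae hw h] with y hy
    rw [hy]
    rfl
  rw [e1, e2, h1]

theorem op_symm (D : TwD G μ) (hw : IsWt G μ w) :
    ContinuousLinearMap.adjoint (D.op hw) = D.symm.op hw := by
  symm
  rw [ContinuousLinearMap.eq_adjoint_iff]
  intro f h
  have := D.inner_op hw h f
  rw [← inner_conj_symm, ← this, inner_conj_symm]

theorem op_symm_op (D : TwD G μ) (hw : IsWt G μ w) (f : HA G μ) :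
    D.symm.op hw (D.op hw f) = f := by
  refine HA.ext_ae hw ?_
  have h2 : ∀ᵐ y ∂μ, afn (D.op hw f) (D.θ y) = afn f (D.θ.symm (D.θ y)) :=
    D.mp.quasiMeasurePreserving.ae (D.op_ae hw f)
  filter_upwards [D.symm.op_ae hw (D.op hw f), h2] with y hy hy2
  rw [hy]
  change afn (D.op hw f) (D.θ y) = _
  rw [hy2, MeasurableEquiv.symm_apply_apply]

theorem op_op_symm (D : TwD G μ) (hw : IsWt G μ w) (f : HA G μ) :
    D.op hw (D.symm.op hw f) = f := D.symm.op_symm_op hw f

theorem norm_op (D : TwD G μ) (hw : IsWt G μ w) (f : HA G μ) : ‖D.op hw f‖ = ‖f‖ := by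
  have h1 : ⟪D.op hw f, D.op hw f⟫_ℂ = ⟪f, f⟫_ℂ := by
    rw [D.inner_op hw, D.op_symm_op hw]
  rw [inner_self_eq_norm_sq_to_K, inner_self_eq_norm_sq_to_K] at h1
  have h2 : ‖D.op hw f‖ ^ 2 = ‖f‖ ^ 2 := by exact_mod_cast h1
  exact (sq_eq_sq₀ (norm_nonneg _) (norm_nonneg _)).mp h2

/-- the operators only depend on the map -/
theorem op_congr {D D' : TwD G μ} (hw : IsWt G μ w) (h : ∀ y, D.θ.symm y = D'.θ.symm y) :
    D.op hw = D'.op hw := by
  rw [D'.op_eq_iff hw]
  intro f
  filter_upwards [D.op_ae hw f] with y hy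
  rw [hy, h]

/-- powers -/
theorem op_cube (D : TwD G μ) (hw : IsWt G μ w) (h : ∀ y, D.θ (D.θ (D.θ y)) = y) (f : HA G μ) :
    D.op hw (D.op hw (D.op hw f)) = f := by
  refine HA.ext_ae hw ?_
  have hq : Measure.QuasiMeasurePreserving D.θ.symm μ μ := D.symm.mp.quasiMeasurePreserving
  have h1 := D.op_ae hw f
  have h2 := hq.ae (D.op_ae hw (D.op hw f))
  have h3 := hq.ae (hq.ae h1)
  have h2' := D.op_ae hw (D.op hw f)
  filter_upwards [D.op_ae hw (D.op hw (D.op hw f)), hq.ae h2', h3] with y e1 e2 e3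
  rw [e1, e2, e3]
  congr 1
  have h4 := h (D.θ.symm (D.θ.symm (D.θ.symm y)))
  simpa using h4.symm

end TwD

namespace KRep

variable {A B : HA G μ →L[ℂ] HA G μ} {k k₁ k₂ : Y → Y → ℂ}

theorem add (hw : IsWt G μ w) (hA : KRep A k₁) (hB : KRep B k₂) :
    KRep (A + B) (fun x y => k₁ x y + k₂ x y) where
  meas := hA.meas.add hB.meas
  int f := by
    filter_upwards [hA.int f, hB.int f] with x h1 h2
    exact (h1.add h2).congr (Filter.Eventually.of_forall fun y => by simp [add_mul])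
  rep f := by
    filter_upwards [hA.int f, hB.int f, hA.rep f, hB.rep f, HA.afn_add hw (A f) (B f)]
      with x h1 h2 h3 h4 h5
    rw [add_apply, h5, h3, h4, ← integral_add h1 h2]
    refine integral_congr_ae (Filter.Eventually.of_forall fun y => ?_)
    simp only [add_mul]

theorem smul (hw : IsWt G μ w) (c : ℂ) (hA : KRep A k) : KRep (c • A) (fun x y => c * k x y) where
  meas := measurable_const.mul hA.meas
  int f := by
    filter_upwards [hA.int f] with x h1
    exact (h1.const_mul c).congr (Filter.Eventually.of_forall fun y => by simp [mul_assoc])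
  rep f := by
    filter_upwards [hA.rep f, HA.afn_smulc hw c (A f)] with x h1 h2
    rw [smul_apply, h2, h1, ← integral_const_mul]
    refine integral_congr_ae (Filter.Eventually.of_forall fun y => ?_)
    simp only [mul_assoc]

theorem zero (hw : IsWt G μ w) : KRep (0 : HA G μ →L[ℂ] HA G μ) (fun _ _ => 0) where
  meas := measurable_const
  int f := Filter.Eventually.of_forall fun x => by simp
  rep f := by
    filter_upwards [HA.afn_zero (G := G) hw] with x h1
    simp [h1]

theorem sum (hw : IsWt G μ w) {ι : Type*} (s : Finset ι) {A : ι → HA G μ →L[ℂ] HA G μ}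
    {k : ι → Y → Y → ℂ} (h : ∀ i ∈ s, KRep (A i) (k i)) :
    KRep (∑ i ∈ s, A i) (fun x y => ∑ i ∈ s, k i x y) := by
  classical
  induction s using Finset.induction_on with
  | empty => simpa using KRep.zero hw
  | insert a s ha ih =>
    simp_rw [Finset.sum_insert ha]
    exact (h a (Finset.mem_insert_self a s)).add hw
      (ih fun i hi => h i (Finset.mem_insert_of_mem hi))

theorem congr (hA : KRep A k₁) (h : ∀ x y, k₁ x y = k₂ x y) : KRep A k₂ := by
  have : k₁ = k₂ := funext fun x => funext fun y => h x y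
  rwa [← this]

/-- composition with the operator of an automorphism -/
theorem mul_op (hB : KRep B k₂) (D : TwD G μ) (hw : IsWt G μ w) :
    KRep (B * D.op hw) (fun x y => k₂ x (D.θ y)) where
  meas := hB.meas.comp (measurable_fst.prodMk (D.θ.measurable.comp measurable_snd))
  int f := by
    filter_upwards [hB.int (D.op hw f)] with x hx
    have h1 : Integrable (fun y => k₂ x y * afn f (D.θ.symm y)) μ := by
      refine hx.congr ?_
      filter_upwards [D.op_ae hw f] with y hy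
      rw [hy]
    have h2 := (D.mp.integrable_comp_emb D.θ.measurableEmbedding).mpr h1
    refine h2.congr (Filter.Eventually.of_forall fun y => ?_)
    simp
  rep f := by
    filter_upwards [hB.rep (D.op hw f)] with x hx
    change afn (B (D.op hw f)) x = _
    rw [hx]
    have h1 : ∫ y, k₂ x y * afn (D.op hw f) y ∂μ = ∫ y, k₂ x y * afn f (D.θ.symm y) ∂μ := by
      refine integral_congr_ae ?_
      filter_upwards [D.op_ae hw f] with y hy
      rw [hy]
    rw [h1, ← D.mp.integral_comp D.θ.measurableEmbedding]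
    simp

end KRep

theorem perK_twist (D : TwD G μ) (k : Y → Y → ℂ) (x y : Y) :
    perK G (fun x y => k x (D.θ y)) x y = perK G k x (D.θ y) := by
  rw [perK, perK, ← D.e.toEquiv.tsum_eq (fun g : G => k x (g • D.θ y))]
  refine tsum_congr fun g => ?_
  rw [D.smul]
  rfl

/-- the twisted conjugation `g • h = g * h * (e g)⁻¹` -/
def TwC {G : Type*} [Group G] (_e : G →* G) : Type _ := G

namespace TwC

variable {e : G →* G}

/-- the underlying element -/
def val (h : TwC e) : G := h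

/-- the element as a twisted class representative -/
def of (e : G →* G) (h : G) : TwC e := h

@[simp] theorem val_of (h : G) : (TwC.of e h).val = h := rfl

instance instMulActionTwC : MulAction G (TwC e) where
  smul g h := (g * h.val * (e g)⁻¹ : G)
  one_smul h := by
    change (1 * h.val * (e 1)⁻¹ : G) = h.val
    simp
  mul_smul g g' h := by
    change (g * g' * h.val * (e (g * g'))⁻¹ : G) = (g * (g' * h.val * (e g')⁻¹ : G) * (e g)⁻¹ : G)
    simp [mul_assoc]

theorem val_smul (g : G) (h : TwC e) : (g • h).val = g * h.val * (e g)⁻¹ := rfl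

instance instCountableTwC : Countable (TwC e) := inferInstanceAs (Countable G)

theorem mem_stabilizer (h : TwC e) (g : G) :
    g ∈ MulAction.stabilizer G h ↔ g * h.val = h.val * e g := by
  rw [MulAction.mem_stabilizer_iff]
  constructor
  · intro h1
    have h2 := congrArg val h1
    rw [val_smul] at h2
    exact mul_inv_eq_iff_eq_mul.mp h2
  · intro h1
    change (g • h).val = h.val
    rw [val_smul]
    exact mul_inv_eq_iff_eq_mul.mpr h1

end TwC

namespace KRep

variable {A B : HA G μ →L[ℂ] HA G μ} {k₁ k₂ : Y → Y → ℂ}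

/-- **the twisted trace as an integral over the quotient** -/
theorem trace_twisted [SigmaFinite μ] [SigmaFinite (wtM μ w)]
    [TopologicalSpace.SeparableSpace (Lp ℂ 2 (wtM μ w))] (hw : IsWt G μ w) (D : TwD G μ)
    (hA : KRep A k₁) (hB : KRep B k₂) (hK₁ : IsL2Ker₂ (wtM μ w) (perK G k₁))
    (hK₂ : IsL2Ker₂ (wtM μ w) (fun x y => perK G k₂ x (D.θ y)))
    (h₂ : ∀ (g : G) x y, k₂ (g • x) (g • y) = k₂ x y)
    (hfin : ∫⁻ y, ∑' g : G, ∫⁻ x, ‖k₁ y x‖ₑ * ‖k₂ x (g • D.θ y)‖ₑ ∂μ ∂(wtM μ w) ≠ ∞) :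
    hsTrace A (B * D.op hw) = ∫ y, ∑' g : G, cvK μ k₁ k₂ y (g • D.θ y) ∂(wtM μ w) := by
  have hper : perK G (fun x y => k₂ x (D.θ y)) = fun x y => perK G k₂ x (D.θ y) :=
    funext fun x => funext fun y => perK_twist D k₂ x y
  have h3 := hA.trace hw (hB.mul_op D hw) hK₁ (by rw [hper]; exact hK₂) (e₂ := D.e.symm)
    (fun g x y => by
      change k₂ (g • x) (D.θ (D.e.symm g • y)) = k₂ x (D.θ y)
      rw [D.smul]
      simp [h₂]) (by
      convert hfin using 3 with y
      rw [← D.e.toEquiv.tsum_eq (fun g : G => ∫⁻ x, ‖k₁ y x‖ₑ * ‖k₂ x (g • D.θ y)‖ₑ ∂μ)]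
      refine tsum_congr fun g => ?_
      rw [D.smul]
      rfl)
  rw [h3]
  refine integral_congr_ae (Filter.Eventually.of_forall fun y => ?_)
  change ∑' g : G, cvK μ k₁ (fun x y => k₂ x (D.θ y)) y (g • y) =
    ∑' g : G, cvK μ k₁ k₂ y (g • D.θ y)
  rw [← D.e.toEquiv.tsum_eq (fun g : G => cvK μ k₁ k₂ y (g • D.θ y))]
  refine tsum_congr fun g => ?_
  rw [cvK, cvK]
  simp_rw [D.smul]
  rfl

/-- **the twisted trace formula** -/
theorem trace_twisted_classes [SigmaFinite μ] [SigmaFinite (wtM μ w)]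
    [TopologicalSpace.SeparableSpace (Lp ℂ 2 (wtM μ w))] (hw : IsWt G μ w) (D : TwD G μ)
    (hA : KRep A k₁) (hB : KRep B k₂) (hK₁ : IsL2Ker₂ (wtM μ w) (perK G k₁))
    (hK₂ : IsL2Ker₂ (wtM μ w) (fun x y => perK G k₂ x (D.θ y)))
    (h₁ : ∀ (g : G) x y, k₁ (g • x) (g • y) = k₁ x y)
    (h₂ : ∀ (g : G) x y, k₂ (g • x) (g • y) = k₂ x y)
    (hfin : ∫⁻ y, ∑' g : G, ∫⁻ x, ‖k₁ y x‖ₑ * ‖k₂ x (g • D.θ y)‖ₑ ∂μ ∂(wtM μ w) ≠ ∞) :
    HasSum (fun ω : MulAction.orbitRel.Quotient G (TwC (D.e : G →* G)) =>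
      qint (MulAction.stabilizer G ω.out) μ (fun y => cvK μ k₁ k₂ y (ω.out.val • D.θ y)))
      (hsTrace A (B * D.op hw)) := by
  rw [hA.trace_twisted hw D hB hK₁ hK₂ h₂ hfin]
  have hmc : ∀ h : G, Measurable (fun y => cvK μ k₁ k₂ y (h • D.θ y)) := fun h =>
    (measurable_cvK hA.meas hB.meas).comp
      (measurable_id.prodMk ((measurable_const_smul h).comp D.θ.measurable))
  have hi : ∀ (g : G) (X : TwC (D.e : G →* G)), ∀ᵐ y ∂μ,
      cvK μ k₁ k₂ (g • y) ((g • X).val • D.θ (g • y)) = cvK μ k₁ k₂ y (X.val • D.θ y) := by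
    intro g X
    refine Filter.Eventually.of_forall fun y => ?_
    have h3 : (g • X).val • D.θ (g • y) = g • (X.val • D.θ y) := by
      rw [TwC.val_smul, D.smul, smul_smul, smul_smul]
      simp
    rw [h3]
    exact cvK_smul (e₁ := id) (e₂ := id) h₁ h₂ g y (X.val • D.θ y)
  have hle : ∀ (y : Y) (g : G), ‖cvK μ k₁ k₂ y (g • D.θ y)‖ₑ ≤
      ∫⁻ x, ‖k₁ y x‖ₑ * ‖k₂ x (g • D.θ y)‖ₑ ∂μ := by
    intro y g
    refine (enorm_integral_le_lintegral_enorm _).trans (le_of_eq ?_)
    simp_rw [enorm_mul]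
  have hfin3 : ∑' g : G, ∫⁻ y, ‖cvK μ k₁ k₂ y (g • D.θ y)‖ₑ ∂(wtM μ w) ≠ ∞ := by
    rw [← lintegral_tsum (fun g => (hmc g).enorm.aemeasurable)]
    refine ne_top_of_le_ne_top hfin (lintegral_mono fun y => ?_)
    exact ENNReal.tsum_le_tsum fun g => hle y g
  have hfin2 : ∑' X : TwC (D.e : G →* G), ∫⁻ y, ‖cvK μ k₁ k₂ y (X.val • D.θ y)‖ₑ ∂(wtM μ w) ≠ ∞ :=
    hfin3
  have h5 := hw.integral_classes_qint
    (F := fun (X : TwC (D.e : G →* G)) y => cvK μ k₁ k₂ y (X.val • D.θ y))
    (fun X => (hmc X.val).aestronglyMeasurable) hi hfin2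
  exact h5

end KRep

end Fermat.Agent.LT.FA
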