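import Mathlib

/-!
# Extraction of one point of the spectrum from an eventually vanishing sequence of traces
-/

set_option autoImplicit false

open scoped Topology ComplexConjugate
open Filter

namespace Fermat.Agent.LT.FA

namespace Extract

/-- the denominator `1 - z x + q x ^ 2` -/
noncomputable def den (q z : ℝ) (x : ℂ) : ℂ := 1 - z * x + q * x ^ 2

/-- the open half disc -/
def hd (q : ℝ) : Set ℂ := {x | q * ‖x‖ ^ 2 < 1 ∧ 0 < x.im}

theorem den_bound (q z : ℝ) (x : ℂ) : |x.im * (1 - q * ‖x‖ ^ 2)| ≤ ‖x‖ * ‖den q z x‖ := by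
  have h1 : (conj x * den q z x).im = -(x.im * (1 - q * ‖x‖ ^ 2)) := by
    rw [Complex.sq_norm, Complex.normSq_apply, den]
    simp [pow_two]
    ring
  have h2 := Complex.abs_im_le_norm (conj x * den q z x)
  rw [h1, abs_neg, norm_mul, RCLike.norm_conj] at h2
  exact h2

theorem den_ne_zero {q : ℝ} (z : ℝ) {x : ℂ} (hx : x ∈ hd q) : den q z x ≠ 0 := by
  intro h
  have h1 := den_bound q z x
  rw [h, norm_zero, mul_zero] at h1
  have h2 : 0 < x.im * (1 - q * ‖x‖ ^ 2) := mul_pos hx.2 (by linarith [hx.1])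
  rw [abs_of_pos h2] at h1
  linarith

theorem isOpen_hd (q : ℝ) : IsOpen (hd q) := by
  have h1 : IsOpen {x : ℂ | q * ‖x‖ ^ 2 < 1} := isOpen_lt (by fun_prop) continuous_const
  have h2 : IsOpen {x : ℂ | 0 < x.im} := isOpen_lt continuous_const Complex.continuous_im
  exact h1.inter h2

theorem convex_hd {q : ℝ} (hq : 0 < q) : Convex ℝ (hd q) := by
  have h1 : hd q = Metric.ball (0 : ℂ) (Real.sqrt (1 / q)) ∩ {x | 0 < x.im} := by
    ext x
    simp only [hd, Set.mem_inter_iff, Metric.mem_ball, dist_zero_right]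
    change (q * ‖x‖ ^ 2 < 1 ∧ 0 < x.im) ↔ (‖x‖ < √(1 / q) ∧ 0 < x.im)
    refine and_congr_left fun _ => ?_
    rw [Real.lt_sqrt (norm_nonneg _), lt_div_iff₀ hq, mul_comm]
  rw [h1]
  exact (convex_ball _ _).inter (convex_halfSpace_im_gt 0)

variable {S : Type*} {q : ℝ} {z : S → ℝ} {c : ℕ → S → ℂ}

/-- the generating function of one system -/
noncomputable def gf (q : ℝ) (z : S → ℝ) (c : ℕ → S → ℂ) (s : S) (x : ℂ) : ℂ :=
  (c 0 s + (c 1 s - z s * c 0 s) * x) / den q (z s) x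

theorem norm_num_le {B : ℝ} (hB : ∀ s, |z s| ≤ B) (s : S) {x : ℂ} {r : ℝ} (hx : ‖x‖ ≤ r) :
    ‖c 0 s + (c 1 s - z s * c 0 s) * x‖ ≤ ‖c 0 s‖ + (‖c 1 s‖ + B * ‖c 0 s‖) * r := by
  refine (norm_add_le _ _).trans (add_le_add_right ?_ _)
  rw [norm_mul]
  refine mul_le_mul ?_ hx (norm_nonneg _) ?_
  · refine (norm_sub_le _ _).trans (add_le_add_right ?_ _)
    rw [norm_mul, Complex.norm_real]
    exact mul_le_mul_of_nonneg_right (hB s) (norm_nonneg _)
  · have := (abs_nonneg _).trans (hB s)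
    positivity

theorem summable_num {B : ℝ} (h0 : Summable fun s => ‖c 0 s‖) (h1 : Summable fun s => ‖c 1 s‖)
    (r : ℝ) : Summable fun s => ‖c 0 s‖ + (‖c 1 s‖ + B * ‖c 0 s‖) * r :=
  h0.add ((h1.add (h0.mul_left B)).mul_right r)

theorem norm_gf_le {B : ℝ} (hB : ∀ s, |z s| ≤ B) (hq : 0 < q) (s : S) {x : ℂ} {r δ : ℝ}
    (hδ : 0 < δ) (hr : q * r ^ 2 < 1) (hx : ‖x‖ ≤ r) (hxi : δ ≤ x.im) :
    ‖gf q z c s x‖ ≤ (‖c 0 s‖ + (‖c 1 s‖ + B * ‖c 0 s‖) * r) / (δ * (1 - q * r ^ 2) / r) := by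
  have hr0 : 0 < r := lt_of_lt_of_le (lt_of_lt_of_le hδ hxi) ((le_abs_self _).trans
    ((Complex.abs_im_le_norm x).trans hx))
  have h1 : δ * (1 - q * r ^ 2) / r ≤ ‖den q (z s) x‖ := by
    rw [div_le_iff₀ hr0]
    have h2 := den_bound q (z s) x
    have h3 : q * ‖x‖ ^ 2 ≤ q * r ^ 2 :=
      mul_le_mul_of_nonneg_left (pow_le_pow_left₀ (norm_nonneg _) hx 2) hq.le
    have h4 : δ * (1 - q * r ^ 2) ≤ x.im * (1 - q * ‖x‖ ^ 2) :=
      mul_le_mul hxi (by linarith) (by linarith) (hδ.le.trans hxi)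
    calc δ * (1 - q * r ^ 2) ≤ x.im * (1 - q * ‖x‖ ^ 2) := h4
      _ ≤ |x.im * (1 - q * ‖x‖ ^ 2)| := le_abs_self _
      _ ≤ ‖x‖ * ‖den q (z s) x‖ := h2
      _ ≤ r * ‖den q (z s) x‖ := mul_le_mul_of_nonneg_right hx (norm_nonneg _)
      _ = ‖den q (z s) x‖ * r := mul_comm _ _
  have h5 : 0 < δ * (1 - q * r ^ 2) / r := div_pos (mul_pos hδ (by linarith)) hr0
  rw [gf, norm_div]
  exact div_le_div₀ ((norm_nonneg _).trans (norm_num_le (z := z) (c := c) hB s hx))
    (norm_num_le hB s hx) h5 h1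

theorem differentiableAt_gf (s : S) {x : ℂ} (hx : x ∈ hd q) :
    DifferentiableAt ℂ (gf q z c s) x := by
  unfold gf
  refine DifferentiableAt.div (by fun_prop) ?_ (den_ne_zero (z s) hx)
  unfold den
  fun_prop

theorem differentiableOn_F {B : ℝ} (hB : ∀ s, |z s| ≤ B) (hq : 0 < q)
    (h0 : Summable fun s => ‖c 0 s‖) (h1 : Summable fun s => ‖c 1 s‖) :
    DifferentiableOn ℂ (fun x => ∑' s, gf q z c s x) (hd q) := by
  intro x hx
  have hx1 : ‖x‖ < Real.sqrt (1 / q) := by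
    rw [Real.lt_sqrt (norm_nonneg _), lt_div_iff₀ hq, mul_comm]
    exact hx.1
  obtain ⟨r, hr1, hr2⟩ := exists_between hx1
  have hr0 : 0 ≤ r := (norm_nonneg x).trans hr1.le
  have hr3 : q * r ^ 2 < 1 := by
    rw [Real.lt_sqrt hr0, lt_div_iff₀ hq, mul_comm] at hr2
    exact hr2
  have hx2 : 0 < x.im := hx.2
  let U : Set ℂ := {y | ‖y‖ < r} ∩ {y | x.im / 2 < y.im}
  have hU : IsOpen U := (isOpen_lt continuous_norm continuous_const).inter
    (isOpen_lt continuous_const Complex.continuous_im)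
  have hxU : x ∈ U := ⟨hr1, by change x.im / 2 < x.im; linarith⟩
  have hUq : U ⊆ hd q := by
    rintro y ⟨hy1, hy2⟩
    refine ⟨lt_of_le_of_lt (mul_le_mul_of_nonneg_left (pow_le_pow_left₀ (norm_nonneg _)
      (le_of_lt hy1) 2) hq.le) hr3, ?_⟩
    have h3 : x.im / 2 < y.im := hy2
    linarith
  have key := Complex.differentiableOn_tsum_of_summable_norm
    (u := fun s => (‖c 0 s‖ + (‖c 1 s‖ + B * ‖c 0 s‖) * r) / (x.im / 2 * (1 - q * r ^ 2) / r))
    (F := gf q z c) ((summable_num h0 h1 r).div_const _)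
    (fun s y hy => (differentiableAt_gf s (hUq hy)).differentiableWithinAt) hU
    (fun s y hy => norm_gf_le hB hq s (by linarith) hr3 (le_of_lt hy.1) (le_of_lt hy.2))
  exact (key.differentiableAt (hU.mem_nhds hxU)).differentiableWithinAt

theorem norm_c_le {B : ℝ} (hB : ∀ s, |z s| ≤ B) (hq : 0 < q)
    (hrec : ∀ m s, c (m + 2) s = z s * c (m + 1) s - q * c m s) (s : S) (m : ℕ) :
    ‖c m s‖ ≤ (‖c 0 s‖ + ‖c 1 s‖) * (B + q + 1) ^ m ∧
      ‖c (m + 1) s‖ ≤ (‖c 0 s‖ + ‖c 1 s‖) * (B + q + 1) ^ (m + 1) := by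
  have hB0 : 0 ≤ B := (abs_nonneg _).trans (hB s)
  have hC : 0 ≤ ‖c 0 s‖ + ‖c 1 s‖ := by positivity
  induction m with
  | zero =>
    constructor
    · rw [pow_zero, mul_one]
      linarith [norm_nonneg (c 1 s)]
    · rw [zero_add, pow_one]
      have : ‖c 1 s‖ ≤ (‖c 0 s‖ + ‖c 1 s‖) * 1 := by linarith [norm_nonneg (c 0 s)]
      exact this.trans (mul_le_mul_of_nonneg_left (by linarith) hC)
  | succ m ih =>
    refine ⟨ih.2, ?_⟩
    rw [hrec]
    refine (norm_sub_le _ _).trans ?_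
    rw [norm_mul, norm_mul, Complex.norm_real, Complex.norm_real, Real.norm_eq_abs,
      Real.norm_eq_abs, abs_of_pos hq]
    have hR : (0 : ℝ) < B + q + 1 := by linarith
    have e1 : |z s| * ‖c (m + 1) s‖ ≤ B * ((‖c 0 s‖ + ‖c 1 s‖) * (B + q + 1) ^ (m + 1)) :=
      mul_le_mul (hB s) ih.2 (norm_nonneg _) hB0
    have e2 : q * ‖c m s‖ ≤ q * ((‖c 0 s‖ + ‖c 1 s‖) * (B + q + 1) ^ (m + 1)) := by
      refine mul_le_mul_of_nonneg_left (ih.1.trans (mul_le_mul_of_nonneg_left ?_ hC)) hq.le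
      rw [pow_succ]
      nlinarith [pow_pos hR m]
    calc |z s| * ‖c (m + 1) s‖ + q * ‖c m s‖
        ≤ (B + q) * ((‖c 0 s‖ + ‖c 1 s‖) * (B + q + 1) ^ (m + 1)) := by linarith
      _ ≤ (B + q + 1) * ((‖c 0 s‖ + ‖c 1 s‖) * (B + q + 1) ^ (m + 1)) := by
          refine mul_le_mul_of_nonneg_right (by linarith) (mul_nonneg hC (pow_pos hR _).le)
      _ = (‖c 0 s‖ + ‖c 1 s‖) * (B + q + 1) ^ (m + 1 + 1) := by ring

theorem hasSum_gf {B : ℝ} (hB : ∀ s, |z s| ≤ B) (hq : 0 < q)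
    (hrec : ∀ m s, c (m + 2) s = z s * c (m + 1) s - q * c m s) (s : S) {x : ℂ} (hx : x ∈ hd q)
    (hxR : ‖x‖ * (B + q + 1) < 1) : HasSum (fun m => c m s * x ^ m) (gf q z c s x) := by
  have hB0 : 0 ≤ B := (abs_nonneg _).trans (hB s)
  have hsum : Summable fun m => c m s * x ^ m := by
    refine Summable.of_norm_bounded (g := fun m => (‖c 0 s‖ + ‖c 1 s‖) *
      (‖x‖ * (B + q + 1)) ^ m) ((summable_geometric_of_lt_one (by positivity) hxR).mul_left _)
      fun m => ?_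
    rw [norm_mul, norm_pow, mul_pow]
    calc ‖c m s‖ * ‖x‖ ^ m ≤ ((‖c 0 s‖ + ‖c 1 s‖) * (B + q + 1) ^ m) * ‖x‖ ^ m :=
          mul_le_mul_of_nonneg_right (norm_c_le hB hq hrec s m).1 (by positivity)
      _ = (‖c 0 s‖ + ‖c 1 s‖) * (‖x‖ ^ m * (B + q + 1) ^ m) := by ring
  have h1 := hsum.hasSum
  have h2 := h1.tsum_eq
  set T := ∑' m, c m s * x ^ m with hT
  have e1 : ∑' m, c (m + 1) s * x ^ (m + 1) = T - c 0 s := by
    rw [hT, hsum.tsum_eq_zero_add]
    simp
  have hsum1 : Summable fun m => c (m + 1) s * x ^ (m + 1) :=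
    (summable_nat_add_iff (f := fun m => c m s * x ^ m) 1).2 hsum
  have e2 : ∑' m, c (m + 2) s * x ^ (m + 2) = T - c 0 s - c 1 s * x := by
    rw [← e1, hsum1.tsum_eq_zero_add]
    simp
  have e3 : ∑' m, c (m + 2) s * x ^ (m + 2) = z s * x * (T - c 0 s) - q * x ^ 2 * T := by
    rw [← e1, hT, ← tsum_mul_left, ← tsum_mul_left, ← Summable.tsum_sub (hsum1.mul_left _)
      (hsum.mul_left _)]
    refine tsum_congr fun m => ?_
    rw [hrec]
    ring
  have e4 : T * den q (z s) x = c 0 s + (c 1 s - z s * c 0 s) * x := by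
    rw [e2] at e3
    rw [den]
    linear_combination e3
  have e5 : T = gf q z c s x := by
    rw [gf, eq_div_iff (den_ne_zero (z s) hx), e4]
  rw [← e5]
  exact h1

theorem F_eq_small {B : ℝ} (hB : ∀ s, |z s| ≤ B) (hq : 0 < q) (hB0 : 0 ≤ B)
    (hrec : ∀ m s, c (m + 2) s = z s * c (m + 1) s - q * c m s)
    (h0 : Summable fun s => ‖c 0 s‖) (h1 : Summable fun s => ‖c 1 s‖) (m0 : ℕ)
    (hm : ∀ m, m0 ≤ m → ∑' s, c m s = 0) {x : ℂ} (hx : x ∈ hd q)
    (hxR : ‖x‖ * (B + q + 1) < 1) :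
    ∑' s, gf q z c s x = ∑ m ∈ Finset.range m0, (∑' s, c m s) * x ^ m := by
  have hbd : Summable fun p : S × ℕ => (‖c 0 p.1‖ + ‖c 1 p.1‖) * (‖x‖ * (B + q + 1)) ^ p.2 :=
    (h0.add h1).mul_of_nonneg (summable_geometric_of_lt_one (by positivity) hxR)
      (fun s => by positivity) (fun m => by positivity)
  have hsum : Summable fun p : S × ℕ => c p.2 p.1 * x ^ p.2 := by
    refine Summable.of_norm_bounded hbd fun p => ?_
    rw [norm_mul, norm_pow, mul_pow]
    calc ‖c p.2 p.1‖ * ‖x‖ ^ p.2 ≤ ((‖c 0 p.1‖ + ‖c 1 p.1‖) * (B + q + 1) ^ p.2) * ‖x‖ ^ p.2 :=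
          mul_le_mul_of_nonneg_right (norm_c_le hB hq hrec p.1 p.2).1 (by positivity)
      _ = _ := by ring
  have e1 : ∑' s, gf q z c s x = ∑' s, ∑' m, c m s * x ^ m :=
    tsum_congr fun s => (hasSum_gf hB hq hrec s hx hxR).tsum_eq.symm
  have e2 : ∑' s, ∑' m, c m s * x ^ m = ∑' m, ∑' s, c m s * x ^ m :=
    (Summable.tsum_comm (f := fun s m => c m s * x ^ m) hsum).symm
  rw [e1, e2]
  have e3 : ∀ m, ∑' s, c m s * x ^ m = (∑' s, c m s) * x ^ m := fun m => tsum_mul_right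
  simp_rw [e3]
  refine tsum_eq_sum fun m hm' => ?_
  rw [Finset.mem_range, not_lt] at hm'
  rw [hm m hm', zero_mul]

theorem F_eq {B : ℝ} (hB : ∀ s, |z s| ≤ B) (hq : 0 < q) (hB0 : 0 ≤ B)
    (hrec : ∀ m s, c (m + 2) s = z s * c (m + 1) s - q * c m s)
    (h0 : Summable fun s => ‖c 0 s‖) (h1 : Summable fun s => ‖c 1 s‖) (m0 : ℕ)
    (hm : ∀ m, m0 ≤ m → ∑' s, c m s = 0) {x : ℂ} (hx : x ∈ hd q) :
    ∑' s, gf q z c s x = ∑ m ∈ Finset.range m0, (∑' s, c m s) * x ^ m := by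
  have hF := (differentiableOn_F (c := c) hB hq h0 h1).analyticOnNhd (isOpen_hd q)
  have hP : AnalyticOnNhd ℂ (fun x : ℂ => ∑ m ∈ Finset.range m0, (∑' s, c m s) * x ^ m)
      (hd q) := by
    refine DifferentiableOn.analyticOnNhd ?_ (isOpen_hd q)
    fun_prop
  obtain ⟨ε, hε0, hε⟩ : ∃ ε : ℝ, 0 < ε ∧ ε * (B + q + 1) < 1 ∧ q * ε ^ 2 < 1 := by
    refine ⟨1 / (2 * (B + q + 1)), by positivity, ?_, ?_⟩
    · rw [div_mul_eq_mul_div, one_mul, div_lt_one (by positivity)]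
      linarith
    · rw [div_pow, one_pow, mul_one_div, div_lt_one (by positivity)]
      nlinarith
  have hx1 : (ε * Complex.I : ℂ) ∈ hd q := by
    constructor
    · simpa [abs_of_pos hε0] using hε.2
    · simpa using hε0
  have hx1n : ‖(ε * Complex.I : ℂ)‖ * (B + q + 1) < 1 := by
    simpa [abs_of_pos hε0] using hε.1
  have hev : (fun x => ∑' s, gf q z c s x) =ᶠ[𝓝 (ε * Complex.I : ℂ)]
      fun x : ℂ => ∑ m ∈ Finset.range m0, (∑' s, c m s) * x ^ m := by
    have h2 : IsOpen {y : ℂ | ‖y‖ * (B + q + 1) < 1} := isOpen_lt (by fun_prop) continuous_const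
    filter_upwards [(isOpen_hd q).mem_nhds hx1, h2.mem_nhds hx1n] with y hy1 hy2
    exact F_eq_small hB hq hB0 hrec h0 h1 m0 hm hy1 hy2
  exact hF.eqOn_of_preconnected_of_eventuallyEq hP (convex_hd hq).isPreconnected hx1 hev hx

/-- the boundary point -/
theorem limit_F {B : ℝ} (hB : ∀ s, |z s| ≤ B) (hq : 0 < q) (hB0 : 0 ≤ B)
    (hrec : ∀ m s, c (m + 2) s = z s * c (m + 1) s - q * c m s)
    (h0 : Summable fun s => ‖c 0 s‖) (h1 : Summable fun s => ‖c 1 s‖) (m0 : ℕ)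
    (hm : ∀ m, m0 ≤ m → ∑' s, c m s = 0) (z0 : ℝ) {u : ℂ} (hu : q * ‖u‖ ^ 2 = 1)
    (hui : 0 < u.im) (hur : 2 * q * u.re = z0) :
    ∑' s, (if z s = z0 then c 0 s + (c 1 s - z0 * c 0 s) * u else 0) = 0 := by
  have hu1 : (q : ℂ) * (u * conj u) = 1 := by
    rw [Complex.mul_conj, Complex.normSq_eq_norm_sq]
    exact_mod_cast hu
  have hu2 : (z0 : ℂ) = q * (u + conj u) := by
    rw [Complex.add_conj, ← hur]
    push_cast
    ring
  have hun : 0 < ‖u‖ := by
    rw [norm_pos_iff]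
    rintro rfl
    simp at hui
  have hmem : ∀ r : ℝ, 0 < r → r < 1 → (r * u : ℂ) ∈ hd q := by
    intro r hr0 hr1
    constructor
    · rw [norm_mul, Complex.norm_real, Real.norm_eq_abs, abs_of_pos hr0, mul_pow]
      have : q * (r ^ 2 * ‖u‖ ^ 2) = r ^ 2 := by rw [← mul_assoc, mul_comm q, mul_assoc, hu, mul_one]
      rw [this]
      nlinarith
    · simpa using mul_pos hr0 hui
  -- the numerator
  have hN : ∀ r : ℝ, den q z0 (r * u) = q * u * (1 - r) * (conj u - r * u) := by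
    intro r
    rw [den, hu2]
    linear_combination (-1 : ℂ) * hu1
  have hNn : ∀ r : ℝ, 0 < r → r < 1 → ‖den q z0 (r * u)‖ ≤ 1 - r ^ 2 := by
    intro r hr0 hr1
    rw [hN, norm_mul, norm_mul, norm_mul]
    have e1 : ‖(1 - r : ℂ)‖ = 1 - r := by
      have : (1 - r : ℂ) = ((1 - r : ℝ) : ℂ) := by push_cast; ring
      rw [this, Complex.norm_real, Real.norm_eq_abs, abs_of_pos (by linarith)]
    have e2 : ‖(conj u - r * u : ℂ)‖ ≤ ‖u‖ * (1 + r) := by
      refine (norm_sub_le _ _).trans ?_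
      rw [RCLike.norm_conj, norm_mul, Complex.norm_real, Real.norm_eq_abs, abs_of_pos hr0]
      linarith
    rw [e1, Complex.norm_real, Real.norm_eq_abs, abs_of_pos hq]
    calc q * ‖u‖ * (1 - r) * ‖(conj u - r * u : ℂ)‖ ≤ q * ‖u‖ * (1 - r) * (‖u‖ * (1 + r)) :=
          mul_le_mul_of_nonneg_left e2 (by have : 0 ≤ 1 - r := by linarith
                                           positivity)
      _ = q * ‖u‖ ^ 2 * (1 - r ^ 2) := by ring
      _ = 1 - r ^ 2 := by rw [hu, one_mul]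
  -- the ratio
  have hD : ∀ (s : S) (r : ℝ), 0 < r → r < 1 → u.im * (1 - r ^ 2) / ‖u‖ ≤
      ‖den q (z s) (r * u)‖ := by
    intro s r hr0 hr1
    have e1 := den_bound q (z s) (r * u)
    rw [norm_mul, Complex.norm_real, Real.norm_eq_abs, abs_of_pos hr0] at e1
    have e2 : ((r : ℂ) * u).im = r * u.im := by simp
    have e3 : q * (r * ‖u‖) ^ 2 = r ^ 2 := by
      rw [mul_pow]
      calc q * (r ^ 2 * ‖u‖ ^ 2) = r ^ 2 * (q * ‖u‖ ^ 2) := by ring
        _ = r ^ 2 := by rw [hu, mul_one]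
    rw [e2, e3, abs_of_nonneg (mul_nonneg (mul_pos hr0 hui).le (by nlinarith))] at e1
    rw [div_le_iff₀ hun]
    have e4 : r * (u.im * (1 - r ^ 2)) ≤ r * (‖den q (z s) (r * u)‖ * ‖u‖) := by
      calc r * (u.im * (1 - r ^ 2)) = r * u.im * (1 - r ^ 2) := by ring
        _ ≤ _ := e1
        _ = _ := by ring
    exact le_of_mul_le_mul_left e4 hr0
  have hratio : ∀ (s : S) (r : ℝ), 0 < r → r < 1 →
      ‖den q z0 (r * u) / den q (z s) (r * u)‖ ≤ ‖u‖ / u.im := by
    intro s r hr0 hr1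
    have e0 : 0 < 1 - r ^ 2 := by nlinarith
    have e1 : 0 < u.im * (1 - r ^ 2) / ‖u‖ := div_pos (mul_pos hui e0) hun
    rw [norm_div]
    calc ‖den q z0 (r * u)‖ / ‖den q (z s) (r * u)‖
        ≤ (1 - r ^ 2) / (u.im * (1 - r ^ 2) / ‖u‖) :=
          div_le_div₀ e0.le (hNn r hr0 hr1) e1 (hD s r hr0 hr1)
      _ = ‖u‖ / u.im := by field_simp
  have hlt : Tendsto (fun r : ℝ => (r * u : ℂ)) (𝓝[<] 1) (𝓝 u) := by
    have e1 : Tendsto (fun r : ℝ => (r * u : ℂ)) (𝓝 1) (𝓝 (((1 : ℝ) : ℂ) * u)) :=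
      (Continuous.tendsto (by fun_prop) 1)
    rw [Complex.ofReal_one, one_mul] at e1
    exact e1.mono_left nhdsWithin_le_nhds
  have hdenc : ∀ t : ℝ, Continuous (den q t) := fun t => by
    unfold den
    fun_prop
  have hdu : ∀ t : ℝ, den q t u = u * (z0 - t) := by
    intro t
    rw [den, hu2]
    linear_combination (-1 : ℂ) * hu1
  have hIoo : ∀ᶠ r : ℝ in 𝓝[<] 1, 0 < r ∧ r < 1 := by
    have e1 : ∀ᶠ r : ℝ in 𝓝[<] 1, 0 < r :=
      (isOpen_lt continuous_const continuous_id).mem_nhds (by simp) |> mem_nhdsWithin_of_mem_nhds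
    exact e1.and self_mem_nhdsWithin
  -- left hand side
  have hL : Tendsto (fun r : ℝ => ∑' s, (den q z0 (r * u) / den q (z s) (r * u)) *
      (c 0 s + (c 1 s - z s * c 0 s) * (r * u))) (𝓝[<] 1)
      (𝓝 (∑' s, (if z s = z0 then c 0 s + (c 1 s - z0 * c 0 s) * u else 0))) := by
    refine tendsto_tsum_of_dominated_convergence
      (bound := fun s => ‖u‖ / u.im * (‖c 0 s‖ + (‖c 1 s‖ + B * ‖c 0 s‖) * ‖u‖))
      ((summable_num h0 h1 ‖u‖).mul_left _) (fun s => ?_) ?_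
    · by_cases hs : z s = z0
      · rw [if_pos hs, hs]
        have e1 : Tendsto (fun r : ℝ => c 0 s + (c 1 s - z0 * c 0 s) * (r * u)) (𝓝[<] 1)
            (𝓝 (c 0 s + (c 1 s - z0 * c 0 s) * u)) :=
          tendsto_const_nhds.add (tendsto_const_nhds.mul hlt)
        refine e1.congr' ?_
        filter_upwards [hIoo] with r hr
        rw [div_self (den_ne_zero z0 (hmem r hr.1 hr.2)), one_mul]
      · rw [if_neg hs]
        have e1 : Tendsto (fun r : ℝ => den q z0 (r * u) / den q (z s) (r * u)) (𝓝[<] 1)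
            (𝓝 (den q z0 u / den q (z s) u)) := by
          refine Tendsto.div (((hdenc z0).tendsto u).comp hlt)
            (((hdenc (z s)).tendsto u).comp hlt) ?_
          rw [hdu]
          refine mul_ne_zero (norm_pos_iff.mp hun) (sub_ne_zero.mpr ?_)
          exact fun h => hs (by exact_mod_cast h.symm)
        have e2 : den q z0 u / den q (z s) u = 0 := by rw [hdu z0, sub_self, mul_zero, zero_div]
        rw [e2] at e1
        have e3 : Tendsto (fun r : ℝ => c 0 s + (c 1 s - z s * c 0 s) * (r * u)) (𝓝[<] 1)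
            (𝓝 (c 0 s + (c 1 s - z s * c 0 s) * u)) :=
          tendsto_const_nhds.add (tendsto_const_nhds.mul hlt)
        have e4 := e1.mul e3
        rwa [zero_mul] at e4
    · filter_upwards [hIoo] with r hr
      intro s
      rw [norm_mul]
      refine mul_le_mul (hratio s r hr.1 hr.2) (norm_num_le hB s ?_) (norm_nonneg _)
        (div_nonneg (norm_nonneg _) hui.le)
      rw [norm_mul, Complex.norm_real, Real.norm_eq_abs, abs_of_pos hr.1]
      nlinarith [norm_nonneg u]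
  -- right hand side
  have hR : Tendsto (fun r : ℝ => den q z0 (r * u) *
      ∑ m ∈ Finset.range m0, (∑' s, c m s) * (r * u) ^ m) (𝓝[<] 1) (𝓝 0) := by
    have e1 : Tendsto (fun r : ℝ => den q z0 (r * u)) (𝓝[<] 1) (𝓝 (den q z0 u)) :=
      ((hdenc z0).tendsto u).comp hlt
    have e2 : Continuous (fun x : ℂ => ∑ m ∈ Finset.range m0, (∑' s, c m s) * x ^ m) := by
      fun_prop
    have e3 := e1.mul ((e2.tendsto u).comp hlt)
    rw [hdu z0, sub_self, mul_zero, zero_mul] at e3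
    exact e3
  refine tendsto_nhds_unique (hL.congr' ?_) hR
  filter_upwards [hIoo] with r hr
  rw [← F_eq hB hq hB0 hrec h0 h1 m0 hm (hmem r hr.1 hr.2), ← tsum_mul_left]
  refine tsum_congr fun s => ?_
  rw [gf]
  ring

theorem summable_ite {f : S → ℂ} (hf : Summable fun s => ‖f s‖) (p : S → Prop)
    [DecidablePred p] : Summable fun s => if p s then f s else 0 := by
  refine Summable.of_norm_bounded hf fun s => ?_
  split_ifs
  · exact le_rfl
  · rw [norm_zero]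
    exact norm_nonneg _

theorem extract_aux {B : ℝ} (hB : ∀ s, |z s| ≤ B) (hq : 0 < q) (hB0 : 0 ≤ B)
    (hrec : ∀ m s, c (m + 2) s = z s * c (m + 1) s - q * c m s)
    (h0 : Summable fun s => ‖c 0 s‖) (h1 : Summable fun s => ‖c 1 s‖) (m0 : ℕ)
    (hm : ∀ m, m0 ≤ m → ∑' s, c m s = 0) (z0 : ℝ) (hz0 : z0 ^ 2 < 4 * q) :
    ∑' s, (if z s = z0 then c 0 s else 0) = 0 ∧ ∑' s, (if z s = z0 then c 1 s else 0) = 0 := by
  let D : ℝ := Real.sqrt (4 * q - z0 ^ 2)
  have hD : 0 < D := Real.sqrt_pos.mpr (by linarith)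
  have hD2 : D ^ 2 = 4 * q - z0 ^ 2 := Real.sq_sqrt (by linarith)
  let u : ℂ := ⟨z0 / (2 * q), D / (2 * q)⟩
  have hu : q * ‖u‖ ^ 2 = 1 := by
    rw [Complex.sq_norm, Complex.normSq_apply]
    change q * (z0 / (2 * q) * (z0 / (2 * q)) + D / (2 * q) * (D / (2 * q))) = 1
    field_simp
    rw [hD2]
    ring
  have hui : 0 < u.im := div_pos hD (by linarith)
  have hur : 2 * q * u.re = z0 := by
    change 2 * q * (z0 / (2 * q)) = z0
    field_simp
  have L1 := limit_F hB hq hB0 hrec h0 h1 m0 hm z0 hu hui hur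
  have L2 := limit_F (c := fun m s => conj (c m s)) hB hq hB0 (fun m s => by
      rw [hrec]
      simp) (by simpa using h0) (by simpa using h1) m0 (fun m hm' => by
      rw [← Complex.conj_tsum, hm m hm', map_zero]) z0 hu hui hur
  have hs0 : Summable fun s => if z s = z0 then c 0 s else 0 := summable_ite h0 _
  have hs1' : Summable fun s => if z s = z0 then c 1 s else 0 := summable_ite h1 _
  have hs1 : Summable fun s => if z s = z0 then c 1 s - z0 * c 0 s else 0 := by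
    refine (hs1'.sub (hs0.mul_left (z0 : ℂ))).congr fun s => ?_
    split_ifs <;> simp
  have e1 : ∀ v : ℂ, ∑' s, (if z s = z0 then c 0 s + (c 1 s - z0 * c 0 s) * v else 0) =
      ∑' s, (if z s = z0 then c 0 s else 0) +
        (∑' s, (if z s = z0 then c 1 s - z0 * c 0 s else 0)) * v := by
    intro v
    rw [← tsum_mul_right, ← hs0.tsum_add (hs1.mul_right v)]
    refine tsum_congr fun s => ?_
    split_ifs <;> simp
  have e2 : ∑' s, (if z s = z0 then c 0 s + (c 1 s - z0 * c 0 s) * conj u else 0) = 0 := by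
    have h2 := congrArg conj L2
    rw [Complex.conj_tsum, map_zero] at h2
    refine Eq.trans (tsum_congr fun s => ?_) h2
    split_ifs <;> simp
  rw [e1] at L1 e2
  set a := ∑' s, (if z s = z0 then c 0 s else 0)
  set b := ∑' s, (if z s = z0 then c 1 s - z0 * c 0 s else 0) with hb
  have h3 : b * (u - conj u) = 0 := by linear_combination L1 - e2
  have h4 : u - conj u ≠ 0 := by
    intro h
    have := congrArg Complex.im h
    simp at this
    linarith
  have h5 : b = 0 := (mul_eq_zero.mp h3).resolve_right h4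
  have h6 : a = 0 := by
    rw [h5, zero_mul, add_zero] at L1
    exact L1
  refine ⟨h6, ?_⟩
  have h7 : ∑' s, (if z s = z0 then c 1 s else 0) = b + z0 * a := by
    rw [hb, ← tsum_mul_left, ← hs1.tsum_add (hs0.mul_left _)]
    refine tsum_congr fun s => ?_
    split_ifs <;> simp
  rw [h7, h5, h6, mul_zero, add_zero]

/-- **Extraction lemma.** -/
theorem extract {B : ℝ} (hB : ∀ s, c 0 s ≠ 0 ∨ c 1 s ≠ 0 → |z s| ≤ B) (hq : 0 < q)
    (hrec : ∀ m s, c (m + 2) s = z s * c (m + 1) s - q * c m s)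
    (h0 : Summable fun s => ‖c 0 s‖) (h1 : Summable fun s => ‖c 1 s‖) (m0 : ℕ)
    (hm : ∀ m, m0 ≤ m → ∑' s, c m s = 0) (z0 : ℝ) (hz0 : z0 ^ 2 < 4 * q) :
    ∑' s, (if z s = z0 then c 0 s else 0) = 0 ∧ ∑' s, (if z s = z0 then c 1 s else 0) = 0 := by
  classical
  let z' : S → ℝ := fun s => if c 0 s ≠ 0 ∨ c 1 s ≠ 0 then z s else 0
  have hz' : ∀ s, (c 0 s = 0 ∧ c 1 s = 0) ∨ z' s = z s := fun s => by
    by_cases h : c 0 s ≠ 0 ∨ c 1 s ≠ 0
    · exact Or.inr (if_pos h)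
    · push Not at h
      exact Or.inl h
  have hall : ∀ s, c 0 s = 0 ∧ c 1 s = 0 → ∀ m, c m s = 0 ∧ c (m + 1) s = 0 := by
    intro s hs m
    induction m with
    | zero => exact hs
    | succ m ih => exact ⟨ih.2, by rw [hrec, ih.1, ih.2]; simp⟩
  have key := extract_aux (z := z') (c := c) (q := q) (B := |B|) (fun s => by
      by_cases h : c 0 s ≠ 0 ∨ c 1 s ≠ 0
      · change |if _ then z s else 0| ≤ _
        rw [if_pos h]
        exact (hB s h).trans (le_abs_self _)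
      · change |if _ then z s else 0| ≤ _
        rw [if_neg h, abs_zero]
        exact abs_nonneg _) hq (abs_nonneg _) (fun m s => by
      rcases hz' s with h | h
      · rw [(hall s h (m + 2)).1, (hall s h (m + 1)).1, (hall s h m).1]
        simp
      · rw [h]
        exact hrec m s) h0 h1 m0 hm z0 hz0
  constructor
  · refine Eq.trans (tsum_congr fun s => ?_) key.1
    rcases hz' s with h | h
    · rw [h.1]
      simp
    · rw [h]
  · refine Eq.trans (tsum_congr fun s => ?_) key.2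
    rcases hz' s with h | h
    · rw [h.2]
      simp
    · rw [h]

end Extract

end Fermat.Agent.LT.FA
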