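import Fermat.Agent.LT.FA.Isolation
import Fermat.Agent.LT.FA.Extract

/-!
# Isolation of joint eigensystems from traces known only for large exponents
-/

set_option autoImplicit false

open scoped InnerProductSpace ENNReal NNReal Topology ComplexConjugate
open Filter Module.End

namespace Fermat.Agent.LT.FA

section One

variable {H : Type*} [NormedAddCommGroup H] [InnerProductSpace ℂ H]
variable {ι : Type*} {T : ι → H →L[ℂ] H}

theorem cTr_rec (hT : IsCommSymm T) (i : ι) (q : ℝ) {V V' V'' : H →L[ℂ] H}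
    (h : V'' = T i * V' - (q : ℂ) • V) (s : ι → ℝ) [FiniteDimensional ℂ (jointE T s)] :
    cTr V'' (jointE T s) = s i * cTr V' (jointE T s) - q * cTr V (jointE T s) := by
  rw [h, cTr, cTr, cTr, Finset.mul_sum, Finset.mul_sum, ← Finset.sum_sub_distrib]
  refine Finset.sum_congr rfl fun a _ => ?_
  set e : H := (stdOrthonormalBasis ℂ (jointE T s) a : H)
  have he : e ∈ jointE T s := Subtype.mem _
  change ⟪e, T i (V' e) - (q : ℂ) • V e⟫_ℂ = _
  rw [inner_sub_right, inner_smul_right, ← hT.inner, mem_jointE.mp he, inner_smul_left,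
    Complex.conj_ofReal]

theorem wt_rec (hT : IsCommSymm T) (iA iB i : ι) (q : ℝ) {V V' V'' : H →L[ℂ] H}
    (h : V'' = T i * V' - (q : ℂ) • V) (s : ι → ℝ) :
    wt T iA iB V'' s = s i * wt T iA iB V' s - q * wt T iA iB V s := by
  unfold wt
  split_ifs with h1
  · have := h1.2
    rw [cTr_rec hT i q h s]
    ring
  · simp

end One

variable {HE HK : Type*} [NormedAddCommGroup HE] [InnerProductSpace ℂ HE] [CompleteSpace HE]
  [NormedAddCommGroup HK] [InnerProductSpace ℂ HK] [CompleteSpace HK] {ι : Type*}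

/-- **Isolation theorem, asymptotic form**: the traces are only known to be equal for large `m`,
with a bound depending on the test function. -/
theorem cTr_eq_of_trace_eventually_eq {TE : ι → HE →L[ℂ] HE} {TK : ι → HK →L[ℂ] HK}
    (hE : IsCommSymm TE) (hK : IsCommSymm TK) (iA iB iz : ι)
    (hEA : IsHS (TE iA)) (hEB : IsHS (TE iB)) (hKA : IsHS (TK iA)) (hKB : IsHS (TK iB))
    {q : ℝ} (hq : 0 < q) (V : ℕ → HE →L[ℂ] HE) (W : ℕ → HK →L[ℂ] HK)
    (hV : ∀ m, V (m + 2) = TE iz * V (m + 1) - (q : ℂ) • V m)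
    (hW : ∀ m, W (m + 2) = TK iz * W (m + 1) - (q : ℂ) • W m)
    (htr : ∀ l : List ι, ∃ m0, ∀ m, m0 ≤ m → hsTrace (mulL TE l * TE iA) (TE iB * V m) =
      hsTrace (mulL TK l * TK iA) (TK iB * W m))
    (s : ι → ℝ) (hsA : s iA ≠ 0) (hsB : s iB ≠ 0) (hsz : s iz ^ 2 < 4 * q)
    [FiniteDimensional ℂ (jointE TE s)] [FiniteDimensional ℂ (jointE TK s)] (m : ℕ) :
    cTr (V m) (jointE TE s) = cTr (W m) (jointE TK s) := by
  classical
  -- the difference of the weights
  let c : ℕ → (ι → ℝ) → ℂ := fun m s => wt TE iA iB (V m) s - wt TK iA iB (W m) s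
  have hrec : ∀ m s, c (m + 2) s = s iz * c (m + 1) s - q * c m s := by
    intro m s
    change wt TE iA iB (V (m + 2)) s - wt TK iA iB (W (m + 2)) s =
      s iz * (wt TE iA iB (V (m + 1)) s - wt TK iA iB (W (m + 1)) s) -
        q * (wt TE iA iB (V m) s - wt TK iA iB (W m) s)
    rw [wt_rec hE iA iB iz q (hV m) s, wt_rec hK iA iB iz q (hW m) s]
    ring
  have hsum : ∀ m (l : List ι), HasSum (fun s : ι → ℝ => c m s * (((l.map s).prod : ℝ) : ℂ))
      (hsTrace (mulL TE l * TE iA) (TE iB * V m) - hsTrace (mulL TK l * TK iA) (TK iB * W m)) := by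
    intro m l
    have h1 := hasSum_wt hE iA iB hEA hEB (V m) l
    have h2 := hasSum_wt hK iA iB hKA hKB (W m) l
    exact ((h1.sub h2).congr_fun fun s => by simp only [c]; ring)
  have hR : ∀ m s, c m s ≠ 0 → ∀ i, |s i| ≤ max ‖TE i‖ ‖TK i‖ := by
    intro m s hs i
    by_cases h : wt TE iA iB (V m) s = 0
    · have h' : wt TK iA iB (W m) s ≠ 0 := by
        intro h'
        apply hs
        simp only [c, h, h', sub_zero]
      exact (wt_ne_zero h' i).trans (le_max_right _ _)
    · exact (wt_ne_zero h i).trans (le_max_left _ _)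
  -- extraction
  have hext : ∀ l : List ι,
      ∑' s' : ι → ℝ, (if s' iz = s iz then c 0 s' * (((l.map s').prod : ℝ) : ℂ) else 0) = 0 ∧
      ∑' s' : ι → ℝ, (if s' iz = s iz then c 1 s' * (((l.map s').prod : ℝ) : ℂ) else 0) = 0 := by
    intro l
    obtain ⟨m0, hm0⟩ := htr l
    refine Extract.extract (S := ι → ℝ) (z := fun s' => s' iz)
      (c := fun m s' => c m s' * (((l.map s').prod : ℝ) : ℂ)) (B := max ‖TE iz‖ ‖TK iz‖)
      (fun s' hs' => ?_) hq (fun m s' => ?_) (hsum 0 l).summable.norm (hsum 1 l).summable.norm m0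
      (fun m hm => ?_) (s iz) hsz
    · rcases hs' with h | h
      · exact hR 0 s' (left_ne_zero_of_mul h) iz
      · exact hR 1 s' (left_ne_zero_of_mul h) iz
    · change c (m + 2) s' * _ = s' iz * (c (m + 1) s' * _) - q * (c m s' * _)
      rw [hrec]
      ring
    · rw [(hsum m l).tsum_eq, hm0 m hm, sub_self]
  have hfinal : ∀ j, (∀ l : List ι, ∑' s' : ι → ℝ,
      (if s' iz = s iz then c j s' * (((l.map s').prod : ℝ) : ℂ) else 0) = 0) → c j s = 0 := by
    intro j hj
    have h3 := eq_zero_of_moments (fun i => max ‖TE i‖ ‖TK i‖)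
      (fun s' => if s' iz = s iz then c j s' else 0) (by
        have e1 := (hsum j []).summable.norm
        refine Summable.of_nonneg_of_le (fun s' => norm_nonneg _) (fun s' => ?_) e1
        split_ifs
        · simp
        · rw [norm_zero]
          exact norm_nonneg _) (by
        intro s' hs' i
        refine hR j s' (fun h0 => hs' ?_) i
        rw [h0]
        simp) (by
        intro l
        refine Eq.trans (tsum_congr fun s' => ?_) (hj l)
        split_ifs <;> simp) s
    rwa [if_pos rfl] at h3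
  have h0 := hfinal 0 fun l => (hext l).1
  have h1 := hfinal 1 fun l => (hext l).2
  have hall : ∀ m, c m s = 0 ∧ c (m + 1) s = 0 := by
    intro m
    induction m with
    | zero => exact ⟨h0, h1⟩
    | succ m ih => exact ⟨ih.2, by rw [hrec, ih.1, ih.2]; simp⟩
  have h3 := (hall m).1
  have h4 : wt TE iA iB (V m) s = wt TK iA iB (W m) s := sub_eq_zero.mp h3
  rw [wt, wt, dif_pos ⟨hsA, inferInstance⟩, dif_pos ⟨hsA, inferInstance⟩] at h4
  refine mul_left_cancel₀ ?_ h4
  rw [Ne, Complex.ofReal_eq_zero]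
  exact mul_ne_zero hsA hsB

/-- **Transfer of a joint eigensystem, asymptotic form.** -/
theorem exists_of_trace_eventually_eq {TE : ι → HE →L[ℂ] HE} {TK : ι → HK →L[ℂ] HK}
    (hE : IsCommSymm TE) (hK : IsCommSymm TK) (iA iB iz : ι)
    (hEA : IsHS (TE iA)) (hEB : IsHS (TE iB)) (hKA : IsHS (TK iA)) (hKB : IsHS (TK iB))
    {q : ℝ} (hq : 0 < q) (V : ℕ → HE →L[ℂ] HE) (W : ℕ → HK →L[ℂ] HK)
    (hV : ∀ m, V (m + 2) = TE iz * V (m + 1) - (q : ℂ) • V m)
    (hW : ∀ m, W (m + 2) = TK iz * W (m + 1) - (q : ℂ) • W m)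
    (htr : ∀ l : List ι, ∃ m0, ∀ m, m0 ≤ m → hsTrace (mulL TE l * TE iA) (TE iB * V m) =
      hsTrace (mulL TK l * TK iA) (TK iB * W m))
    (s : ι → ℝ) (hsA : s iA ≠ 0) (hsB : s iB ≠ 0) (hsz : s iz ^ 2 < 4 * q)
    (hV0 : ∀ x ∈ jointE TE s, V 0 x ∈ jointE TE s)
    (hne : LinearMap.trace ℂ (jointE TE s) ((V 0 : HE →ₗ[ℂ] HE).restrict hV0) ≠ 0) :
    ∃ x ∈ jointE TK s, ⟪x, W 0 x⟫_ℂ ≠ 0 := by
  have h1 := finiteDimensional_jointE hEA.isCompactOperator hsA
  have h2 := finiteDimensional_jointE hKA.isCompactOperator hsA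
  apply exists_of_cTr_ne_zero
  rw [← cTr_eq_of_trace_eventually_eq hE hK iA iB iz hEA hEB hKA hKB hq V W hV hW htr s hsA hsB
    hsz 0, cTr_eq_trace (V 0) _ hV0]
  exact hne

end Fermat.Agent.LT.FA
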