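import Fermat.Agent.LT.FA.IwTrace
import Fermat.Agent.LT.FA.Iso2

/-!
# Nonvanishing of the compressed twisted trace at an auxiliary split place

`z₀ = Z 0` belongs to the commuting family, `Z 1`, `Z 2` do not (the support condition at the
auxiliary place only allows the first factor); the joint eigenspace is therefore not `σ`-stable,
but the compression of `B σ` only sees the part where all three central characters agree.
-/

set_option autoImplicit false

open scoped InnerProductSpace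
open Module.End

namespace Fermat.Agent.LT.FA

section Lin

variable {M : Type*} [AddCommGroup M] [Module ℂ M]

theorem aeval_eigen {A : Module.End ℂ M} {μ : ℂ} {x : M} (hx : A x = μ • x)
    (p : Polynomial ℂ) : (Polynomial.aeval A p) x = p.eval μ • x := by
  induction p using Polynomial.induction_on' with
  | add p q hp hq => rw [map_add, LinearMap.add_apply, hp, hq, Polynomial.eval_add, add_smul]
  | monomial n a =>
    rw [Polynomial.aeval_monomial, Polynomial.eval_monomial, ← Algebra.smul_def,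
      LinearMap.smul_apply]
    have : (A ^ n) x = μ ^ n • x := by
      induction n with
      | zero => simp
      | succ n ih =>
        rw [pow_succ, Module.End.mul_apply, hx, map_smul, ih, smul_smul, pow_succ, mul_comm]
    rw [this, smul_smul]

/-- spectral projection: `p z = 1` and `p` vanishes at all other eigenvalues -/
structure IsSpec (A : Module.End ℂ M) (z : ℂ) (p : Polynomial ℂ) : Prop where
  top : ⨆ μ : ℂ, eigenspace A μ = ⊤
  one : p.eval z = 1
  zero : ∀ (μ : ℂ) (x : M), x ≠ 0 → A x = μ • x → μ ≠ z → p.eval μ = 0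

theorem IsSpec.ind {A : Module.End ℂ M} {z : ℂ} {p : Polynomial ℂ} (h : IsSpec A z p)
    {P : M → Prop} (h0 : P 0) (hadd : ∀ x y, P x → P y → P (x + y))
    (he : ∀ (μ : ℂ) (x : M), A x = μ • x → P x) (x : M) : P x := by
  have hx : x ∈ ⨆ μ : ℂ, eigenspace A μ := by rw [h.top]; trivial
  exact Submodule.iSup_induction (fun μ : ℂ => eigenspace A μ) (motive := P) hx
    (fun μ y hy => he μ y (mem_eigenspace_iff.mp hy)) h0 hadd

theorem IsSpec.apply_of_ne {A : Module.End ℂ M} {z : ℂ} {p : Polynomial ℂ} (h : IsSpec A z p)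
    {μ : ℂ} {x : M} (hx : A x = μ • x) (hμ : μ ≠ z) : Polynomial.aeval A p x = 0 := by
  by_cases hx0 : x = 0
  · rw [hx0, map_zero]
  · rw [aeval_eigen hx, h.zero μ x hx0 hx hμ, zero_smul]

theorem IsSpec.apply_of_eq {A : Module.End ℂ M} {z : ℂ} {p : Polynomial ℂ} (h : IsSpec A z p)
    {x : M} (hx : A x = z • x) : Polynomial.aeval A p x = x := by
  rw [aeval_eigen hx, h.one, one_smul]

theorem IsSpec.idem {A : Module.End ℂ M} {z : ℂ} {p : Polynomial ℂ} (h : IsSpec A z p) :
    Polynomial.aeval A p * Polynomial.aeval A p = Polynomial.aeval A p := by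
  refine LinearMap.ext fun x => ?_
  refine h.ind (P := fun x => (Polynomial.aeval A p * Polynomial.aeval A p) x =
    Polynomial.aeval A p x) (by simp) (fun x y hx hy => by rw [map_add, map_add, hx, hy])
    (fun μ x hx => ?_) x
  rw [Module.End.mul_apply]
  by_cases hμ : μ = z
  · subst hμ; rw [h.apply_of_eq hx, h.apply_of_eq hx]
  · rw [h.apply_of_ne hx hμ, map_zero]

theorem IsSpec.mul {A : Module.End ℂ M} {z : ℂ} {p : Polynomial ℂ} (h : IsSpec A z p) :
    A * Polynomial.aeval A p = z • Polynomial.aeval A p := by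
  refine LinearMap.ext fun x => ?_
  refine h.ind (P := fun x => (A * Polynomial.aeval A p) x = (z • Polynomial.aeval A p) x)
    (by simp) (fun x y hx hy => by rw [map_add, map_add, hx, hy]) (fun μ x hx => ?_) x
  rw [Module.End.mul_apply, LinearMap.smul_apply]
  by_cases hμ : μ = z
  · subst hμ; rw [h.apply_of_eq hx, hx]
  · rw [h.apply_of_ne hx hμ, map_zero, smul_zero]

theorem commute_aeval {A C : Module.End ℂ M} (h : Commute C A) (p : Polynomial ℂ) :
    Commute C (Polynomial.aeval A p) := by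
  refine LinearMap.ext fun x => ?_
  induction p using Polynomial.induction_on' with
  | add p q hp hq =>
    rw [map_add, mul_add, add_mul, LinearMap.add_apply, LinearMap.add_apply, hp, hq]
  | monomial n a =>
    rw [Polynomial.aeval_monomial, ← Algebra.smul_def, mul_smul_comm, smul_mul_assoc,
      (h.pow_right n).eq]

theorem shift_aeval {A A' σ : Module.End ℂ M} (h : σ * A = A' * σ) (p : Polynomial ℂ) :
    σ * Polynomial.aeval A p = Polynomial.aeval A' p * σ := by
  induction p using Polynomial.induction_on' with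
  | add p q hp hq => rw [map_add, map_add, mul_add, add_mul, hp, hq]
  | monomial n a =>
    rw [Polynomial.aeval_monomial, Polynomial.aeval_monomial, ← Algebra.smul_def,
      ← Algebra.smul_def, mul_smul_comm, smul_mul_assoc]
    congr 1
    induction n with
    | zero => simp
    | succ n ih => rw [pow_succ, pow_succ, ← mul_assoc, ih, mul_assoc, h, mul_assoc]

/-- existence of the polynomial -/
theorem exists_poly [FiniteDimensional ℂ M] (Z : Fin 3 → Module.End ℂ M) (z : ℂ) :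
    ∃ p : Polynomial ℂ, p.eval z = 1 ∧ ∀ i μ x, x ≠ 0 → Z i x = μ • x → μ ≠ z →
      p.eval μ = 0 := by
  classical
  have hfin : ∀ i, {μ : ℂ | HasEigenvalue (Z i) μ}.Finite := fun i => finite_hasEigenvalue _
  let S : Finset ℂ := (Set.finite_iUnion hfin).toFinset
  have hS : ∀ i μ x, x ≠ 0 → Z i x = μ • x → μ ∈ S := fun i μ x hx0 hx => by
    rw [Set.Finite.mem_toFinset, Set.mem_iUnion]
    exact ⟨i, hasEigenvalue_of_hasEigenvector ⟨mem_eigenspace_iff.mpr hx, hx0⟩⟩
  refine ⟨∏ μ ∈ S.erase z, Polynomial.C (z - μ)⁻¹ * (Polynomial.X - Polynomial.C μ), ?_, ?_⟩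
  · rw [Polynomial.eval_prod]
    refine Finset.prod_eq_one fun μ hμ => ?_
    have : z - μ ≠ 0 := sub_ne_zero.mpr (Finset.ne_of_mem_erase hμ).symm
    simp [inv_mul_cancel₀ this]
  · intro i μ x hx0 hx hμ
    rw [Polynomial.eval_prod]
    exact Finset.prod_eq_zero (Finset.mem_erase.mpr ⟨hμ, hS i μ x hx0 hx⟩) (by simp)

end Lin

/-- the operators at an auxiliary place `v₀` with three places above it -/
structure IwOps {R : Type*} [Ring R] [Algebra ℂ R] (Z e ω : Fin 3 → R) (B σ : R) (q : ℂ) :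
    Prop where
  idem : ∀ i, e i * e i = e i
  invol : ∀ i, ω i * ω i = 1
  ee : ∀ i j, Commute (e i) (e j)
  eo : ∀ i j, i ≠ j → Commute (e i) (ω j)
  oo : ∀ i j, i ≠ j → Commute (ω i) (ω j)
  se : ∀ i, σ * e i = e (i + 1) * σ
  so : ∀ i, σ * ω i = ω (i + 1) * σ
  Be : ∀ i, Commute B (e i)
  Bo : ∀ i, Commute B (ω i)
  Bs : Commute B σ
  BB : B * B = B
  central : ∀ i, Z i = (q + 1) • (e i * ω i * e i - (1 - e i) * ω i * (1 - e i))

namespace IwOps

variable {R : Type*} [Ring R] [Algebra ℂ R] {Z e ω : Fin 3 → R} {B σ : R} {q : ℂ}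

theorem Z_eq (h : IwOps Z e ω B σ q) (i : Fin 3) :
    Z i = (q + 1) • (e i * ω i + ω i * e i - ω i) := by
  rw [h.central i]
  congr 1
  noncomm_ring

theorem Ze (h : IwOps Z e ω B σ q) (i j : Fin 3) : Commute (Z i) (e j) := by
  rw [h.Z_eq i]
  refine Commute.smul_left ?_ _
  by_cases hij : i = j
  · subst hij
    change (e i * ω i + ω i * e i - ω i) * e i = e i * (e i * ω i + ω i * e i - ω i)
    rw [sub_mul, add_mul, mul_assoc (ω i), h.idem, mul_sub, mul_add, ← mul_assoc (e i) (e i),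
      h.idem]
    noncomm_ring
  · exact (((h.ee i j).mul_left (h.eo j i (Ne.symm hij)).symm).add_left
      ((h.eo j i (Ne.symm hij)).symm.mul_left (h.ee i j))).sub_left (h.eo j i (Ne.symm hij)).symm

theorem Zo (h : IwOps Z e ω B σ q) (i j : Fin 3) : Commute (Z i) (ω j) := by
  rw [h.Z_eq i]
  refine Commute.smul_left ?_ _
  by_cases hij : i = j
  · subst hij
    change (e i * ω i + ω i * e i - ω i) * ω i = ω i * (e i * ω i + ω i * e i - ω i)
    rw [sub_mul, add_mul, mul_assoc (e i), h.invol, mul_sub, mul_add, ← mul_assoc (ω i) (ω i),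
      h.invol]
    noncomm_ring
  · exact (((h.eo i j hij).mul_left (h.oo i j hij)).add_left
      ((h.oo i j hij).mul_left (h.eo i j hij))).sub_left (h.oo i j hij)

theorem ZZ (h : IwOps Z e ω B σ q) (i j : Fin 3) : Commute (Z i) (Z j) := by
  rw [h.Z_eq j]
  exact (((((h.Ze i j).mul_right (h.Zo i j)).add_right
    ((h.Zo i j).mul_right (h.Ze i j))).sub_right (h.Zo i j))).smul_right _

theorem BZ (h : IwOps Z e ω B σ q) (i : Fin 3) : Commute B (Z i) := by
  rw [h.Z_eq i]
  exact ((((h.Be i).mul_right (h.Bo i)).add_right ((h.Bo i).mul_right (h.Be i))).sub_right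
    (h.Bo i)).smul_right _

theorem sZ (h : IwOps Z e ω B σ q) (i : Fin 3) : σ * Z i = Z (i + 1) * σ := by
  rw [h.Z_eq i, h.Z_eq (i + 1), mul_smul_comm, smul_mul_assoc]
  congr 1
  rw [mul_sub, mul_add, sub_mul, add_mul, ← mul_assoc, ← mul_assoc, h.se, h.so, mul_assoc _ σ,
    mul_assoc _ σ, h.so, h.se, ← mul_assoc, ← mul_assoc]

end IwOps

section Main

variable {M : Type*} [AddCommGroup M] [Module ℂ M] [FiniteDimensional ℂ M]
  {Z e ω : Fin 3 → Module.End ℂ M} {B σ : Module.End ℂ M} {q z : ℂ}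

theorem trace_ne_zero_of_iwOps (h : IwOps Z e ω B σ q) (hq : q + 1 ≠ 0)
    (hz : z ^ 2 ≠ (q + 1) ^ 2) (p : Polynomial ℂ) (hp : ∀ i, IsSpec (Z i) z p)
    {x : M} (hx0 : x ≠ 0) (hxZ : ∀ i, Z i x = z • x) (hxe : ∀ i, e i x = x) (hxB : B x = x)
    (huniq : ∀ y : M, (∀ i, Z i y = z • y) → (∀ i, e i y = y) → B y = y → σ y = y) :
    LinearMap.trace ℂ M (Polynomial.aeval (Z 0) p * (B * σ)) ≠ 0 := by
  set P : Fin 3 → Module.End ℂ M := fun i => Polynomial.aeval (Z i) p with hP
  have PB : ∀ i, Commute B (P i) := fun i => commute_aeval (h.BZ i) p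
  have PP : ∀ i j, Commute (P i) (P j) := fun i j =>
    commute_aeval (commute_aeval (h.ZZ i j).symm p).symm p
  have Pe : ∀ i j, Commute (P i) (e j) := fun i j => (commute_aeval (h.Ze i j).symm p).symm
  have Po : ∀ i j, Commute (P i) (ω j) := fun i j => (commute_aeval (h.Zo i j).symm p).symm
  have Pi : ∀ i, P i * P i = P i := fun i => (hp i).idem
  have sP : ∀ i, σ * P i = P (i + 1) * σ := fun i => shift_aeval (h.sZ i) p
  set Q : Module.End ℂ M := P 0 * P 1 * P 2 with hQ
  have hQB : Commute B Q := ((PB 0).mul_right (PB 1)).mul_right (PB 2)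
  have hQe : ∀ i, Commute Q (e i) := fun i => ((Pe 0 i).mul_left (Pe 1 i)).mul_left (Pe 2 i)
  have hQo : ∀ i, Commute Q (ω i) := fun i => ((Po 0 i).mul_left (Po 1 i)).mul_left (Po 2 i)
  have hQs : Commute Q σ := by
    change P 0 * P 1 * P 2 * σ = σ * (P 0 * P 1 * P 2)
    rw [← mul_assoc, ← mul_assoc, sP 0, mul_assoc _ σ, sP 1, ← mul_assoc, mul_assoc _ σ, sP 2,
      ← mul_assoc, show P (0 + 1) * P (1 + 1) * P (2 + 1) = P 1 * P 2 * P 0 from rfl,
      mul_assoc (P 0), ((PP 1 0).mul_left (PP 2 0)).eq]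
  -- reduction to the common central character
  have e1 : LinearMap.trace ℂ M (P 0 * (B * σ)) = LinearMap.trace ℂ M (B * Q * σ) := by
    rw [← mul_assoc, ← (PB 0).eq]
    exact trace_idem_three Pi PP sP PB
  -- the Iwahori part
  have hdata : IwData σ (B * Q) e ω (z / (q + 1)) :=
    { idem := h.idem, invol := h.invol, ee := h.ee, eo := h.eo, oo := h.oo, se := h.se
      so := h.so
      Be := fun i => (h.Be i).mul_left (hQe i)
      Bo := fun i => (h.Bo i).mul_left (hQo i)
      central := by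
        have e2 : e 0 * ω 0 * e 0 - (1 - e 0) * ω 0 * (1 - e 0) = (q + 1)⁻¹ • Z 0 := by
          rw [h.central 0, smul_smul, inv_mul_cancel₀ hq, one_smul]
        have e3 : Q * Z 0 = z • Q := by
          have e4 : P 0 * Z 0 = z • P 0 := by
            rw [← (commute_aeval (Commute.refl (Z 0)) p).eq]
            exact (hp 0).mul
          have e5 : P 2 * Z 0 = Z 0 * P 2 := (commute_aeval (h.ZZ 0 2) p).eq.symm
          have e6 : P 1 * Z 0 = Z 0 * P 1 := (commute_aeval (h.ZZ 0 1) p).eq.symm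
          rw [hQ, mul_assoc, e5, ← mul_assoc, mul_assoc (P 0), e6, ← mul_assoc (P 0), e4,
            smul_mul_assoc, smul_mul_assoc]
        rw [e2, mul_smul_comm, mul_assoc, e3, mul_smul_comm, smul_smul, div_eq_mul_inv, mul_comm] }
  have hc : (z / (q + 1)) ^ 2 ≠ 1 := by
    rw [div_pow, Ne, div_eq_one_iff_eq (pow_ne_zero 2 hq)]
    exact hz
  rw [e1, hdata.trace_eq hc]
  refine mul_ne_zero two_ne_zero ?_
  have QQ : Q * Q = Q := by
    have a1 : Commute Q (P 0) := ((PP 0 0).mul_left (PP 1 0)).mul_left (PP 2 0)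
    have a2 : Commute Q (P 1) := ((PP 0 1).mul_left (PP 1 1)).mul_left (PP 2 1)
    have a3 : Q * P 2 = Q := by rw [hQ, mul_assoc, Pi 2]
    have a4 : Q * P 1 = Q := by rw [hQ, mul_assoc, (PP 2 1).eq, ← mul_assoc, mul_assoc (P 0), Pi 1]
    have a5 : Q * P 0 = Q := by
      rw [hQ, mul_assoc, (PP 2 0).eq, ← mul_assoc, mul_assoc (P 0), (PP 1 0).eq, ← mul_assoc, Pi 0]
    conv_lhs => rhs; rw [hQ]
    rw [← mul_assoc, ← mul_assoc, a5, a4, a3]
  set X : Module.End ℂ M := e 0 * e 1 * e 2 with hX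
  have XX : X * X = X := by
    have a3 : X * e 2 = X := by rw [hX, mul_assoc, h.idem 2]
    have a4 : X * e 1 = X := by
      rw [hX, mul_assoc, (h.ee 2 1).eq, ← mul_assoc, mul_assoc (e 0), h.idem 1]
    have a5 : X * e 0 = X := by
      rw [hX, mul_assoc, (h.ee 2 0).eq, ← mul_assoc, mul_assoc (e 0), (h.ee 1 0).eq, ← mul_assoc,
        h.idem 0]
    conv_lhs => rhs; rw [hX]
    rw [← mul_assoc, ← mul_assoc, a5, a4, a3]
  have QX : Commute Q X := ((hQe 0).mul_right (hQe 1)).mul_right (hQe 2)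
  have BX : Commute B X := ((h.Be 0).mul_right (h.Be 1)).mul_right (h.Be 2)
  have Xs : Commute X σ := by
    change e 0 * e 1 * e 2 * σ = σ * (e 0 * e 1 * e 2)
    rw [← mul_assoc, ← mul_assoc, h.se 0, mul_assoc _ σ, h.se 1, ← mul_assoc, mul_assoc _ σ,
      h.se 2, ← mul_assoc, show e (0 + 1) * e (1 + 1) * e (2 + 1) = e 1 * e 2 * e 0 from rfl,
      mul_assoc (e 0), ((h.ee 1 0).mul_left (h.ee 2 0)).eq]
  have hXe : ∀ i, e i * X = X := by
    intro i
    have b0 : e 0 * X = X := by rw [hX, ← mul_assoc, ← mul_assoc, h.idem 0]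
    have b1 : e 1 * X = X := by
      rw [hX, ← mul_assoc, ← mul_assoc, (h.ee 1 0).eq, mul_assoc (e 0), h.idem 1]
    have b2 : e 2 * X = X := by
      rw [hX, ((h.ee 0 2).mul_left (h.ee 1 2)).eq, ← mul_assoc, h.idem 2]
    fin_cases i
    exacts [b0, b1, b2]
  have hQP : ∀ i, P i * Q = Q := by
    intro i
    have b0 : P 0 * Q = Q := by rw [hQ, ← mul_assoc, ← mul_assoc, Pi 0]
    have b1 : P 1 * Q = Q := by
      rw [hQ, ← mul_assoc, ← mul_assoc, (PP 1 0).eq, mul_assoc (P 0), Pi 1]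
    have b2 : P 2 * Q = Q := by
      rw [hQ, ((PP 0 2).mul_left (PP 1 2)).eq, ← mul_assoc, Pi 2]
    fin_cases i
    exacts [b0, b1, b2]
  have ZP : ∀ i, Z i * P i = z • P i := fun i => (hp i).mul
  refine trace_idem_mul_ne_zero (P := B * Q * X) (x := x) ?_ ?_ ?_ ?_ hx0
  · exact (IsIdempotentElem.mul_of_commute hQB (show IsIdempotentElem B from h.BB)
      (show IsIdempotentElem Q from QQ)).mul_of_commute (BX.mul_left QX)
      (show IsIdempotentElem X from XX)
  · exact (h.Bs.mul_left hQs).mul_left Xs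
  · intro y hy
    refine huniq y (fun i => ?_) (fun i => ?_) ?_
    · have c1 : Z i * (B * Q * X) = z • (B * Q * X) := by
        rw [mul_assoc B, ← mul_assoc (Z i), ← (h.BZ i).eq, mul_assoc B, ← hQP i, ← mul_assoc (Z i),
          ← mul_assoc (Z i), ZP i]
        simp only [smul_mul_assoc, mul_smul_comm, mul_assoc]
      conv_lhs => rw [← hy]
      rw [← Module.End.mul_apply, c1, LinearMap.smul_apply, hy]
    · have c1 : e i * (B * Q * X) = B * Q * X := by
        rw [← mul_assoc, ((h.Be i).symm.mul_right (hQe i).symm).eq, mul_assoc, hXe i]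
      conv_lhs => rw [← hy]
      rw [← Module.End.mul_apply, c1, hy]
    · have c1 : B * (B * Q * X) = B * Q * X := by
        rw [mul_assoc B Q X, ← mul_assoc B B, h.BB]
      conv_lhs => rw [← hy]
      rw [← Module.End.mul_apply, c1, hy]
  · have d1 : ∀ i, P i x = x := fun i => (hp i).apply_of_eq (hxZ i)
    have d2 : X x = x := by
      rw [hX, Module.End.mul_apply, Module.End.mul_apply, hxe, hxe, hxe]
    have d3 : Q x = x := by
      rw [hQ, Module.End.mul_apply, Module.End.mul_apply, d1, d1, d1]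
    rw [Module.End.mul_apply, Module.End.mul_apply, d2, d3, hxB]

end Main

section Hilb

variable {H : Type*} [NormedAddCommGroup H] [InnerProductSpace ℂ H]

/-- the compression to a subspace as a trace on a larger stable subspace -/
theorem cTr_eq_trace_mul (V : H →L[ℂ] H) (S W : Submodule ℂ H) [FiniteDimensional ℂ S]
    [FiniteDimensional ℂ W] (hSW : S ≤ W) (hV : ∀ x ∈ W, V x ∈ W) (P : Module.End ℂ W)
    (hP1 : ∀ x : W, (x : H) ∈ S → P x = x)
    (hP2 : ∀ x : W, (∀ y ∈ S, ⟪y, (x : H)⟫_ℂ = 0) → P x = 0) :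
    cTr V S = LinearMap.trace ℂ W (P * (V : H →ₗ[ℂ] H).restrict hV) := by
  let inc : S →ₗ[ℂ] W := Submodule.inclusion hSW
  let pr : W →ₗ[ℂ] S := (S.orthogonalProjectionOnto : H →ₗ[ℂ] S) ∘ₗ W.subtype
  have hP : P = inc ∘ₗ pr := by
    refine LinearMap.ext fun x => ?_
    have h1 : P (inc (pr x)) = inc (pr x) := hP1 _ (pr x).2
    have h2 : P (x - inc (pr x)) = 0 := by
      refine hP2 _ fun y hy => ?_
      have h3 := Submodule.inner_orthogonalProjectionOnto_eq_of_mem_left (⟨y, hy⟩ : S) (x : H)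
      have h4 : ⟪y, ((inc (pr x) : W) : H)⟫_ℂ = ⟪y, (x : H)⟫_ℂ := h3
      rw [Submodule.coe_sub, inner_sub_right, h4, sub_self]
    rw [map_sub, sub_eq_zero] at h2
    rw [h2, h1]
    rfl
  have h5 : P * (V : H →ₗ[ℂ] H).restrict hV = inc ∘ₗ (pr ∘ₗ (V : H →ₗ[ℂ] H).restrict hV) := by
    rw [hP]; rfl
  rw [h5, LinearMap.trace_comp_comm', LinearMap.trace_eq_sum_inner _ (stdOrthonormalBasis ℂ S), cTr]
  refine Finset.sum_congr rfl fun a _ => ?_
  exact (Submodule.inner_orthogonalProjectionOnto_eq_of_mem_left _ _).symm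

variable {ι : Type*}

/-- **Nonvanishing of the compressed twisted trace.** -/
theorem cTr_ne_zero_of_iwOps [CompleteSpace H] {TE : ι → H →L[ℂ] H} (hT : IsCommSymm TE) {iA iz : ι}
    (hiA : iA ≠ iz) (hcpt : IsCompactOperator (TE iA)) {s : ι → ℝ} (hsA : s iA ≠ 0) {q : ℝ}
    (hq : 0 < q) (hsz : s iz ^ 2 < 4 * q) {Z e ω : Fin 3 → H →L[ℂ] H} {B σ : H →L[ℂ] H}
    (h : IwOps Z e ω B σ (q : ℂ)) (hZ0 : Z 0 = TE iz)
    (hZs : ∀ i, ((Z i : H →L[ℂ] H) : H →ₗ[ℂ] H).IsSymmetric)
    (heT : ∀ j i, i ≠ iz → Commute (e j) (TE i)) (hoT : ∀ j i, i ≠ iz → Commute (ω j) (TE i))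
    (hBT : ∀ i, i ≠ iz → Commute B (TE i))
    (hσT : ∀ x : H, (∀ i, i ≠ iz → TE i x = (s i : ℂ) • x) →
      ∀ i, i ≠ iz → TE i (σ x) = (s i : ℂ) • σ x)
    {x0 : H} (hx0 : x0 ≠ 0) (hx : ∀ i, i ≠ iz → TE i x0 = (s i : ℂ) • x0)
    (hxZ : ∀ j, Z j x0 = (s iz : ℂ) • x0) (hxe : ∀ j, e j x0 = x0) (hxB : B x0 = x0)
    (huniq : ∀ y : H, (∀ i, i ≠ iz → TE i y = (s i : ℂ) • y) →
      (∀ j, Z j y = (s iz : ℂ) • y) → (∀ j, e j y = y) → B y = y → σ y = y)
    [FiniteDimensional ℂ (jointE TE s)] :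
    cTr (B * σ) (jointE TE s) ≠ 0 := by
  classical
  -- the space `W`
  let W : Submodule ℂ H := ⨅ i : {i : ι // i ≠ iz}, eigenspace ((TE i.1 : H →ₗ[ℂ] H)) (s i.1 : ℂ)
  have memW : ∀ {x : H}, x ∈ W ↔ ∀ i, i ≠ iz → TE i x = (s i : ℂ) • x := by
    intro x
    simp only [W, Submodule.mem_iInf, mem_eigenspace_iff, Subtype.forall]
    rfl
  have hSW : jointE TE s ≤ W := fun x hx => memW.mpr fun i _ => mem_jointE.mp hx i
  have hWfin : FiniteDimensional ℂ W := by
    have h1 : FiniteDimensional ℂ (jointE (fun _ : Unit => TE iA) fun _ => s iA) :=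
      finiteDimensional_jointE (i₀ := ()) hcpt hsA
    have h2 : W ≤ jointE (fun _ : Unit => TE iA) fun _ => s iA := fun x hx =>
      mem_jointE.mpr fun _ => memW.mp hx iA hiA
    exact Submodule.finiteDimensional_of_le h2
  have inv_of_comm : ∀ A : H →L[ℂ] H, (∀ i, i ≠ iz → Commute A (TE i)) → ∀ x ∈ W, A x ∈ W := by
    intro A hA x hx
    refine memW.mpr fun i hi => ?_
    have h1 : A (TE i x) = TE i (A x) := congrArg (fun T : H →L[ℂ] H => T x) (hA i hi).eq
    rw [← h1, memW.mp hx i hi, map_smul]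
  have ie : ∀ j, ∀ x ∈ W, e j x ∈ W := fun j => inv_of_comm _ (heT j)
  have io : ∀ j, ∀ x ∈ W, ω j x ∈ W := fun j => inv_of_comm _ (hoT j)
  have iB : ∀ x ∈ W, B x ∈ W := inv_of_comm _ hBT
  have iσ : ∀ x ∈ W, σ x ∈ W := fun x hx => memW.mpr (hσT x (memW.mp hx))
  have iZ : ∀ j, ∀ x ∈ W, Z j x ∈ W := fun j x hx => by
    rw [h.Z_eq j]
    change ((q : ℂ) + 1) • (e j (ω j x) + ω j (e j x) - ω j x) ∈ W
    exact W.smul_mem _ (W.sub_mem (W.add_mem (ie j _ (io j x hx)) (io j _ (ie j x hx))) (io j x hx))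
  let e' : Fin 3 → Module.End ℂ W := fun j => (e j : H →ₗ[ℂ] H).restrict (ie j)
  let o' : Fin 3 → Module.End ℂ W := fun j => (ω j : H →ₗ[ℂ] H).restrict (io j)
  let Z' : Fin 3 → Module.End ℂ W := fun j => (Z j : H →ₗ[ℂ] H).restrict (iZ j)
  let B' : Module.End ℂ W := (B : H →ₗ[ℂ] H).restrict iB
  let σ' : Module.End ℂ W := (σ : H →ₗ[ℂ] H).restrict iσ
  have app : ∀ {A A' : H →L[ℂ] H}, A = A' → ∀ x : H, A x = A' x := fun h x => by rw [h]
  have h' : IwOps Z' e' o' B' σ' (q : ℂ) :=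
    { idem := fun i => LinearMap.ext fun x => Subtype.ext (app (h.idem i) x)
      invol := fun i => LinearMap.ext fun x => Subtype.ext (app (h.invol i) x)
      ee := fun i j => LinearMap.ext fun x => Subtype.ext (app (h.ee i j).eq x)
      eo := fun i j hij => LinearMap.ext fun x => Subtype.ext (app (h.eo i j hij).eq x)
      oo := fun i j hij => LinearMap.ext fun x => Subtype.ext (app (h.oo i j hij).eq x)
      se := fun i => LinearMap.ext fun x => Subtype.ext (app (h.se i) x)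
      so := fun i => LinearMap.ext fun x => Subtype.ext (app (h.so i) x)
      Be := fun i => LinearMap.ext fun x => Subtype.ext (app (h.Be i).eq x)
      Bo := fun i => LinearMap.ext fun x => Subtype.ext (app (h.Bo i).eq x)
      Bs := LinearMap.ext fun x => Subtype.ext (app h.Bs.eq x)
      BB := LinearMap.ext fun x => Subtype.ext (app h.BB x)
      central := fun i => LinearMap.ext fun x => Subtype.ext (app (h.central i) x) }
  have hsymm : ∀ i, (Z' i).IsSymmetric := fun i => (hZs i).restrict_invariant (iZ i)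
  have htop : ∀ i, ⨆ μ : ℂ, eigenspace (Z' i) μ = ⊤ := fun i =>
    Submodule.orthogonal_eq_bot_iff.mp (hsymm i).orthogonalComplement_iSup_eigenspaces_eq_bot
  obtain ⟨p, hp1, hp0⟩ := exists_poly Z' (s iz : ℂ)
  have hspec : ∀ i, IsSpec (Z' i) (s iz : ℂ) p := fun i => ⟨htop i, hp1, hp0 i⟩
  have hq1 : (q : ℂ) + 1 ≠ 0 := by
    have : (0 : ℝ) < q + 1 := by linarith
    exact_mod_cast this.ne'
  have hz : ((s iz : ℝ) : ℂ) ^ 2 ≠ ((q : ℂ) + 1) ^ 2 := by
    have : s iz ^ 2 ≠ (q + 1) ^ 2 := by nlinarith [sq_nonneg (q - 1)]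
    exact_mod_cast this
  have key := trace_ne_zero_of_iwOps h' hq1 hz p hspec (x := ⟨x0, memW.mpr hx⟩)
    (fun h0 => hx0 (congrArg Subtype.val h0)) (fun i => Subtype.ext (hxZ i))
    (fun i => Subtype.ext (hxe i)) (Subtype.ext hxB)
    (fun y h1 h2 h3 => Subtype.ext (huniq y (memW.mp y.2) (fun i => congrArg Subtype.val (h1 i))
      (fun i => congrArg Subtype.val (h2 i)) (congrArg Subtype.val h3)))
  have hBσ : ∀ x ∈ W, (B * σ) x ∈ W := fun x hx => iB _ (iσ x hx)
  have h6 : B' * σ' = ((B * σ : H →L[ℂ] H) : H →ₗ[ℂ] H).restrict hBσ := rfl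
  have memS : ∀ x : W, Z' 0 x = (s iz : ℂ) • x → (x : H) ∈ jointE TE s := by
    intro x hx
    refine mem_jointE.mpr fun i => ?_
    by_cases hi : i = iz
    · rw [hi, ← hZ0]
      exact congrArg Subtype.val hx
    · exact memW.mp x.2 i hi
  have memS' : ∀ x : W, (x : H) ∈ jointE TE s → Z' 0 x = (s iz : ℂ) • x := by
    intro x hx
    refine Subtype.ext ?_
    change Z 0 (x : H) = (s iz : ℂ) • (x : H)
    rw [hZ0]
    exact mem_jointE.mp hx iz
  rw [cTr_eq_trace_mul (B * σ) (jointE TE s) W hSW hBσ (Polynomial.aeval (Z' 0) p)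
    (fun x hx => (hspec 0).apply_of_eq (memS' x hx)) ?_, ← h6]
  · exact key
  · intro x hx
    -- `P x` is in `jointE` and orthogonal to it
    have h7 : ∀ y ∈ jointE TE s, ∀ x : W,
        ⟪y, ((Polynomial.aeval (Z' 0) p x : W) : H)⟫_ℂ = ⟪y, (x : H)⟫_ℂ := by
      intro y hy x
      refine (hspec 0).ind (P := fun x : W =>
        ⟪y, ((Polynomial.aeval (Z' 0) p x : W) : H)⟫_ℂ = ⟪y, (x : H)⟫_ℂ) ?_ ?_ ?_ x
      · rw [map_zero]
      · intro a b ha hb
        rw [map_add, Submodule.coe_add, Submodule.coe_add, inner_add_right, inner_add_right, ha, hb]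
      · intro μ a ha
        by_cases hμ : μ = (s iz : ℂ)
        · subst hμ
          rw [(hspec 0).apply_of_eq ha]
        · rw [(hspec 0).apply_of_ne ha hμ, Submodule.coe_zero, inner_zero_right]
          have h8 : TE iz y = (s iz : ℂ) • y := mem_jointE.mp hy iz
          have h9 : TE iz (a : H) = μ • (a : H) := by
            rw [← hZ0]
            exact congrArg Subtype.val ha
          have h10 := hT.inner iz y (a : H)
          rw [h8, h9, inner_smul_left, inner_smul_right, Complex.conj_ofReal] at h10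
          have h11 : ((s iz : ℂ) - μ) * ⟪y, (a : H)⟫_ℂ = 0 := by linear_combination h10
          exact ((mul_eq_zero.mp h11).resolve_left (sub_ne_zero.mpr (Ne.symm hμ))).symm
    have h12 : Z' 0 (Polynomial.aeval (Z' 0) p x) = (s iz : ℂ) • Polynomial.aeval (Z' 0) p x := by
      have := congrArg (fun A : Module.End ℂ W => A x) (hspec 0).mul
      exact this
    have h13 := memS _ h12
    have h14 := h7 _ h13 x
    rw [hx _ h13, inner_self_eq_zero] at h14
    exact Subtype.ext h14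

/-- symmetry of the central elements -/
theorem IwOps.isSymmetric {Z e ω : Fin 3 → H →L[ℂ] H} {B σ : H →L[ℂ] H} {q : ℝ}
    (h : IwOps Z e ω B σ (q : ℂ)) (he : ∀ i, ((e i : H →L[ℂ] H) : H →ₗ[ℂ] H).IsSymmetric)
    (hω : ∀ i, ((ω i : H →L[ℂ] H) : H →ₗ[ℂ] H).IsSymmetric) (i : Fin 3) :
    ((Z i : H →L[ℂ] H) : H →ₗ[ℂ] H).IsSymmetric := by
  intro x y
  change ⟪Z i x, y⟫_ℂ = ⟪x, Z i y⟫_ℂ
  have he' : ∀ x y : H, ⟪e i x, y⟫_ℂ = ⟪x, e i y⟫_ℂ := he i
  have ho' : ∀ x y : H, ⟪ω i x, y⟫_ℂ = ⟪x, ω i y⟫_ℂ := hω i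
  have hZ : ∀ x, Z i x = ((q : ℂ) + 1) • (e i (ω i x) + ω i (e i x) - ω i x) := fun x => by
    rw [h.Z_eq i]; rfl
  rw [hZ, hZ, inner_smul_left, inner_smul_right, inner_sub_left, inner_add_left, inner_sub_right,
    inner_add_right, he', ho', ho', he', ho', map_add, Complex.conj_ofReal, map_one]
  ring

end Hilb

end Fermat.Agent.LT.FA
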