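import Fermat.Agent.LT.FA.Aut

/-!
# Operators on the Hilbert space of automorphic functions given by correspondences
-/

set_option autoImplicit false
set_option linter.unusedSectionVars false
set_option linter.unusedVariables false

open scoped ENNReal NNReal InnerProductSpace
open MeasureTheory ProbabilityTheory

namespace Fermat.Agent.LT.FA

variable {G Y : Type*} [Group G] [MulAction G Y] [MeasurableSpace Y] [MeasurableConstSMul G Y]
  {μ : Measure Y} [SMulInvariantMeasure G Y μ] [Countable G] {w : Y → ℝ≥0}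

theorem memLp_two_iff {Y : Type*} [MeasurableSpace Y] {ν : Measure Y} {F : Y → ℂ}
    (hF : AEStronglyMeasurable F ν) : MemLp F 2 ν ↔ ∫⁻ y, ‖F y‖ₑ ^ 2 ∂ν ≠ ∞ := by
  rw [MemLp, and_iff_right hF, eLpNorm_lt_top_iff_lintegral_rpow_enorm_lt_top (by norm_num)
    (by norm_num), lt_top_iff_ne_top]
  norm_num

/-- bounded operators on the Hilbert space from operators on functions -/
structure FOp (G : Type*) {Y : Type*} [Group G] [MulAction G Y] [MeasurableSpace Y]
    (μ : Measure Y) (w : Y → ℝ≥0) (T : (Y → ℂ) → Y → ℂ) : Prop where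
  meas : ∀ F : Y → ℂ, Measurable F → Measurable (T F)
  inv : ∀ F : Y → ℂ, Measurable F → (∀ (g : G) y, F (g • y) = F y) →
    ∀ (g : G) y, T F (g • y) = T F y
  bdd : ∃ C : ℝ≥0, ∀ F : Y → ℂ, Measurable F → (∀ (g : G) y, F (g • y) = F y) →
    MemLp F 2 (wtM μ w) → ∫⁻ y, ‖T F y‖ₑ ^ 2 ∂(wtM μ w) ≤ C ^ 2 * ∫⁻ y, ‖F y‖ₑ ^ 2 ∂(wtM μ w)
  add : ∀ F F' : Y → ℂ, Measurable F → Measurable F' → (∀ (g : G) y, F (g • y) = F y) →
    (∀ (g : G) y, F' (g • y) = F' y) → MemLp F 2 (wtM μ w) → MemLp F' 2 (wtM μ w) →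
    ∀ᵐ y ∂μ, T (fun z => F z + F' z) y = T F y + T F' y
  smul : ∀ (c : ℂ) (F : Y → ℂ), Measurable F → (∀ (g : G) y, F (g • y) = F y) →
    MemLp F 2 (wtM μ w) → ∀ᵐ y ∂μ, T (fun z => c * F z) y = c * T F y
  congr : ∀ F F' : Y → ℂ, (∀ᵐ y ∂μ, F y = F' y) → ∀ᵐ y ∂μ, T F y = T F' y

namespace FOp

variable {T : (Y → ℂ) → Y → ℂ}

theorem memLp (hT : FOp G μ w T) {F : Y → ℂ} (hm : Measurable F)
    (hi : ∀ (g : G) y, F (g • y) = F y) (hF : MemLp F 2 (wtM μ w)) : MemLp (T F) 2 (wtM μ w) := by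
  obtain ⟨C, hC⟩ := hT.bdd
  have h1 := hC F hm hi hF
  rw [memLp_two_iff (hT.meas F hm).aestronglyMeasurable]
  refine (lt_of_le_of_lt h1 (ENNReal.mul_lt_top (by simp) ?_)).ne
  exact ((memLp_two_iff hm.aestronglyMeasurable).mp hF).lt_top

/-- the function -/
noncomputable def opFun (hw : IsWt G μ w) (hT : FOp G μ w T) (f : HA G μ) : HA G μ :=
  HA.mk hw (T (afn f)) (hT.meas _ (HA.stronglyMeasurable_fn f).measurable)
    (hT.inv _ (HA.stronglyMeasurable_fn f).measurable (HA.afn_smul f))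
    (hT.memLp (HA.stronglyMeasurable_fn f).measurable (HA.afn_smul f) (HA.memLp_fn hw f))

theorem opFun_ae (hw : IsWt G μ w) (hT : FOp G μ w T) (f : HA G μ) :
    ∀ᵐ y ∂μ, afn (opFun hw hT f) y = T (afn f) y := HA.afn_mk hw _ _ _

/-- the operator -/
noncomputable def op (hw : IsWt G μ w) (hT : FOp G μ w T) : HA G μ →L[ℂ] HA G μ :=
  LinearMap.mkContinuous
    { toFun := opFun hw hT
      map_add' := fun f h => by
        refine HA.ext_ae hw ?_
        have h1 := opFun_ae hw hT (f + h)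
        have h2 := hT.congr _ _ (HA.afn_add hw f h)
        have h3 := hT.add (afn f) (afn h) (HA.stronglyMeasurable_fn f).measurable
          (HA.stronglyMeasurable_fn h).measurable (HA.afn_smul f) (HA.afn_smul h)
          (HA.memLp_fn hw f) (HA.memLp_fn hw h)
        filter_upwards [h1, h2, h3, HA.afn_add hw (opFun hw hT f) (opFun hw hT h),
          opFun_ae hw hT f, opFun_ae hw hT h] with y e1 e2 e3 e4 e5 e6
        rw [e1, e2, e3, e4, e5, e6]
      map_smul' := fun c f => by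
        refine HA.ext_ae hw ?_
        have h1 := opFun_ae hw hT (c • f)
        have h2 := hT.congr _ _ (HA.afn_smulc hw c f)
        have h3 := hT.smul c (afn f) (HA.stronglyMeasurable_fn f).measurable
          (HA.afn_smul f) (HA.memLp_fn hw f)
        filter_upwards [h1, h2, h3, HA.afn_smulc hw c (opFun hw hT f), opFun_ae hw hT f]
          with y e1 e2 e3 e4 e5
        rw [e1, e2, e3, RingHom.id_apply, e4, e5] }
    hT.bdd.choose (fun f => by
      have h1 := hT.bdd.choose_spec (afn f) (HA.stronglyMeasurable_fn f).measurable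
        (HA.afn_smul f) (HA.memLp_fn hw f)
      have h2 : ‖opFun hw hT f‖ₑ ^ 2 ≤ (hT.bdd.choose * ‖f‖ₑ) ^ 2 := by
        rw [HA.enorm_sq hw, mul_pow, HA.enorm_sq hw f]
        refine le_trans (le_of_eq ?_) h1
        refine lintegral_congr_ae (wtM_ac.ae_le ?_)
        filter_upwards [opFun_ae hw hT f] with y hy
        rw [hy]
      have h3 : ‖opFun hw hT f‖ₑ ≤ hT.bdd.choose * ‖f‖ₑ := by
        by_contra hcon
        push Not at hcon
        exact absurd h2 (not_le.mpr (ENNReal.pow_lt_pow_left (by norm_num) hcon))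
      have h4 := ENNReal.toReal_mono (ENNReal.mul_ne_top (by simp) (by simp)) h3
      rw [ENNReal.toReal_mul, toReal_enorm, toReal_enorm] at h4
      simpa using h4)

theorem op_ae (hw : IsWt G μ w) (hT : FOp G μ w T) (f : HA G μ) :
    ∀ᵐ y ∂μ, afn (op hw hT f) y = T (afn f) y := opFun_ae hw hT f

theorem op_eq_iff (hw : IsWt G μ w) (hT : FOp G μ w T) (A : HA G μ →L[ℂ] HA G μ) :
    A = op hw hT ↔ ∀ f, ∀ᵐ y ∂μ, afn (A f) y = T (afn f) y := by
  constructor
  · rintro rfl
    exact op_ae hw hT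
  · intro h
    ext1 f
    refine HA.ext_ae hw ?_
    filter_upwards [h f, op_ae hw hT f] with y h1 h2
    rw [h1, h2]

end FOp

instance instMeasurableConstSMulProd {G Y Y' : Type*} [Group G] [MulAction G Y] [MulAction G Y']
    [MeasurableSpace Y] [MeasurableSpace Y'] [MeasurableConstSMul G Y] [MeasurableConstSMul G Y'] :
    MeasurableConstSMul G (Y × Y') where
  measurable_const_smul g := ((measurable_const_smul g).comp measurable_fst).prodMk
    ((measurable_const_smul g).comp measurable_snd)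

/-- correspondences -/
structure Cor (G : Type*) {Y : Type*} [Group G] [MulAction G Y] [MeasurableSpace Y]
    (μ : Measure Y) where
  ker : Kernel Y Y
  dual : Kernel Y Y
  fin : IsFiniteKernel ker
  fin' : IsFiniteKernel dual
  lint : ∀ h : Y × Y → ℝ≥0∞, Measurable h →
    ∫⁻ x, ∫⁻ y, h (x, y) ∂(ker x) ∂μ = ∫⁻ y, ∫⁻ x, h (x, y) ∂(dual y) ∂μ
  equiv : ∀ (g : G) (x : Y), ker (g • x) = (ker x).map (g • ·)
  equiv' : ∀ (g : G) (x : Y), dual (g • x) = (dual x).map (g • ·)
  a : Y → Y → ℂ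
  a_meas : Measurable (Function.uncurry a)
  a_le : ∀ x y, ‖a x y‖ ≤ 1
  a_inv : ∀ (g : G) x y, a (g • x) (g • y) = a x y

attribute [instance] Cor.fin Cor.fin'

namespace Cor

/-- the operator on functions -/
noncomputable def app (T : Cor G μ) (F : Y → ℂ) (x : Y) : ℂ := ∫ y, T.a x y * F y ∂(T.ker x)

theorem measurable_app (T : Cor G μ) {F : Y → ℂ} (hF : Measurable F) : Measurable (T.app F) := by
  have h1 : Measurable (fun p : Y × Y => T.a p.1 p.2 * F p.2) :=
    T.a_meas.mul (hF.comp measurable_snd)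
  exact (h1.stronglyMeasurable.integral_kernel_prod_right' (κ := T.ker)).measurable

theorem app_inv (T : Cor G μ) {F : Y → ℂ} (hi : ∀ (g : G) y, F (g • y) = F y) (g : G) (x : Y) :
    T.app F (g • x) = T.app F x := by
  rw [app, T.equiv, (measurableEmbedding_const_smul g).integral_map]
  simp_rw [T.a_inv, hi]
  rfl

theorem ae_ker (T : Cor G μ) {p : Y → Prop} (hp : ∀ᵐ y ∂μ, p y) :
    ∀ᵐ x ∂μ, ∀ᵐ y ∂(T.ker x), p y := by
  obtain ⟨N, hN, hNm, hN0⟩ := exists_measurable_superset_of_null (ae_iff.mp hp)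
  have h1 := T.lint (fun q => N.indicator 1 q.2)
    ((measurable_one.indicator hNm).comp measurable_snd)
  simp only at h1
  have h2 : ∀ y, ∫⁻ x, N.indicator (1 : Y → ℝ≥0∞) y ∂(T.dual y) =
      N.indicator (fun y => T.dual y Set.univ) y := by
    intro y
    rw [lintegral_const]
    by_cases h : y ∈ N <;> simp [h]
  simp_rw [h2, lintegral_indicator_one hNm] at h1
  rw [lintegral_indicator hNm, Measure.restrict_eq_zero.mpr hN0, lintegral_zero_measure,
    lintegral_eq_zero_iff (Kernel.measurable_coe _ hNm)] at h1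
  filter_upwards [h1] with x hx
  refine ae_iff.mpr (measure_mono_null hN hx)

theorem app_congr (T : Cor G μ) {F F' : Y → ℂ} (h : ∀ᵐ y ∂μ, F y = F' y) :
    ∀ᵐ x ∂μ, T.app F x = T.app F' x := by
  filter_upwards [T.ae_ker h] with x hx
  refine integral_congr_ae ?_
  filter_upwards [hx] with y hy
  rw [hy]

theorem sq_lintegral_le {ν : Measure Y} {F : Y → ℝ≥0∞} (hF : AEMeasurable F ν) :
    (∫⁻ y, F y ∂ν) ^ 2 ≤ ν Set.univ * ∫⁻ y, F y ^ 2 ∂ν := by
  have h1 := ENNReal.lintegral_mul_le_Lp_mul_Lq ν (p := 2) (q := 2) Real.HolderConjugate.two_two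
    (f := F) (g := fun _ => 1) hF aemeasurable_const
  have h2 := pow_le_pow_left₀ zero_le h1 2
  rw [mul_pow, ← ENNReal.rpow_natCast, ← ENNReal.rpow_natCast, ← ENNReal.rpow_mul,
    ← ENNReal.rpow_natCast, ← ENNReal.rpow_mul] at h2
  norm_num at h2
  rw [mul_comm]
  simpa using h2

/-- the two weights on the product -/
theorem lintegral_switch (T : Cor G μ) [SFinite μ] (hw : IsWt G μ w) {h : Y × Y → ℝ≥0∞}
    (hm : Measurable h) (hi : ∀ (g : G) x y, h (g • x, g • y) = h (x, y)) :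
    ∫⁻ x, ∫⁻ y, w x * h (x, y) ∂(T.ker x) ∂μ = ∫⁻ x, ∫⁻ y, w y * h (x, y) ∂(T.ker x) ∂μ := by
  have hinv : SMulInvariantMeasure G (Y × Y) (μ ⊗ₘ T.ker) := ⟨fun g s hs => by
    have hs' : MeasurableSet ((fun p : Y × Y => g • p) ⁻¹' s) := measurable_const_smul g hs
    have e1 : ∀ t : Set (Y × Y), MeasurableSet t →
        (μ ⊗ₘ T.ker) t = ∫⁻ x, T.ker x (Prod.mk x ⁻¹' t) ∂μ := fun t ht =>
      Measure.compProd_apply ht
    rw [e1 _ hs', e1 _ hs, ← lintegral_smul' (μ := μ) g (fun x => T.ker x (Prod.mk x ⁻¹' s))]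
    refine lintegral_congr fun x => ?_
    rw [T.equiv, Measure.map_apply (measurable_const_smul g) (measurable_prodMk_left hs)]
    rfl⟩
  have hw1 : IsWt G (μ ⊗ₘ T.ker) (fun p => w p.1) := by
    refine hw.comap measurable_fst ?_ (Equiv.refl G) ?_
    · intro s hs h0
      rw [Measure.compProd_apply (measurable_fst hs)]
      rw [lintegral_eq_zero_iff (Kernel.measurable_kernel_prodMk_left (measurable_fst hs))]
      have : ∀ᵐ x ∂μ, x ∉ s := by rw [ae_iff]; simpa using h0
      filter_upwards [this] with x hx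
      have h5 : (Prod.mk x ⁻¹' (Prod.fst ⁻¹' s) : Set Y) = ∅ := by
        ext z; simp [hx]
      rw [h5]; simp
    · exact fun t => Filter.Eventually.of_forall fun y => rfl
  have hw2 : IsWt G (μ ⊗ₘ T.ker) (fun p => w p.2) := by
    refine hw.comap measurable_snd ?_ (Equiv.refl G) ?_
    · intro s hs h0
      rw [Measure.compProd_apply (measurable_snd hs)]
      rw [lintegral_eq_zero_iff (Kernel.measurable_kernel_prodMk_left (measurable_snd hs))]
      have : ∀ᵐ x ∂μ, x ∉ s := by rw [ae_iff]; simpa using h0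
      filter_upwards [T.ae_ker this] with x hx
      rw [ae_iff] at hx
      have h5 : (Prod.mk x ⁻¹' (Prod.snd ⁻¹' s) : Set Y) = s := rfl
      rw [h5]
      simpa using hx
    · exact fun t => Filter.Eventually.of_forall fun y => rfl
  have h3 := hw1.lintegral_eq hw2 (F := h) hm.aemeasurable
    (fun g => Filter.Eventually.of_forall fun p => hi g p.1 p.2)
  rw [lintegral_wtM hw1.meas hm.aemeasurable, lintegral_wtM hw2.meas hm.aemeasurable,
    Measure.lintegral_compProd, Measure.lintegral_compProd] at h3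
  · exact h3
  · exact hw2.meas.coe_nnreal_ennreal.mul hm
  · exact hw1.meas.coe_nnreal_ennreal.mul hm

theorem lintegral_const_ker (T : Cor G μ) (x : Y) (c : ℝ≥0∞) :
    ∫⁻ y, c ∂(T.ker x) ≤ c * T.ker.bound := by
  rw [lintegral_const]
  exact mul_le_mul_right (T.ker.measure_le_bound x _) c

theorem lintegral_const_dual (T : Cor G μ) (x : Y) (c : ℝ≥0∞) :
    ∫⁻ y, c ∂(T.dual x) ≤ c * T.dual.bound := by
  rw [lintegral_const]
  exact mul_le_mul_right (T.dual.measure_le_bound x _) c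

theorem lintegral_sq_le (T : Cor G μ) [SFinite μ] (hw : IsWt G μ w) {F : Y → ℝ≥0∞}
    (hm : Measurable F) (hi : ∀ (g : G) y, F (g • y) = F y) :
    ∫⁻ x, ∫⁻ y, F y ∂(T.ker x) ∂(wtM μ w) ≤ T.dual.bound * ∫⁻ y, F y ∂(wtM μ w) := by
  have hm2 : Measurable (fun p : Y × Y => F p.2) := hm.comp measurable_snd
  have hm3 : Measurable (fun p : Y × Y => (w p.2 : ℝ≥0∞) * F p.2) :=
    (hw.meas.coe_nnreal_ennreal.comp measurable_snd).mul hm2
  have hm4 : Measurable (fun x => ∫⁻ y, F y ∂(T.ker x)) := hm.lintegral_kernel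
  rw [lintegral_wtM hw.meas hm4.aemeasurable]
  have h1 : ∀ x, (w x : ℝ≥0∞) * ∫⁻ y, F y ∂(T.ker x) = ∫⁻ y, w x * F y ∂(T.ker x) := fun x => by
    rw [lintegral_const_mul _ hm]
  simp_rw [h1]
  rw [T.lintegral_switch hw (h := fun p => F p.2) hm2 (fun g x y => hi g y),
    T.lint _ hm3, lintegral_wtM hw.meas hm.aemeasurable, ← lintegral_const_mul' _ _
      (Kernel.bound_lt_top _).ne]
  refine lintegral_mono fun y => ?_
  change ∫⁻ (x : Y), ((w y : ℝ≥0∞) * F y) ∂T.dual y ≤ _
  refine (T.lintegral_const_dual y _).trans (le_of_eq ?_)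
  ring

theorem enorm_app_le (T : Cor G μ) (F : Y → ℂ) (x : Y) :
    ‖T.app F x‖ₑ ≤ ∫⁻ y, ‖F y‖ₑ ∂(T.ker x) := by
  refine (enorm_integral_le_lintegral_enorm _).trans (lintegral_mono fun y => ?_)
  rw [enorm_mul]
  refine mul_le_of_le_one_left' ?_
  rw [← ofReal_norm]
  exact ENNReal.ofReal_le_one.mpr (T.a_le x y)

theorem lintegral_app_le (T : Cor G μ) [SFinite μ] (hw : IsWt G μ w) {F : Y → ℂ}
    (hm : Measurable F) (hi : ∀ (g : G) y, F (g • y) = F y) :
    ∫⁻ x, ‖T.app F x‖ₑ ^ 2 ∂(wtM μ w) ≤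
      T.ker.bound * T.dual.bound * ∫⁻ y, ‖F y‖ₑ ^ 2 ∂(wtM μ w) := by
  have h1 : ∀ x, ‖T.app F x‖ₑ ^ 2 ≤ T.ker.bound * ∫⁻ y, ‖F y‖ₑ ^ 2 ∂(T.ker x) := by
    intro x
    refine (pow_le_pow_left₀ zero_le (T.enorm_app_le F x) 2).trans ?_
    refine (sq_lintegral_le hm.enorm.aemeasurable).trans ?_
    exact mul_le_mul_left (T.ker.measure_le_bound x _) _
  refine (lintegral_mono h1).trans ?_
  rw [lintegral_const_mul' _ _ (Kernel.bound_lt_top _).ne, mul_assoc]
  refine mul_le_mul_right ?_ _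
  exact T.lintegral_sq_le hw (hm.enorm.pow_const 2) (fun g y => by rw [hi])

theorem ae_lintegral_lt_top (T : Cor G μ) [SFinite μ] (hw : IsWt G μ w) {F : Y → ℝ≥0∞}
    (hm : Measurable F) (hi : ∀ (g : G) y, F (g • y) = F y) (hF : ∫⁻ y, F y ∂(wtM μ w) ≠ ∞) :
    ∀ᵐ x ∂μ, ∫⁻ y, F y ∂(T.ker x) < ∞ := by
  have h1 := T.lintegral_sq_le hw hm hi
  have h2 : ∫⁻ x, ∫⁻ y, F y ∂(T.ker x) ∂(wtM μ w) ≠ ∞ :=
    (lt_of_le_of_lt h1 (ENNReal.mul_lt_top (Kernel.bound_lt_top _) hF.lt_top)).ne
  refine hw.ae_of_inv (ae_lt_top hm.lintegral_kernel h2) ?_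
  refine Filter.Eventually.of_forall fun x g hx => ?_
  rw [T.equiv, (measurableEmbedding_const_smul g).lintegral_map] at hx
  simpa [hi] using hx

theorem integrable_app (T : Cor G μ) [SFinite μ] (hw : IsWt G μ w) {F : Y → ℂ}
    (hm : Measurable F) (hi : ∀ (g : G) y, F (g • y) = F y) (hF : MemLp F 2 (wtM μ w)) :
    ∀ᵐ x ∂μ, Integrable (fun y => T.a x y * F y) (T.ker x) := by
  have h0 := (memLp_two_iff hm.aestronglyMeasurable).mp hF
  have h1 := T.ae_lintegral_lt_top hw (F := fun y => ‖F y‖ₑ ^ 2) (hm.enorm.pow_const 2)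
    (fun g y => by simp only [hi]) h0
  filter_upwards [h1] with x hx
  have h2 : MemLp F 2 (T.ker x) := (memLp_two_iff hm.aestronglyMeasurable).mpr hx.ne
  have h3 : Integrable F (T.ker x) := h2.integrable (by norm_num)
  refine h3.bdd_mul (c := 1) ?_ ?_
  · exact (T.a_meas.comp (measurable_const.prodMk measurable_id)).aestronglyMeasurable
  · exact Filter.Eventually.of_forall fun y => T.a_le x y

/-- correspondences give bounded operators -/
theorem fop (T : Cor G μ) [SFinite μ] (hw : IsWt G μ w) : FOp G μ w T.app where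
  meas F hF := T.measurable_app hF
  inv F _ hi := T.app_inv hi
  bdd := by
    refine ⟨(T.ker.bound + T.dual.bound).toNNReal, fun F hm hi hF => ?_⟩
    refine (T.lintegral_app_le hw hm hi).trans (mul_le_mul_left ?_ _)
    rw [ENNReal.coe_toNNReal (ENNReal.add_ne_top.mpr ⟨(Kernel.bound_lt_top _).ne,
      (Kernel.bound_lt_top _).ne⟩), sq]
    exact mul_le_mul' le_self_add le_add_self
  add F F' hm hm' hi hi' hF hF' := by
    filter_upwards [T.integrable_app hw hm hi hF, T.integrable_app hw hm' hi' hF'] with x h1 h2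
    rw [app, app, app, ← integral_add h1 h2]
    refine integral_congr_ae (Filter.Eventually.of_forall fun y => ?_)
    simp only [mul_add]
  smul c F hm hi hF := by
    refine Filter.Eventually.of_forall fun x => ?_
    rw [app, app, ← integral_const_mul]
    refine integral_congr_ae (Filter.Eventually.of_forall fun y => ?_)
    ring
  congr F F' h := T.app_congr h

/-- the operator of a correspondence -/
noncomputable def op (T : Cor G μ) [SFinite μ] (hw : IsWt G μ w) : HA G μ →L[ℂ] HA G μ :=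
  FOp.op hw (T.fop hw)

theorem op_ae (T : Cor G μ) [SFinite μ] (hw : IsWt G μ w) (f : HA G μ) :
    ∀ᵐ y ∂μ, afn (T.op hw f) y = T.app (afn f) y := FOp.op_ae hw _ f

/-- the adjoint correspondence -/
noncomputable def adj (T : Cor G μ) : Cor G μ where
  ker := T.dual
  dual := T.ker
  fin := T.fin'
  fin' := T.fin
  lint h hh := by
    have := T.lint (fun p => h p.swap) (hh.comp measurable_swap)
    exact this.symm
  equiv := T.equiv'
  equiv' := T.equiv
  a x y := (starRingEnd ℂ) (T.a y x)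
  a_meas := (Complex.continuous_conj.measurable).comp (T.a_meas.comp measurable_swap)
  a_le x y := by rw [RCLike.norm_conj]; exact T.a_le y x
  a_inv g x y := by rw [T.a_inv]

theorem compProd_eq (T : Cor G μ) [SFinite μ] :
    μ ⊗ₘ T.ker = (μ ⊗ₘ T.dual).map Prod.swap := by
  refine Measure.ext_of_lintegral _ fun h hh => ?_
  rw [lintegral_map hh measurable_swap, Measure.lintegral_compProd hh,
    Measure.lintegral_compProd (f := fun p => h p.swap) (hh.comp measurable_swap), T.lint h hh]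
  rfl

theorem smulInvariant_compProd (T : Cor G μ) [SFinite μ] :
    SMulInvariantMeasure G (Y × Y) (μ ⊗ₘ T.ker) := ⟨fun g s hs => by
  have hs' : MeasurableSet ((fun p : Y × Y => g • p) ⁻¹' s) := measurable_const_smul g hs
  have e1 : ∀ t : Set (Y × Y), MeasurableSet t →
      (μ ⊗ₘ T.ker) t = ∫⁻ x, T.ker x (Prod.mk x ⁻¹' t) ∂μ := fun t ht =>
    Measure.compProd_apply ht
  rw [e1 _ hs', e1 _ hs, ← lintegral_smul' (μ := μ) g (fun x => T.ker x (Prod.mk x ⁻¹' s))]
  refine lintegral_congr fun x => ?_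
  rw [T.equiv, Measure.map_apply (measurable_const_smul g) (measurable_prodMk_left hs)]
  rfl⟩

theorem isWt_fst (T : Cor G μ) [SFinite μ] (hw : IsWt G μ w) :
    IsWt G (μ ⊗ₘ T.ker) (fun p => w p.1) := by
  refine hw.comap measurable_fst ?_ (Equiv.refl G) ?_
  · intro s hs h0
    rw [Measure.compProd_apply (measurable_fst hs)]
    rw [lintegral_eq_zero_iff (Kernel.measurable_kernel_prodMk_left (measurable_fst hs))]
    have : ∀ᵐ x ∂μ, x ∉ s := by rw [ae_iff]; simpa using h0
    filter_upwards [this] with x hx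
    have h5 : (Prod.mk x ⁻¹' (Prod.fst ⁻¹' s) : Set Y) = ∅ := by
      ext z; simp [hx]
    rw [h5]; simp
  · exact fun t => Filter.Eventually.of_forall fun y => rfl

theorem isWt_snd (T : Cor G μ) [SFinite μ] (hw : IsWt G μ w) :
    IsWt G (μ ⊗ₘ T.ker) (fun p => w p.2) := by
  refine hw.comap measurable_snd ?_ (Equiv.refl G) ?_
  · intro s hs h0
    rw [Measure.compProd_apply (measurable_snd hs)]
    rw [lintegral_eq_zero_iff (Kernel.measurable_kernel_prodMk_left (measurable_snd hs))]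
    have : ∀ᵐ x ∂μ, x ∉ s := by rw [ae_iff]; simpa using h0
    filter_upwards [T.ae_ker this] with x hx
    rw [ae_iff] at hx
    have h5 : (Prod.mk x ⁻¹' (Prod.snd ⁻¹' s) : Set Y) = s := rfl
    rw [h5]
    simpa using hx
  · exact fun t => Filter.Eventually.of_forall fun y => rfl

/-- the invariant integral over pairs, computed in two ways -/
theorem integral_switch (T : Cor G μ) [SFinite μ] (hw : IsWt G μ w) {Φ : Y × Y → ℂ}
    (hm : Measurable Φ) (hi : ∀ (g : G) x y, Φ (g • x, g • y) = Φ (x, y))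
    (hfin : ∫⁻ x, ∫⁻ y, ‖Φ (x, y)‖ₑ ∂(T.ker x) ∂(wtM μ w) ≠ ∞) :
    ∫ x, ∫ y, Φ (x, y) ∂(T.ker x) ∂(wtM μ w) = ∫ y, ∫ x, Φ (x, y) ∂(T.dual y) ∂(wtM μ w) := by
  have hinv := T.smulInvariant_compProd
  have hw1 := T.isWt_fst hw
  have hw2 := T.isWt_snd hw
  have h3 := hw1.integral_eq hw2 (F := Φ) hm.aestronglyMeasurable
    (fun g => Filter.Eventually.of_forall fun p => hi g p.1 p.2)
  have hint : Integrable Φ (wtM (μ ⊗ₘ T.ker) (fun p => w p.1)) := by
    refine ⟨hm.aestronglyMeasurable, ?_⟩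
    rw [HasFiniteIntegral, lintegral_wtM hw1.meas hm.enorm.aemeasurable, Measure.lintegral_compProd
      (f := fun p : Y × Y => (w p.1 : ℝ≥0∞) * ‖Φ p‖ₑ) (hw1.meas.coe_nnreal_ennreal.mul hm.enorm)]
    refine lt_of_le_of_lt (le_of_eq ?_) hfin.lt_top
    rw [lintegral_wtM hw.meas (Measurable.aemeasurable (by
      exact hm.enorm.lintegral_kernel_prod_right'))]
    refine lintegral_congr fun x => ?_
    have hx : Measurable (fun y => ‖Φ (x, y)‖ₑ) :=
      hm.enorm.comp (measurable_const.prodMk measurable_id)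
    exact lintegral_const_mul (w x : ℝ≥0∞) hx
  have hint2 : Integrable Φ (wtM (μ ⊗ₘ T.ker) (fun p => w p.2)) :=
    (hw1.integrable_iff hw2 hm.aestronglyMeasurable
      (fun g => Filter.Eventually.of_forall fun p => hi g p.1 p.2)).mp hint
  rw [integral_wtM hw1.meas, integral_wtM hw2.meas,
    Measure.integral_compProd ((integrable_wtM hw1.meas).mp hint)] at h3
  have hint3 := (integrable_wtM hw2.meas).mp hint2
  rw [T.compProd_eq] at h3 hint3
  have hmm : AEStronglyMeasurable (fun p : Y × Y => w p.2 • Φ p) ((μ ⊗ₘ T.dual).map Prod.swap) :=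
    hint3.1
  rw [integral_map measurable_swap.aemeasurable hmm] at h3
  have hint4 := (integrable_map_measure hmm measurable_swap.aemeasurable).mp hint3
  rw [Measure.integral_compProd (by exact hint4)] at h3
  rw [integral_wtM hw.meas, integral_wtM hw.meas]
  have e1 : ∀ x, ∫ y, w x • Φ (x, y) ∂(T.ker x) = w x • ∫ y, Φ (x, y) ∂(T.ker x) := fun x => by
    simp_rw [NNReal.smul_def]
    exact integral_smul ((w x : ℝ≥0) : ℝ) _
  have e2 : ∀ y, ∫ x, w y • Φ (x, y) ∂(T.dual y) = w y • ∫ x, Φ (x, y) ∂(T.dual y) := fun x => by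
    simp_rw [NNReal.smul_def]
    exact integral_smul ((w x : ℝ≥0) : ℝ) _
  simp only [Prod.swap_prod_mk] at h3
  simp_rw [e1, e2] at h3
  exact h3

/-- the adjoint -/
theorem op_adj (T : Cor G μ) [SFinite μ] (hw : IsWt G μ w) :
    ContinuousLinearMap.adjoint (T.op hw) = T.adj.op hw := by
  symm
  rw [ContinuousLinearMap.eq_adjoint_iff]
  intro f h
  rw [HA.inner_eq hw, HA.inner_eq hw]
  set F := afn f with hF
  set H := afn h with hH
  have hFm : Measurable F := (HA.stronglyMeasurable_fn f).measurable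
  have hHm : Measurable H := (HA.stronglyMeasurable_fn h).measurable
  have hFi : ∀ (g : G) y, F (g • y) = F y := HA.afn_smul f
  have hHi : ∀ (g : G) y, H (g • y) = H y := HA.afn_smul h
  have hFL := HA.memLp_fn hw f
  have hHL := HA.memLp_fn hw h
  set Φ : Y × Y → ℂ := fun p => (starRingEnd ℂ) (F p.1) * (T.a p.1 p.2 * H p.2) with hΦ
  have hΦm : Measurable Φ := (Complex.continuous_conj.measurable.comp
    (hFm.comp measurable_fst)).mul (T.a_meas.mul (hHm.comp measurable_snd))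
  have hΦi : ∀ (g : G) x y, Φ (g • x, g • y) = Φ (x, y) := by
    intro g x y
    simp only [hΦ, hFi, hHi, T.a_inv]
  have hfin : ∫⁻ x, ∫⁻ y, ‖Φ (x, y)‖ₑ ∂(T.ker x) ∂(wtM μ w) ≠ ∞ := by
    have b1 : ∀ x y, ‖Φ (x, y)‖ₑ ≤ ‖F x‖ₑ ^ 2 + ‖H y‖ₑ ^ 2 := by
      intro x y
      have c1 : ‖Φ (x, y)‖ ≤ ‖F x‖ ^ 2 + ‖H y‖ ^ 2 := by
        have c2 : ‖Φ (x, y)‖ ≤ ‖F x‖ * ‖H y‖ := by
          rw [hΦ]
          simp only [norm_mul, RCLike.norm_conj]
          have := T.a_le x y
          have h5 := mul_le_mul_of_nonneg_right this (norm_nonneg (H y))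
          rw [one_mul] at h5
          exact mul_le_mul_of_nonneg_left h5 (norm_nonneg (F x))
        nlinarith [sq_nonneg (‖F x‖ - ‖H y‖), sq_nonneg ‖F x‖, sq_nonneg ‖H y‖]
      have c3 := ENNReal.ofReal_le_ofReal c1
      rw [ofReal_norm, ENNReal.ofReal_add (by positivity) (by positivity),
        ENNReal.ofReal_pow (norm_nonneg _), ENNReal.ofReal_pow (norm_nonneg _), ofReal_norm,
        ofReal_norm] at c3
      exact c3
    have b2 : ∫⁻ x, ∫⁻ y, ‖Φ (x, y)‖ₑ ∂(T.ker x) ∂(wtM μ w) ≤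
        ∫⁻ x, (‖F x‖ₑ ^ 2 * T.ker.bound + ∫⁻ y, ‖H y‖ₑ ^ 2 ∂(T.ker x)) ∂(wtM μ w) := by
      refine lintegral_mono fun x => ?_
      refine (lintegral_mono (b1 x)).trans ?_
      rw [lintegral_add_left measurable_const]
      gcongr
      exact T.lintegral_const_ker x _
    refine (lt_of_le_of_lt b2 ?_).ne
    rw [lintegral_add_left ((hFm.enorm.pow_const 2).mul_const _),
      lintegral_mul_const' _ _ (Kernel.bound_lt_top _).ne]
    refine ENNReal.add_lt_top.mpr ⟨ENNReal.mul_lt_top ?_ (Kernel.bound_lt_top _), ?_⟩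
    · exact ((memLp_two_iff hFm.aestronglyMeasurable).mp hFL).lt_top
    · refine lt_of_le_of_lt (T.lintegral_sq_le hw (hHm.enorm.pow_const 2)
        (fun g y => by rw [hHi])) ?_
      exact ENNReal.mul_lt_top (Kernel.bound_lt_top _)
        ((memLp_two_iff hHm.aestronglyMeasurable).mp hHL).lt_top
  have key := T.integral_switch hw hΦm hΦi hfin
  have l1 : ∫ x, (starRingEnd ℂ) (F x) * afn (T.op hw h) x ∂(wtM μ w) =
      ∫ x, ∫ y, Φ (x, y) ∂(T.ker x) ∂(wtM μ w) := by
    refine integral_congr_ae (wtM_ac.ae_le ?_)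
    filter_upwards [T.op_ae hw h] with x hx
    rw [hx, app, ← integral_const_mul]
  have l2 : ∫ x, (starRingEnd ℂ) (afn (T.adj.op hw f) x) * H x ∂(wtM μ w) =
      ∫ y, ∫ x, Φ (x, y) ∂(T.dual y) ∂(wtM μ w) := by
    refine integral_congr_ae (wtM_ac.ae_le ?_)
    filter_upwards [T.adj.op_ae hw f] with y hy
    rw [hy, app, ← integral_conj, ← integral_mul_const]
    refine integral_congr_ae (Filter.Eventually.of_forall fun x => ?_)
    simp only [adj, map_mul, Complex.conj_conj, hΦ]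
    ring
  rw [l1, l2, key]

end Cor

end Fermat.Agent.LT.FA
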