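import Fermat.Agent.LT.FA.Kernel
import Fermat.Agent.LT.FA.Cor

/-!
# Automorphic kernels: Hilbert–Schmidt operators and the trace formula
-/

set_option autoImplicit false
set_option linter.unusedSectionVars false
set_option linter.unusedVariables false

open scoped ENNReal NNReal InnerProductSpace
open MeasureTheory ProbabilityTheory

namespace Fermat.Agent.LT.FA

section intertwine

variable {H L : Type*} [NormedAddCommGroup H] [InnerProductSpace ℂ H] [CompleteSpace H]
  [NormedAddCommGroup L] [InnerProductSpace ℂ L] [CompleteSpace L]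

/-- extension of orthonormal families to Hilbert bases -/
theorem exists_extension {J : Type*} {v : J → L} (hv : Orthonormal ℂ v) :
    ∃ (W : Set L) (c : HilbertBasis W ℂ L) (e : J → W), Function.Injective e ∧
      (∀ j, c (e j) = v j) ∧ ∀ k, k ∉ Set.range e → ∀ j, ⟪v j, c k⟫_ℂ = 0 := by
  obtain ⟨W, c, hW, hc⟩ := hv.toSubtypeRange.exists_hilbertBasis_extension
  refine ⟨W, c, fun j => ⟨v j, hW ⟨j, rfl⟩⟩, ?_, ?_, ?_⟩
  · intro i j h
    exact hv.linearIndependent.injective (Subtype.ext_iff.mp h)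
  · intro j; rw [hc]
  · intro k hk j
    have h1 : v j = c ⟨v j, hW ⟨j, rfl⟩⟩ := by rw [hc]
    rw [h1]
    refine c.orthonormal.2 fun h => hk ⟨j, h⟩

theorem isHS_of_intertwine (ι : H →ₗᵢ[ℂ] L) {A : H →L[ℂ] H} {A' : L →L[ℂ] L} (hA' : IsHS A')
    (h : ∀ f, ι (A f) = A' (ι f)) : IsHS A := by
  have hv : Orthonormal ℂ (fun j => ι (stdB H j)) := (stdB H).orthonormal.comp_linearIsometry ι
  obtain ⟨W, c, e, he, hce, -⟩ := exists_extension hv
  refine isHS_of_summable (stdB H) ?_
  have h1 := (hA'.summable c).comp_injective he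
  refine h1.congr fun j => ?_
  rw [Function.comp_apply, hce, ← h, ι.norm_map]

/-- the trace and isometric embeddings -/
theorem hsTrace_of_intertwine (ι : H →ₗᵢ[ℂ] L) {A B : H →L[ℂ] H} {A' B' : L →L[ℂ] L}
    (hA' : IsHS A') (hB' : IsHS B') (hA : ∀ f, ι (A f) = A' (ι f)) (hB : ∀ f, ι (B f) = B' (ι f))
    (hAr : ∀ f, ∃ h, ContinuousLinearMap.adjoint A' f = ι h)
    (hBr : ∀ f, ∃ h, ContinuousLinearMap.adjoint B' f = ι h) :
    hsTrace A B = hsTrace A' B' := by
  have hv : Orthonormal ℂ (fun j => ι (stdB H j)) := (stdB H).orthonormal.comp_linearIsometry ι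
  obtain ⟨W, c, e, he, hce, hc0⟩ := exists_extension hv
  have hAd : ∀ f, ι (ContinuousLinearMap.adjoint A f) = ContinuousLinearMap.adjoint A' (ι f) := by
    intro f
    obtain ⟨h, hh⟩ := hAr (ι f)
    rw [hh]
    congr 1
    refine ext_inner_right ℂ fun u => ?_
    rw [ContinuousLinearMap.adjoint_inner_left, ← ι.inner_map_map h u, ← hh,
      ContinuousLinearMap.adjoint_inner_left, ← hA, ι.inner_map_map]
  have hB0 : ∀ k, k ∉ Set.range e → B' (c k) = 0 := by
    intro k hk
    refine ext_inner_left ℂ fun u => ?_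
    rw [inner_zero_right, ← ContinuousLinearMap.adjoint_inner_left]
    obtain ⟨h, hh⟩ := hBr u
    rw [hh]
    have h1 := (stdB H).hasSum_repr h
    have h2 : HasSum (fun j => (stdB H).repr h j • ι (stdB H j)) (ι h) := by
      have := h1.mapL ι.toContinuousLinearMap
      simpa using this
    have h3 := (innerSL ℂ (c k)).hasSum h2
    rw [← inner_conj_symm]
    have h4 : ⟪c k, ι h⟫_ℂ = 0 := by
      refine h3.unique ?_
      convert hasSum_zero with j
      rw [innerSL_apply_apply, inner_smul_right, ← inner_conj_symm, hc0 k hk j]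
      simp
    rw [h4, map_zero]
  have h1 := hasSum_hsTrace hA' hB' c
  have h2 : HasSum (fun j => ⟪ContinuousLinearMap.adjoint A' (c (e j)), B' (c (e j))⟫_ℂ)
      (hsTrace A' B') := by
    refine (he.hasSum_iff (f := fun k => ⟪ContinuousLinearMap.adjoint A' (c k), B' (c k)⟫_ℂ)
      ?_).mpr h1
    intro k hk
    rw [hB0 k hk, inner_zero_right]
  rw [hsTrace, ← h2.tsum_eq]
  refine tsum_congr fun j => ?_
  rw [hce, ← hAd, ← hB, ι.inner_map_map]

end intertwine

variable {G Y : Type*} [Group G] [MulAction G Y] [MeasurableSpace Y] [MeasurableConstSMul G Y]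
  {μ : Measure Y} [SMulInvariantMeasure G Y μ] [Countable G] {w : Y → ℝ≥0}

variable (G) in
/-- the periodised kernel -/
noncomputable def perK (k : Y → Y → ℂ) (x y : Y) : ℂ := ∑' g : G, k x (g • y)

theorem measurable_perK {k : Y → Y → ℂ} (hk : Measurable (Function.uncurry k)) :
    Measurable (Function.uncurry (perK G k)) := by
  refine Measurable.tsum fun g => ?_
  exact hk.comp (measurable_fst.prodMk ((measurable_const_smul g).comp measurable_snd))

/-- the periodised kernel is invariant in the second variable -/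
theorem perK_smul_right (k : Y → Y → ℂ) (g : G) (x y : Y) : perK G k x (g • y) = perK G k x y := by
  rw [perK, perK, ← (Equiv.mulRight g).tsum_eq (fun h : G => k x (h • y))]
  simp [mul_smul]

/-- the periodised kernel of a twisted invariant kernel is invariant in the first variable -/
theorem perK_smul_left {k : Y → Y → ℂ} {e : G → G} (he : ∀ (g : G) x y, k (g • x) (e g • y) = k x y)
    (g : G) (x y : Y) : perK G k (g • x) y = perK G k x y := by
  rw [perK, perK, ← (Equiv.mulLeft (e g)).tsum_eq (fun h : G => k (g • x) (h • y))]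
  simp [mul_smul, he]

/-- bounds on a covering set are bounds everywhere -/
theorem perK_bdd {k : Y → Y → ℂ} {e : G → G} (he : ∀ (g : G) x y, k (g • x) (e g • y) = k x y)
    {S : Set Y} (hS : ∀ y, ∃ g : G, g • y ∈ S) {C : ℝ}
    (hC : ∀ x ∈ S, ∀ y ∈ S, ‖perK G k x y‖ ≤ C) (x y : Y) : ‖perK G k x y‖ ≤ C := by
  obtain ⟨g, hg⟩ := hS x
  obtain ⟨h, hh⟩ := hS y
  rw [← perK_smul_left he g, ← perK_smul_right k h]
  exact hC _ hg _ hh

/-- operators given by kernels -/
structure KRep {G Y : Type*} [Group G] [MulAction G Y] [MeasurableSpace Y] {μ : Measure Y}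
    (A : HA G μ →L[ℂ] HA G μ) (k : Y → Y → ℂ) : Prop where
  meas : Measurable (Function.uncurry k)
  int : ∀ f : HA G μ, ∀ᵐ x ∂μ, Integrable (fun y => k x y * afn f y) μ
  rep : ∀ f : HA G μ, ∀ᵐ x ∂μ, afn (A f) x = ∫ y, k x y * afn f y ∂μ

namespace KRep

variable {A B : HA G μ →L[ℂ] HA G μ} {k k₁ k₂ : Y → Y → ℂ}

/-- the operator in terms of the periodised kernel -/
theorem rep_per (hw : IsWt G μ w) (hA : KRep A k) (f : HA G μ) :
    ∀ᵐ x ∂μ, afn (A f) x = ∫ y, perK G k x y * afn f y ∂(wtM μ w) := by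
  filter_upwards [hA.rep f, hA.int f] with x h1 h2
  rw [h1, ← hw.integral_sum h2]
  refine integral_congr_ae (Filter.Eventually.of_forall fun y => ?_)
  simp only [HA.afn_smul]
  rw [tsum_mul_right]
  rfl

variable [SigmaFinite (wtM μ w)]

theorem emb_eq (hw : IsWt G μ w) (hA : KRep A k) (hK : IsL2Ker (wtM μ w) (perK G k)) (f : HA G μ) :
    HA.emb hw (A f) = hK.op (HA.emb hw f) := by
  refine Lp.ext ?_
  filter_upwards [HA.emb_ae hw (A f), wtM_ac.ae_le (hA.rep_per hw f),
    hK.op_ae (HA.emb hw f)] with x h1 h2 h3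
  rw [h1, h2, h3]
  refine integral_congr_ae ?_
  filter_upwards [HA.emb_ae hw f] with y hy
  rw [hy]

/-- the operator is Hilbert–Schmidt -/
theorem isHS (hw : IsWt G μ w) (hA : KRep A k) (hK : IsL2Ker (wtM μ w) (perK G k)) : IsHS A :=
  isHS_of_intertwine (HA.emb hw) hK.isHS_op (hA.emb_eq hw hK)

/-- the range of an integral operator whose kernel is invariant in the first variable -/
theorem exists_emb (hw : IsWt G μ w) {K : Y → Y → ℂ} (hK : IsL2Ker (wtM μ w) K)
    (hi : ∀ (g : G) x y, K (g • x) y = K x y) (f : Lp ℂ 2 (wtM μ w)) :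
    ∃ h, hK.op f = HA.emb hw h := by
  have hf : Measurable f := (Lp.stronglyMeasurable f).measurable
  set F : Y → ℂ := fun x => ∫ y, K x y * f y ∂(wtM μ w) with hF
  have hFm : Measurable F := by
    have h1 : Measurable (fun p : Y × Y => K p.1 p.2 * f p.2) :=
      hK.meas.measurable.mul (hf.comp measurable_snd)
    exact (h1.stronglyMeasurable.integral_prod_right').measurable
  have hFi : ∀ (g : G) x, F (g • x) = F x := by
    intro g x
    simp only [hF, hi]
  have hFL : MemLp F 2 (wtM μ w) := by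
    refine (memLp_congr_ae ?_).mp (Lp.memLp (hK.op f))
    exact hK.op_ae f
  refine ⟨HA.mk hw F hFm hFi hFL, ?_⟩
  refine Lp.ext ?_
  filter_upwards [hK.op_ae f, HA.emb_ae hw (HA.mk hw F hFm hFi hFL),
    wtM_ac.ae_le (HA.afn_mk hw hFm hFi hFL)] with x h1 h2 h3
  rw [h1, h2, h3]

/-- the trace in terms of the periodised kernels -/
theorem hsTrace_eq [TopologicalSpace.SeparableSpace (Lp ℂ 2 (wtM μ w))] (hw : IsWt G μ w)
    (hA : KRep A k₁) (hB : KRep B k₂) (hK₁ : IsL2Ker₂ (wtM μ w) (perK G k₁))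
    (hK₂ : IsL2Ker₂ (wtM μ w) (perK G k₂)) :
    hsTrace A B = ∫ x, ∫ y, perK G k₂ x y * perK G k₁ y x ∂(wtM μ w) ∂(wtM μ w) := by
  rw [← hK₁.hsTrace_op hK₂.toIsL2Ker]
  refine hsTrace_of_intertwine (HA.emb hw) hK₁.isHS_op hK₂.isHS_op (hA.emb_eq hw hK₁.toIsL2Ker)
    (hB.emb_eq hw hK₂.toIsL2Ker) ?_ ?_
  · intro f
    rw [← hK₁.op_adjK]
    refine exists_emb hw hK₁.adjK.toIsL2Ker (fun g x y => ?_) f
    rw [adjK, adjK, perK_smul_right]
  · intro f
    rw [← hK₂.op_adjK]
    refine exists_emb hw hK₂.adjK.toIsL2Ker (fun g x y => ?_) f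
    rw [adjK, adjK, perK_smul_right]

end KRep

end Fermat.Agent.LT.FA
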