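import Fermat.Agent.LT.FA.QInt

/-!
# The Hilbert space of square integrable automorphic functions
-/

set_option autoImplicit false
set_option linter.unusedSectionVars false
set_option linter.unusedVariables false

open scoped ENNReal NNReal InnerProductSpace
open MeasureTheory

namespace Fermat.Agent.LT.FA

section defs

variable {G Y : Type*} [Group G] [MulAction G Y] [MeasurableSpace Y]

/-- the space of orbits -/
abbrev Orb (G Y : Type*) [Group G] [MulAction G Y] := MulAction.orbitRel.Quotient G Y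

variable (G) in
/-- the projection -/
def qmk (y : Y) : Orb G Y := Quotient.mk'' y

variable (G) in
@[simp] theorem qmk_smul (g : G) (y : Y) : qmk G (g • y) = qmk G y :=
  MulAction.orbitRel.Quotient.quotient_smul_eq

theorem measurable_qmk : Measurable (qmk G : Y → Orb G Y) := measurable_quotient_mk''

open Classical in
/-- the quotient measure -/
noncomputable def qMeas (G : Type*) {Y : Type*} [Group G] [MulAction G Y] [MeasurableSpace Y]
    (μ : Measure Y) : Measure (Orb G Y) :=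
  if h : ∃ w : Y → ℝ≥0, IsWt G μ w then (wtM μ h.choose).map (qmk G) else 0

/-- the Hilbert space of square integrable automorphic functions -/
noncomputable abbrev HA (G : Type*) {Y : Type*} [Group G] [MulAction G Y] [MeasurableSpace Y]
    (μ : Measure Y) := Lp ℂ 2 (qMeas G μ)

/-- the invariant function of an element of the Hilbert space -/
noncomputable def afn {μ : Measure Y} (f : HA G μ) (y : Y) : ℂ := f (qmk G y)

end defs

section meas

variable {G Y : Type*} [Group G] [MulAction G Y] [MeasurableSpace Y] [MeasurableConstSMul G Y]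
  {μ : Measure Y} [SMulInvariantMeasure G Y μ] [Countable G] {w : Y → ℝ≥0}

theorem IsWt.map_eq {w' : Y → ℝ≥0} (hw : IsWt G μ w) (hw' : IsWt G μ w') :
    (wtM μ w).map (qmk G) = (wtM μ w').map (qmk G) := by
  ext s hs
  rw [Measure.map_apply measurable_qmk hs, Measure.map_apply measurable_qmk hs]
  have h1 : MeasurableSet (qmk G ⁻¹' s : Set Y) := measurable_qmk hs
  have h2 := hw.lintegral_eq hw' (F := (qmk G ⁻¹' s : Set Y).indicator 1)
    (measurable_one.indicator h1).aemeasurable (fun g => Filter.Eventually.of_forall fun y => by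
      by_cases h : qmk G y ∈ s
      · rw [Set.indicator_of_mem, Set.indicator_of_mem] <;> simp [h]
      · rw [Set.indicator_of_notMem, Set.indicator_of_notMem] <;> simp [h])
  rwa [lintegral_indicator_one h1, lintegral_indicator_one h1] at h2

theorem IsWt.qMeas_eq (hw : IsWt G μ w) : qMeas G μ = (wtM μ w).map (qmk G) := by
  have h : ∃ w : Y → ℝ≥0, IsWt G μ w := ⟨w, hw⟩
  rw [qMeas, dif_pos h]
  exact h.choose_spec.map_eq hw

theorem IsWt.lintegral_qMeas (hw : IsWt G μ w) {F : Orb G Y → ℝ≥0∞} (hF : Measurable F) :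
    ∫⁻ x, F x ∂(qMeas G μ) = ∫⁻ y, F (qmk G y) ∂(wtM μ w) := by
  rw [hw.qMeas_eq, lintegral_map hF measurable_qmk]

theorem IsWt.ae_qMeas (hw : IsWt G μ w) {p : Orb G Y → Prop} (hp : ∀ᵐ x ∂(qMeas G μ), p x) :
    ∀ᵐ y ∂μ, p (qmk G y) := by
  rw [hw.qMeas_eq] at hp
  refine hw.ae_of_inv (ae_of_ae_map measurable_qmk.aemeasurable hp) ?_
  refine Filter.Eventually.of_forall fun y g => ?_
  simp

theorem IsWt.ae_qMeas_of (hw : IsWt G μ w) {p : Orb G Y → Prop} (hp : MeasurableSet {x | p x})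
    (h : ∀ᵐ y ∂μ, p (qmk G y)) : ∀ᵐ x ∂(qMeas G μ), p x := by
  rw [hw.qMeas_eq, ae_map_iff measurable_qmk.aemeasurable hp]
  exact wtM_ac.ae_le h

theorem measurePreserving_qmk (hw : IsWt G μ w) :
    MeasurePreserving (qmk G) (wtM μ w) (qMeas G μ) := ⟨measurable_qmk, hw.qMeas_eq.symm⟩

end meas

namespace HA

variable {G Y : Type*} [Group G] [MulAction G Y] [MeasurableSpace Y] [MeasurableConstSMul G Y]
  {μ : Measure Y} [SMulInvariantMeasure G Y μ] [Countable G] {w : Y → ℝ≥0}

@[simp] theorem afn_smul (f : HA G μ) (g : G) (y : Y) : afn f (g • y) = afn f y := by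
  rw [afn, qmk_smul]; rfl

theorem stronglyMeasurable_fn (f : HA G μ) : StronglyMeasurable (afn f) :=
  (Lp.stronglyMeasurable f).comp_measurable measurable_qmk

theorem aeInv_fn (f : HA G μ) : AEInv G μ (afn f) :=
  fun g => Filter.Eventually.of_forall fun y => afn_smul f g y

theorem memLp_fn (hw : IsWt G μ w) (f : HA G μ) : MemLp (afn f) 2 (wtM μ w) :=
  (Lp.memLp f).comp_measurePreserving (measurePreserving_qmk hw)

theorem enorm_sq (hw : IsWt G μ w) (f : HA G μ) : ‖f‖ₑ ^ 2 = ∫⁻ y, ‖afn f y‖ₑ ^ 2 ∂(wtM μ w) := by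
  have h1 : ‖f‖ₑ = eLpNorm f 2 (qMeas G μ) := by
    rw [Lp.enorm_def]
  rw [h1, eLpNorm_eq_lintegral_rpow_enorm_toReal (by norm_num) (by norm_num),
    ← ENNReal.rpow_natCast, ← ENNReal.rpow_mul]
  norm_num
  rw [hw.lintegral_qMeas]
  · rfl
  · exact ((Lp.stronglyMeasurable f).measurable.enorm.pow_const 2)

theorem ext_ae (hw : IsWt G μ w) {f h : HA G μ} (hfh : ∀ᵐ y ∂μ, afn f y = afn h y) : f = h := by
  refine Lp.ext ?_
  refine hw.ae_qMeas_of ?_ hfh
  exact measurableSet_eq_fun (Lp.stronglyMeasurable f).measurable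
    (Lp.stronglyMeasurable h).measurable

theorem ext_wtM (hw : IsWt G μ w) {f h : HA G μ} (hfh : ∀ᵐ y ∂(wtM μ w), afn f y = afn h y) :
    f = h := by
  refine ext_ae hw (hw.ae_of_inv hfh ?_)
  exact Filter.Eventually.of_forall fun y g => by simp

/-- the descended function -/
def desc (F : Y → ℂ) (hi : ∀ (g : G) y, F (g • y) = F y) : Orb G Y → ℂ :=
  Quotient.lift F (by
    rintro a b ⟨g, hg⟩
    rw [← hg]
    exact hi g b)

theorem desc_qmk (F : Y → ℂ) (hi : ∀ (g : G) y, F (g • y) = F y) (y : Y) :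
    desc F hi (qmk G y) = F y := rfl

theorem measurable_desc {F : Y → ℂ} (hm : Measurable F) (hi : ∀ (g : G) y, F (g • y) = F y) :
    Measurable (desc F hi) := measurable_from_quotient.mpr hm

theorem memLp_desc (hw : IsWt G μ w) {F : Y → ℂ} (hm : Measurable F)
    (hi : ∀ (g : G) y, F (g • y) = F y) (hF : MemLp F 2 (wtM μ w)) :
    MemLp (desc F hi) 2 (qMeas G μ) := by
  have h1 := measurePreserving_qmk hw
  rw [← h1.map_eq, memLp_map_measure_iff (measurable_desc hm hi).aestronglyMeasurable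
    measurable_qmk.aemeasurable]
  exact hF

/-- elements of the Hilbert space from functions -/
noncomputable def mk (hw : IsWt G μ w) (F : Y → ℂ) (hm : Measurable F)
    (hi : ∀ (g : G) y, F (g • y) = F y) (hF : MemLp F 2 (wtM μ w)) : HA G μ :=
  (memLp_desc hw hm hi hF).toLp _

theorem afn_mk (hw : IsWt G μ w) {F : Y → ℂ} (hm : Measurable F)
    (hi : ∀ (g : G) y, F (g • y) = F y) (hF : MemLp F 2 (wtM μ w)) :
    ∀ᵐ y ∂μ, afn (mk hw F hm hi hF) y = F y :=
  hw.ae_qMeas (p := fun x => (mk hw F hm hi hF) x = desc F hi x)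
    (memLp_desc hw hm hi hF).coeFn_toLp

theorem afn_add (hw : IsWt G μ w) (f h : HA G μ) : ∀ᵐ y ∂μ, afn (f + h) y = afn f y + afn h y :=
  hw.ae_qMeas (p := fun x => (f + h : HA G μ) x = f x + h x) (Lp.coeFn_add f h)

theorem afn_smulc (hw : IsWt G μ w) (c : ℂ) (f : HA G μ) : ∀ᵐ y ∂μ, afn (c • f) y = c * afn f y :=
  hw.ae_qMeas (p := fun x => (c • f : HA G μ) x = c * f x) (Lp.coeFn_smul c f)

theorem afn_sub (hw : IsWt G μ w) (f h : HA G μ) : ∀ᵐ y ∂μ, afn (f - h) y = afn f y - afn h y :=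
  hw.ae_qMeas (p := fun x => (f - h : HA G μ) x = f x - h x) (Lp.coeFn_sub f h)

theorem afn_zero (hw : IsWt G μ w) : ∀ᵐ y ∂μ, afn (0 : HA G μ) y = 0 :=
  hw.ae_qMeas (p := fun x => (0 : HA G μ) x = 0) (Lp.coeFn_zero _ _ _)

theorem integral_qMeas (hw : IsWt G μ w) (F : Orb G Y → ℂ) (hF : StronglyMeasurable F) :
    ∫ x, F x ∂(qMeas G μ) = ∫ y, F (qmk G y) ∂(wtM μ w) := by
  rw [hw.qMeas_eq, integral_map measurable_qmk.aemeasurable hF.aestronglyMeasurable]

theorem inner_eq (hw : IsWt G μ w) (f h : HA G μ) :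
    ⟪f, h⟫_ℂ = ∫ y, (starRingEnd ℂ) (afn f y) * afn h y ∂(wtM μ w) := by
  rw [L2.inner_def, integral_qMeas hw]
  · refine integral_congr_ae (Filter.Eventually.of_forall fun y => ?_)
    change (⟪f (qmk G y), h (qmk G y)⟫_ℂ : ℂ) = _
    rw [RCLike.inner_apply, mul_comm]
    rfl
  · exact StronglyMeasurable.inner (Lp.stronglyMeasurable f) (Lp.stronglyMeasurable h)

/-- the isometric embedding into the functions on `Y` -/
noncomputable def emb (hw : IsWt G μ w) : HA G μ →ₗᵢ[ℂ] Lp ℂ 2 (wtM μ w) :=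
  Lp.compMeasurePreservingₗᵢ ℂ (qmk G) (measurePreserving_qmk hw)

theorem emb_ae (hw : IsWt G μ w) (f : HA G μ) : ∀ᵐ y ∂(wtM μ w), emb hw f y = afn f y :=
  Lp.coeFn_compMeasurePreserving f (measurePreserving_qmk hw)

end HA

end Fermat.Agent.LT.FA
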