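import Fermat.Agent.LT.FA.HS

/-!
# Hilbert–Schmidt operators are compact; joint eigenvectors
-/

set_option autoImplicit false

open scoped InnerProductSpace ENNReal NNReal Topology
open Filter

namespace Fermat.Agent.LT.FA

variable {H : Type*} [NormedAddCommGroup H] [InnerProductSpace ℂ H] [CompleteSpace H]
variable {J J' : Type*}

theorem norm_sq_le (b : HilbertBasis J ℂ H) {T : H →L[ℂ] H} (h : IsHS T) :
    ‖T‖ ^ 2 ≤ ∑' j, ‖T (b j)‖ ^ 2 := by
  classical
  set C := ∑' j, ‖T (b j)‖ ^ 2 with hC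
  have hC0 : 0 ≤ C := tsum_nonneg fun j => sq_nonneg _
  have h1 : ‖T‖ ≤ Real.sqrt C := by
    apply ContinuousLinearMap.opNorm_le_bound _ (Real.sqrt_nonneg _)
    intro x
    apply le_of_sq_le_sq _ (by positivity)
    rw [mul_pow, Real.sq_sqrt hC0]
    have h2 := (hasSum_norm_sq b (T x)).tsum_eq
    rw [← h2]
    have h3 : ∑' j, ‖ContinuousLinearMap.adjoint T (b j)‖ ^ 2 = C := by
      have e1 : hsSq b T = hsSq b (ContinuousLinearMap.adjoint T) := hsSq_adjoint b b T
      have e2 : ∀ S : H →L[ℂ] H, (hsSq b S).toReal = ∑' j, ‖S (b j)‖ ^ 2 := by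
        intro S
        rw [hsSq, ENNReal.tsum_toReal_eq (fun j => by simp)]
        refine tsum_congr fun j => ?_
        simp
      rw [hC, ← e2, ← e2, e1]
    rw [← h3, ← tsum_mul_right]
    refine Summable.tsum_le_tsum (fun j => ?_) (hasSum_norm_sq b (T x)).summable
      ((h.adjoint.summable b).mul_right _)
    rw [← ContinuousLinearMap.adjoint_inner_left, ← mul_pow]
    exact pow_le_pow_left₀ (norm_nonneg _) (norm_inner_le_norm _ _) 2
  calc ‖T‖ ^ 2 ≤ (Real.sqrt C) ^ 2 := pow_le_pow_left₀ (norm_nonneg _) h1 2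
    _ = C := Real.sq_sqrt hC0

/-- finite rank truncations -/
noncomputable def trunc (b : HilbertBasis J ℂ H) (T : H →L[ℂ] H) (F : Finset J) : H →L[ℂ] H :=
  ∑ j ∈ F, (innerSL ℂ (b j)).smulRight (T (b j))

omit [CompleteSpace H] in
theorem trunc_apply (b : HilbertBasis J ℂ H) (T : H →L[ℂ] H) (F : Finset J) [DecidableEq J]
    (i : J) : trunc b T F (b i) = if i ∈ F then T (b i) else 0 := by
  rw [trunc, sum_apply]
  simp only [ContinuousLinearMap.smulRight_apply, innerSL_apply_apply]
  have h := orthonormal_iff_ite.mp b.orthonormal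
  simp [h]

theorem isHS_trunc (b : HilbertBasis J ℂ H) (T : H →L[ℂ] H) (F : Finset J) :
    IsHS (trunc b T F) := by
  classical
  apply isHS_of_summable b
  apply summable_of_ne_finset_zero (s := F)
  intro j hj
  rw [trunc_apply, if_neg hj]
  simp

theorem IsHS.sub {T T' : H →L[ℂ] H} (h : IsHS T) (h' : IsHS T') : IsHS (T - T') := by
  apply isHS_of_summable (stdB H)
  refine Summable.of_nonneg_of_le (fun j => sq_nonneg _) (fun j => ?_)
    (((h.summable (stdB H)).mul_left 2).add ((h'.summable (stdB H)).mul_left 2))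
  rw [sub_apply]
  have h1 := norm_sub_le (T (stdB H j)) (T' (stdB H j))
  nlinarith [sq_nonneg (‖T (stdB H j)‖ - ‖T' (stdB H j)‖), norm_nonneg (T (stdB H j) - T' (stdB H j)),
    norm_nonneg (T (stdB H j)), norm_nonneg (T' (stdB H j))]

theorem IsHS.add {T T' : H →L[ℂ] H} (h : IsHS T) (h' : IsHS T') : IsHS (T + T') := by
  apply isHS_of_summable (stdB H)
  refine Summable.of_nonneg_of_le (fun j => sq_nonneg _) (fun j => ?_)
    (((h.summable (stdB H)).mul_left 2).add ((h'.summable (stdB H)).mul_left 2))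
  rw [add_apply]
  have h1 := norm_add_le (T (stdB H j)) (T' (stdB H j))
  nlinarith [sq_nonneg (‖T (stdB H j)‖ - ‖T' (stdB H j)‖), norm_nonneg (T (stdB H j) + T' (stdB H j)),
    norm_nonneg (T (stdB H j)), norm_nonneg (T' (stdB H j))]

theorem IsHS.smul {T : H →L[ℂ] H} (h : IsHS T) (c : ℂ) : IsHS (c • T) := by
  apply isHS_of_summable (stdB H)
  refine ((h.summable (stdB H)).mul_left (‖c‖ ^ 2)).congr fun j => ?_
  rw [smul_apply, norm_smul, mul_pow]

theorem tendsto_trunc (b : HilbertBasis J ℂ H) {T : H →L[ℂ] H} (h : IsHS T) :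
    Tendsto (trunc b T) atTop (𝓝 T) := by
  classical
  rw [tendsto_iff_norm_sub_tendsto_zero]
  have h1 : Tendsto (fun F : Finset J => ∑' j : {j // j ∉ F}, ‖T (b j)‖ ^ 2) atTop (𝓝 0) :=
    tendsto_tsum_compl_atTop_zero fun j => ‖T (b j)‖ ^ 2
  have h2 : Tendsto (fun F : Finset J => Real.sqrt (∑' j : {j // j ∉ F}, ‖T (b j)‖ ^ 2)) atTop
      (𝓝 0) := by
    have := (Real.continuous_sqrt.tendsto 0).comp h1
    rwa [Real.sqrt_zero] at this
  refine squeeze_zero (fun F => norm_nonneg _) (fun F => ?_) h2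
  apply Real.le_sqrt_of_sq_le
  rw [norm_sub_rev]
  refine (norm_sq_le b (h.sub (isHS_trunc b T F))).trans (le_of_eq ?_)
  have h3 : ∀ j, ‖(T - trunc b T F) (b j)‖ ^ 2 =
      Set.indicator {j | j ∉ F} (fun j => ‖T (b j)‖ ^ 2) j := by
    intro j
    rw [sub_apply, trunc_apply]
    by_cases hj : j ∈ F
    · simp [hj]
    · simp [hj]
  simp_rw [h3]
  exact (tsum_subtype {j | j ∉ F} fun j => ‖T (b j)‖ ^ 2).symm

theorem IsHS.isCompactOperator {T : H →L[ℂ] H} (h : IsHS T) : IsCompactOperator T := by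
  refine isCompactOperator_of_tendsto (tendsto_trunc (stdB H) h) (Eventually.of_forall fun F => ?_)
  rw [trunc]
  induction F using Finset.cons_induction with
  | empty => exact isCompactOperator_zero
  | cons j F hj ih =>
    rw [Finset.sum_cons]
    refine IsCompactOperator.add ?_ ih
    have h1 : IsCompactOperator (innerSL ℂ (stdB H j) : H →L[ℂ] ℂ) :=
      isCompactOperator_of_locallyCompactSpace_dom _
    have h2 := h1.clm_comp (ContinuousLinearMap.toSpanSingleton ℂ (T (stdB H j)))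
    exact h2

end Fermat.Agent.LT.FA
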