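import Fermat.Agent.LT.FA.Spectral

/-!
# The trace in terms of joint eigenspaces
-/

set_option autoImplicit false

open scoped InnerProductSpace ENNReal NNReal Topology
open Filter Module.End

namespace Fermat.Agent.LT.FA

variable {H : Type*} [NormedAddCommGroup H] [InnerProductSpace ℂ H]
variable {ι : Type*} {T : ι → H →L[ℂ] H}

/-- the trace of the compression of `V` to a finite dimensional subspace -/
noncomputable def cTr (V : H →L[ℂ] H) (W : Submodule ℂ H) [FiniteDimensional ℂ W] : ℂ :=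
  ∑ a, ⟪(stdOrthonormalBasis ℂ W a : H), V (stdOrthonormalBasis ℂ W a : H)⟫_ℂ

theorem cTr_eq_trace (V : H →L[ℂ] H) (W : Submodule ℂ H) [FiniteDimensional ℂ W]
    (hV : ∀ x ∈ W, V x ∈ W) :
    cTr V W = LinearMap.trace ℂ W ((V : H →ₗ[ℂ] H).restrict hV) := by
  rw [LinearMap.trace_eq_sum_inner _ (stdOrthonormalBasis ℂ W), cTr]
  rfl

/-- products of operators of the family -/
def mulL (T : ι → H →L[ℂ] H) (l : List ι) : H →L[ℂ] H := (l.map T).prod

theorem mulL_nil : mulL T [] = 1 := rfl

theorem mulL_cons (i : ι) (l : List ι) (x : H) : mulL T (i :: l) x = T i (mulL T l x) := by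
  simp [mulL]

theorem IsCommSymm.mulL_comm (hT : IsCommSymm T) (i : ι) (l : List ι) (x : H) :
    T i (mulL T l x) = mulL T l (T i x) := by
  induction l generalizing x with
  | nil => rfl
  | cons j l ih => rw [mulL_cons, mulL_cons, hT.comm, ih]

theorem IsCommSymm.mulL_inner (hT : IsCommSymm T) (l : List ι) (x y : H) :
    ⟪mulL T l x, y⟫_ℂ = ⟪x, mulL T l y⟫_ℂ := by
  induction l generalizing x y with
  | nil => rfl
  | cons j l ih => rw [mulL_cons, mulL_cons, hT.inner, ih, hT.mulL_comm]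

theorem mulL_jointE {s : ι → ℝ} {x : H} (hx : x ∈ jointE T s) (l : List ι) :
    mulL T l x = (((l.map s).prod : ℝ) : ℂ) • x := by
  induction l with
  | nil => simp [mulL]
  | cons j l ih =>
    rw [mulL_cons, ih, map_smul, mem_jointE.mp hx, List.map_cons, List.prod_cons, smul_smul,
      Complex.ofReal_mul, mul_comm]

/-- the span of all joint eigenvectors with `s iA ≠ 0` -/
def supE (T : ι → H →L[ℂ] H) (iA : ι) : Submodule ℂ H :=
  ⨆ s : {s : ι → ℝ // s iA ≠ 0}, jointE T s.1

theorem jointE_le_supE (T : ι → H →L[ℂ] H) (iA : ι) (s : ι → ℝ) (hs : s iA ≠ 0) :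
    jointE T s ≤ supE T iA :=
  le_iSup (fun s : {s : ι → ℝ // s iA ≠ 0} => jointE T s.1) ⟨s, hs⟩

theorem supE_induction {iA : ι} {motive : H → Prop}
    (hmem : ∀ s : ι → ℝ, s iA ≠ 0 → ∀ x ∈ jointE T s, motive x) (h0 : motive 0)
    (hadd : ∀ x y, motive x → motive y → motive (x + y)) {x : H} (hx : x ∈ supE T iA) :
    motive x :=
  Submodule.iSup_induction _ (motive := motive) hx (fun s y hy => hmem s.1 s.2 y hy) h0 hadd

theorem supE_inv (iA i : ι) {x : H} (hx : x ∈ supE T iA) : T i x ∈ supE T iA := by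
  refine supE_induction (motive := fun x => T i x ∈ supE T iA) (fun s hs y hy => ?_) ?_
    (fun y z hy hz => ?_) hx
  · rw [mem_jointE.mp hy i]
    exact Submodule.smul_mem _ _ (jointE_le_supE T iA s hs hy)
  · rw [map_zero]; exact Submodule.zero_mem _
  · rw [map_add]; exact Submodule.add_mem _ hy hz

variable [CompleteSpace H]

theorem hasSum_trace_decomp (hT : IsCommSymm T) (iA iB : ι) (hA : IsHS (T iA)) (hB : IsHS (T iB))
    (hfin : ∀ s : {s : ι → ℝ // s iA ≠ 0}, FiniteDimensional ℂ (jointE T s.1))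
    (V : H →L[ℂ] H) (l : List ι) :
    HasSum (fun s : {s : ι → ℝ // s iA ≠ 0} =>
      ((s.1 iA * s.1 iB * (l.map s.1).prod : ℝ) : ℂ) * cTr V (jointE T s.1))
      (hsTrace (mulL T l * T iA) (T iB * V)) := by
  classical
  let I := Σ s : {s : ι → ℝ // s iA ≠ 0}, Fin (Module.finrank ℂ (jointE T s.1))
  let v : I → H := fun q => (stdOrthonormalBasis ℂ (jointE T q.1.1) q.2 : H)
  have hvmem : ∀ q : I, v q ∈ jointE T q.1.1 := fun q => Subtype.mem _
  have hv : Orthonormal ℂ v := by
    refine ⟨fun q => ?_, fun q q' hqq => ?_⟩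
    · have := (stdOrthonormalBasis ℂ (jointE T q.1.1)).orthonormal.1 q.2
      exact this
    · obtain ⟨s, a⟩ := q
      obtain ⟨s', a'⟩ := q'
      by_cases h : s = s'
      · subst h
        have h2 : a ≠ a' := fun h => hqq (by rw [h])
        exact (stdOrthonormalBasis ℂ (jointE T s.1)).orthonormal.2 h2
      · have h1 := hvmem ⟨s, a⟩
        have h2 := hvmem ⟨s', a'⟩
        have h3 : s.1 ≠ s'.1 := fun h' => h (Subtype.ext h')
        exact hT.orthogonal h3 h1 h2
  obtain ⟨w, b, hSw, hb⟩ := hv.toSubtypeRange.exists_hilbertBasis_extension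
  -- orthogonal complement
  have hker : ∀ e : w, (e : H) ∉ Set.range v → T iA (e : H) = 0 := by
    intro e he
    refine hT.eq_zero_of_mem_orthogonal iA hA.isCompactOperator (supE T iA)
      (fun i x hx => supE_inv iA i hx) (jointE_le_supE T iA) ?_
    · rw [Submodule.mem_orthogonal]
      intro u hu
      refine supE_induction (motive := fun u => ⟪u, (e : H)⟫_ℂ = 0) ?_ ?_ ?_ hu
      · intro s0 hs0 y hy
        obtain ⟨s, rfl⟩ : ∃ s : {s : ι → ℝ // s iA ≠ 0}, s.1 = s0 := ⟨⟨s0, hs0⟩, rfl⟩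
        have h1 := (stdOrthonormalBasis ℂ (jointE T s.1)).sum_repr ⟨y, hy⟩
        have h2 : y = ∑ a, (stdOrthonormalBasis ℂ (jointE T s.1)).repr ⟨y, hy⟩ a •
            v ⟨s, a⟩ := by
          have h3 := congrArg Subtype.val h1
          rw [Submodule.coe_sum] at h3
          exact h3.symm
        rw [h2, sum_inner]
        refine Finset.sum_eq_zero fun a _ => ?_
        rw [inner_smul_left]
        have hmem : v ⟨s, a⟩ ∈ w := hSw ⟨_, rfl⟩
        have h4 : (⟨v ⟨s, a⟩, hmem⟩ : w) ≠ e := by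
          intro h
          exact he ⟨⟨s, a⟩, congrArg Subtype.val h⟩
        have h5 := b.orthonormal.2 h4
        rw [hb] at h5
        rw [h5, mul_zero]
      · rw [inner_zero_left]
      · intro y z hy hz
        rw [inner_add_left, hy, hz, add_zero]
  have hX : IsHS (mulL T l * T iA) := hA.comp_left _
  have hY : IsHS (T iB * V) := hB.comp_right _
  have hsum := hasSum_hsTrace hX hY b
  have hval : ∀ e : H, ⟪ContinuousLinearMap.adjoint (mulL T l * T iA) e, (T iB * V) e⟫_ℂ =
      ⟪mulL T l (T iA e), T iB (V e)⟫_ℂ := by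
    intro e
    rw [ContinuousLinearMap.adjoint_inner_left]
    change ⟪e, mulL T l (T iA (T iB (V e)))⟫_ℂ = _
    rw [← hT.mulL_inner, ← hT.inner, hT.mulL_comm]
  let g : I → w := fun q => ⟨v q, hSw ⟨q, rfl⟩⟩
  have hg : Function.Injective g := by
    intro q q' h
    exact hv.linearIndependent.injective (congrArg Subtype.val h)
  rw [← hg.hasSum_iff] at hsum
  swap
  · intro e he
    have he' : (e : H) ∉ Set.range v := by
      rintro ⟨q, hq⟩
      exact he ⟨q, Subtype.ext hq⟩
    rw [hval, hb, hker e he', map_zero, inner_zero_left]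
  have h1 : ∀ q : I, ((fun j => ⟪ContinuousLinearMap.adjoint (mulL T l * T iA) (b j),
      (T iB * V) (b j)⟫_ℂ) ∘ g) q =
      ((q.1.1 iA * q.1.1 iB * (l.map q.1.1).prod : ℝ) : ℂ) * ⟪v q, V (v q)⟫_ℂ := by
    intro q
    have hbq : b (g q) = v q := by rw [hb]
    rw [Function.comp_apply, hval, hbq, mem_jointE.mp (hvmem q), map_smul, mulL_jointE (hvmem q),
      smul_smul, inner_smul_left, ← hT.inner, mem_jointE.mp (hvmem q), inner_smul_left]
    simp only [map_mul, Complex.conj_ofReal, Complex.ofReal_mul]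
    ring
  have h2 := hsum
  rw [funext h1] at h2
  refine h2.sigma fun s => ?_
  rw [cTr, Finset.mul_sum]
  exact hasSum_fintype _

end Fermat.Agent.LT.FA
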