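import Fermat.Agent.LT.FA.ThOp

/-!
# Function kernels with bounded masses
-/

set_option autoImplicit false
set_option linter.unusedSectionVars false
set_option linter.unusedVariables false

open scoped ENNReal NNReal InnerProductSpace
open MeasureTheory ProbabilityTheory

namespace Fermat.Agent.LT.FA

/-- invariant kernels with bounded masses -/
structure IsFK (G : Type*) {Y : Type*} [Group G] [MulAction G Y] [MeasurableSpace Y]
    (μ : Measure Y) (k : Y → Y → ℂ) : Prop where
  meas : Measurable (Function.uncurry k)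
  inv : ∀ (g : G) x y, k (g • x) (g • y) = k x y
  bdd : ∃ C : ℝ≥0, (∀ x, ∫⁻ y, ‖k x y‖ₑ ∂μ ≤ C) ∧ ∀ y, ∫⁻ x, ‖k x y‖ₑ ∂μ ≤ C

variable {G Y : Type*} [Group G] [MulAction G Y] [MeasurableSpace Y] [MeasurableConstSMul G Y]
  {μ : Measure Y} [SMulInvariantMeasure G Y μ] [Countable G] {w : Y → ℝ≥0}

namespace IsFK

variable {k k' : Y → Y → ℂ} [SigmaFinite μ]

/-- the kernel `‖k x y‖ dy` -/
noncomputable def kern (μ : Measure Y) [SFinite μ] (k : Y → Y → ℂ) : Kernel Y Y :=
  Kernel.withDensity (Kernel.const Y μ) (fun x y => ((‖k x y‖₊ : ℝ≥0) : ℝ≥0∞))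

theorem measurable_nn (hk : Measurable (Function.uncurry k)) :
    Measurable (Function.uncurry fun x y => ((‖k x y‖₊ : ℝ≥0) : ℝ≥0∞)) :=
  hk.nnnorm.coe_nnreal_ennreal

theorem kern_apply (hk : Measurable (Function.uncurry k)) (x : Y) :
    kern μ k x = μ.withDensity (fun y => ((‖k x y‖₊ : ℝ≥0) : ℝ≥0∞)) := by
  rw [kern, Kernel.withDensity_apply _ (measurable_nn hk), Kernel.const_apply]

theorem measurable_row (hk : Measurable (Function.uncurry k)) (x : Y) :
    Measurable (fun y => ((‖k x y‖₊ : ℝ≥0) : ℝ≥0∞)) :=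
  (measurable_nn hk).comp (measurable_const.prodMk measurable_id)

theorem measurable_row' (hk : Measurable (Function.uncurry k)) (x : Y) :
    Measurable (fun y => ‖k x y‖₊) :=
  hk.nnnorm.comp (measurable_const.prodMk measurable_id)

theorem lintegral_kern (hk : Measurable (Function.uncurry k)) (x : Y) {F : Y → ℝ≥0∞}
    (hF : Measurable F) : ∫⁻ y, F y ∂(kern μ k x) = ∫⁻ y, ‖k x y‖ₑ * F y ∂μ := by
  rw [kern_apply hk, lintegral_withDensity_eq_lintegral_mul _ (measurable_row hk x) hF]
  rfl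

theorem isFiniteKernel_kern (hk : Measurable (Function.uncurry k)) {C : ℝ≥0}
    (hC : ∀ x, ∫⁻ y, ‖k x y‖ₑ ∂μ ≤ C) : IsFiniteKernel (kern μ k) :=
  ⟨⟨C, ENNReal.coe_lt_top, fun x => by
    rw [kern_apply hk, withDensity_apply _ MeasurableSet.univ, Measure.restrict_univ]
    exact hC x⟩⟩

theorem kern_smul (hk : Measurable (Function.uncurry k))
    (hi : ∀ (g : G) x y, k (g • x) (g • y) = k x y) (g : G) (x : Y) :
    kern μ k (g • x) = (kern μ k x).map (g • ·) := by
  refine Measure.ext_of_lintegral _ fun F hF => ?_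
  rw [lintegral_kern hk _ hF, (measurableEmbedding_const_smul g).lintegral_map,
    lintegral_kern hk _ (F := fun y => F (g • y)) (hF.comp (measurable_const_smul g)),
    ← lintegral_smul' (μ := μ) g (fun y => ‖k (g • x) y‖ₑ * F y)]
  simp_rw [hi]

/-- the correspondence of a kernel -/
noncomputable def cor (hk : IsFK G μ k) : Cor G μ where
  ker := kern μ k
  dual := kern μ (fun x y => k y x)
  fin := isFiniteKernel_kern hk.meas hk.bdd.choose_spec.1
  fin' := isFiniteKernel_kern (hk.meas.comp measurable_swap) hk.bdd.choose_spec.2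
  lint h hh := by
    have hk' : Measurable (Function.uncurry fun x y => k y x) := hk.meas.comp measurable_swap
    have e1 : ∀ x, ∫⁻ y, h (x, y) ∂(kern μ k x) = ∫⁻ y, ‖k x y‖ₑ * h (x, y) ∂μ := fun x =>
      lintegral_kern hk.meas x (hh.comp (measurable_const.prodMk measurable_id))
    have e2 : ∀ y, ∫⁻ x, h (x, y) ∂(kern μ (fun x y => k y x) y) =
        ∫⁻ x, ‖k x y‖ₑ * h (x, y) ∂μ := fun y =>
      lintegral_kern hk' y (hh.comp (measurable_id.prodMk measurable_const))
    simp_rw [e1, e2]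
    exact lintegral_lintegral_swap (hk.meas.enorm.mul hh).aemeasurable
  equiv g x := kern_smul hk.meas hk.inv g x
  equiv' g x := kern_smul (k := fun x y => k y x) (hk.meas.comp measurable_swap)
    (fun g x y => hk.inv g y x) g x
  a x y := k x y / ‖k x y‖
  a_meas := hk.meas.div (Complex.measurable_ofReal.comp hk.meas.norm)
  a_le x y := by
    rw [norm_div, Complex.norm_real, norm_norm]
    exact div_self_le_one _
  a_inv g x y := by rw [hk.inv]

theorem cor_ker (hk : IsFK G μ k) : hk.cor.ker = kern μ k := rfl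

theorem cor_dual (hk : IsFK G μ k) : hk.cor.dual = kern μ (fun x y => k y x) := rfl

theorem cor_a (hk : IsFK G μ k) (x y : Y) : hk.cor.a x y = k x y / ‖k x y‖ := rfl

theorem app_eq (hk : IsFK G μ k) (F : Y → ℂ) (x : Y) :
    hk.cor.app F x = ∫ y, k x y * F y ∂μ := by
  rw [Cor.app, hk.cor_ker]
  simp_rw [hk.cor_a]
  rw [kern_apply hk.meas, integral_withDensity_eq_integral_smul (measurable_row' hk.meas x)]
  refine integral_congr_ae (Filter.Eventually.of_forall fun y => ?_)
  simp only [NNReal.smul_def, coe_nnnorm, Complex.real_smul]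
  by_cases h : k x y = 0
  · simp [h]
  · have h2 : ((‖k x y‖ : ℝ) : ℂ) ≠ 0 := by
      rw [Ne, Complex.ofReal_eq_zero]
      exact norm_ne_zero_iff.mpr h
    field_simp

theorem integrable (hk : IsFK G μ k) (hw : IsWt G μ w) {F : Y → ℂ} (hm : Measurable F)
    (hi : ∀ (g : G) y, F (g • y) = F y) (hF : MemLp F 2 (wtM μ w)) :
    ∀ᵐ x ∂μ, Integrable (fun y => k x y * F y) μ := by
  filter_upwards [hk.cor.integrable_app hw hm hi hF] with x hx
  rw [hk.cor_ker] at hx
  simp_rw [hk.cor_a] at hx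
  rw [kern_apply hk.meas, integrable_withDensity_iff_integrable_smul
    (measurable_row' hk.meas x)] at hx
  refine hx.congr (Filter.Eventually.of_forall fun y => ?_)
  simp only [NNReal.smul_def, coe_nnnorm, Complex.real_smul]
  by_cases h : k x y = 0
  · simp [h]
  · have h2 : ((‖k x y‖ : ℝ) : ℂ) ≠ 0 := by
      rw [Ne, Complex.ofReal_eq_zero]
      exact norm_ne_zero_iff.mpr h
    field_simp

/-- the operator of a kernel -/
noncomputable def op (hk : IsFK G μ k) (hw : IsWt G μ w) : HA G μ →L[ℂ] HA G μ := hk.cor.op hw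

theorem op_ae (hk : IsFK G μ k) (hw : IsWt G μ w) (f : HA G μ) :
    ∀ᵐ x ∂μ, afn (hk.op hw f) x = ∫ y, k x y * afn f y ∂μ := by
  filter_upwards [hk.cor.op_ae hw f] with x hx
  rw [op, hx, hk.app_eq]

/-- every operator with this formula is represented by the kernel -/
theorem kRep_of (hk : IsFK G μ k) (hw : IsWt G μ w) {A : HA G μ →L[ℂ] HA G μ}
    (hA : ∀ f, ∀ᵐ x ∂μ, afn (A f) x = ∫ y, k x y * afn f y ∂μ) : KRep A k where
  meas := hk.meas
  int f := hk.integrable hw (HA.stronglyMeasurable_fn f).measurable (HA.afn_smul f)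
    (HA.memLp_fn hw f)
  rep := hA

theorem kRep (hk : IsFK G μ k) (hw : IsWt G μ w) : KRep (hk.op hw) k :=
  hk.kRep_of hw (hk.op_ae hw)

theorem op_eq (hk : IsFK G μ k) (hw : IsWt G μ w) {A : HA G μ →L[ℂ] HA G μ}
    (hA : ∀ f, ∀ᵐ x ∂μ, afn (A f) x = ∫ y, k x y * afn f y ∂μ) : A = hk.op hw := by
  ext1 f
  refine HA.ext_ae hw ?_
  filter_upwards [hA f, hk.op_ae hw f] with x h1 h2
  rw [h1, h2]

/-- the adjoint kernel -/
theorem adj (hk : IsFK G μ k) : IsFK G μ (fun x y => (starRingEnd ℂ) (k y x)) where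
  meas := Complex.continuous_conj.measurable.comp (hk.meas.comp measurable_swap)
  inv g x y := by rw [hk.inv]
  bdd := by
    obtain ⟨C, h1, h2⟩ := hk.bdd
    refine ⟨C, fun x => ?_, fun y => ?_⟩
    · simpa [RCLike.enorm_conj] using h2 x
    · simpa [RCLike.enorm_conj] using h1 y

theorem op_adj (hk : IsFK G μ k) (hw : IsWt G μ w) :
    ContinuousLinearMap.adjoint (hk.op hw) = hk.adj.op hw := by
  rw [op, Cor.op_adj]
  refine hk.adj.op_eq hw fun f => ?_
  filter_upwards [hk.cor.adj.op_ae hw f] with x hx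
  rw [hx]
  have hk' : Measurable (Function.uncurry fun x y => k y x) := hk.meas.comp measurable_swap
  have e0 : hk.cor.adj.ker = kern μ (fun x y => k y x) := rfl
  have e1 : ∀ x y, hk.cor.adj.a x y = (starRingEnd ℂ) (k y x / ‖k y x‖) := fun _ _ => rfl
  rw [Cor.app, e0]
  simp_rw [e1]
  rw [kern_apply hk', integral_withDensity_eq_integral_smul (measurable_row' hk' x)]
  refine integral_congr_ae (Filter.Eventually.of_forall fun y => ?_)
  simp only [NNReal.smul_def, coe_nnnorm, Complex.real_smul]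
  by_cases h : k y x = 0
  · simp [h]
  · have h2 : ((‖k y x‖ : ℝ) : ℂ) ≠ 0 := by
      rw [Ne, Complex.ofReal_eq_zero]
      exact norm_ne_zero_iff.mpr h
    rw [map_div₀, Complex.conj_ofReal]
    field_simp

/-- composition of kernels -/
theorem cvK (hk : IsFK G μ k) (hk' : IsFK G μ k') : IsFK G μ (cvK μ k k') where
  meas := measurable_cvK hk.meas hk'.meas
  inv g x y := cvK_smul (e₁ := id) (e₂ := id) hk.inv hk'.inv g x y
  bdd := by
    obtain ⟨C, h1, h2⟩ := hk.bdd
    obtain ⟨C', h1', h2'⟩ := hk'.bdd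
    have hle : ∀ x z, ‖FA.cvK μ k k' x z‖ₑ ≤ ∫⁻ y, ‖k x y‖ₑ * ‖k' y z‖ₑ ∂μ := by
      intro x z
      refine (enorm_integral_le_lintegral_enorm _).trans (le_of_eq ?_)
      simp_rw [enorm_mul]
    have hm : Measurable (fun p : Y × Y => ‖k p.1 p.2‖ₑ) := hk.meas.enorm
    have hm' : Measurable (fun p : Y × Y => ‖k' p.1 p.2‖ₑ) := hk'.meas.enorm
    refine ⟨C * C', fun x => ?_, fun z => ?_⟩
    · refine (lintegral_mono (hle x)).trans ?_
      rw [lintegral_lintegral_swap (f := fun z y => ‖k x y‖ₑ * ‖k' y z‖ₑ)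
        (((hm.comp (measurable_const.prodMk measurable_snd)).mul
          (hm'.comp measurable_swap)).aemeasurable)]
      calc ∫⁻ y, ∫⁻ z, ‖k x y‖ₑ * ‖k' y z‖ₑ ∂μ ∂μ
          ≤ ∫⁻ y, ‖k x y‖ₑ * C' ∂μ := by
            refine lintegral_mono fun y => ?_
            have hr : Measurable (fun z => ‖k' y z‖ₑ) :=
              hm'.comp (measurable_const.prodMk measurable_id)
            rw [lintegral_const_mul _ hr]
            exact mul_le_mul_right (h1' y) _
        _ = (∫⁻ y, ‖k x y‖ₑ ∂μ) * C' := lintegral_mul_const _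
            (hm.comp (measurable_const.prodMk measurable_id))
        _ ≤ C * C' := mul_le_mul_left (h1 x) _
        _ = ((C * C' : ℝ≥0) : ℝ≥0∞) := by push_cast; rfl
    · refine (lintegral_mono fun x => hle x z).trans ?_
      rw [lintegral_lintegral_swap (f := fun x y => ‖k x y‖ₑ * ‖k' y z‖ₑ)
        ((hm.mul (hm'.comp (measurable_snd.prodMk measurable_const))).aemeasurable)]
      calc ∫⁻ y, ∫⁻ x, ‖k x y‖ₑ * ‖k' y z‖ₑ ∂μ ∂μ
          ≤ ∫⁻ y, C * ‖k' y z‖ₑ ∂μ := by
            refine lintegral_mono fun y => ?_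
            have hr : Measurable (fun x => ‖k x y‖ₑ) :=
              hm.comp (measurable_id.prodMk measurable_const)
            rw [lintegral_mul_const _ hr]
            exact mul_le_mul_left (h2 y) _
        _ = C * ∫⁻ y, ‖k' y z‖ₑ ∂μ := lintegral_const_mul _
            (hm'.comp (measurable_id.prodMk measurable_const))
        _ ≤ C * C' := mul_le_mul_right (h2' z) _
        _ = ((C * C' : ℝ≥0) : ℝ≥0∞) := by push_cast; rfl

/-- the absolute value of a kernel -/
theorem abs (hk : IsFK G μ k) : IsFK G μ (fun x y => ((‖k x y‖ : ℝ) : ℂ)) where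
  meas := Complex.measurable_ofReal.comp hk.meas.norm
  inv g x y := by rw [hk.inv]
  bdd := by
    obtain ⟨C, h1, h2⟩ := hk.bdd
    refine ⟨C, fun x => ?_, fun y => ?_⟩
    · refine le_trans (le_of_eq (lintegral_congr fun y => ?_)) (h1 x)
      rw [← ofReal_norm, Complex.norm_real, norm_norm, ofReal_norm]
    · refine le_trans (le_of_eq (lintegral_congr fun x => ?_)) (h2 y)
      rw [← ofReal_norm, Complex.norm_real, norm_norm, ofReal_norm]

/-- double integrability -/
theorem ae_double (hk : IsFK G μ k) (hk' : IsFK G μ k') (hw : IsWt G μ w) {F : Y → ℂ}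
    (hm : Measurable F) (hi : ∀ (g : G) y, F (g • y) = F y) (hF : MemLp F 2 (wtM μ w)) :
    ∀ᵐ x ∂μ, Integrable (fun p : Y × Y => k x p.1 * (k' p.1 p.2 * F p.2)) (μ.prod μ) := by
  have hm' : Measurable (fun y => ((‖F y‖ : ℝ) : ℂ)) := Complex.measurable_ofReal.comp hm.norm
  have hi' : ∀ (g : G) y, ((‖F (g • y)‖ : ℝ) : ℂ) = ((‖F y‖ : ℝ) : ℂ) := fun g y => by rw [hi]
  have hF' : MemLp (fun y => ((‖F y‖ : ℝ) : ℂ)) 2 (wtM μ w) := hF.norm.ofReal
  set J : Y → ℂ := hk'.abs.cor.app (fun y => ((‖F y‖ : ℝ) : ℂ)) with hJ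
  have hJm : Measurable J := hk'.abs.cor.measurable_app hm'
  have hJi : ∀ (g : G) y, J (g • y) = J y := hk'.abs.cor.app_inv hi'
  have hJL : MemLp J 2 (wtM μ w) := (hk'.abs.cor.fop hw).memLp hm' hi' hF'
  have hJe : ∀ y, J y = ((∫ z, ‖k' y z * F z‖ ∂μ : ℝ) : ℂ) := by
    intro y
    rw [hJ, hk'.abs.app_eq, ← integral_complex_ofReal]
    refine integral_congr_ae (Filter.Eventually.of_forall fun z => ?_)
    simp
  have h2 := hk'.integrable hw hm hi hF
  have hac : ∀ x, (μ.withDensity fun y => ((‖k x y‖₊ : ℝ≥0) : ℝ≥0∞)) ≪ μ := fun x =>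
    withDensity_absolutelyContinuous _ _
  filter_upwards [hk.integrable hw hJm hJi hJL] with x hx
  have hmm : AEStronglyMeasurable (fun p : Y × Y => k x p.1 * (k' p.1 p.2 * F p.2))
      (μ.prod μ) := by
    refine Measurable.aestronglyMeasurable ?_
    exact ((hk.meas.comp (measurable_const.prodMk measurable_id)).comp measurable_fst).mul
      (hk'.meas.mul (hm.comp measurable_snd))
  rw [integrable_prod_iff hmm]
  constructor
  · filter_upwards [h2] with y hy
    exact hy.const_mul (k x y)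
  · refine hx.norm.congr (Filter.Eventually.of_forall fun y => ?_)
    simp only [norm_mul]
    rw [hJe]
    simp_rw [norm_mul]
    rw [Complex.norm_real, Real.norm_of_nonneg (integral_nonneg fun z => by positivity),
      ← integral_const_mul]

/-- composition -/
theorem op_mul (hk : IsFK G μ k) (hk' : IsFK G μ k') (hw : IsWt G μ w) :
    hk.op hw * hk'.op hw = (hk.cvK hk').op hw := by
  refine (hk.cvK hk').op_eq hw fun f => ?_
  have hm : Measurable (afn f) := (HA.stronglyMeasurable_fn f).measurable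
  filter_upwards [hk.op_ae hw (hk'.op hw f), hk.ae_double hk' hw hm (HA.afn_smul f)
    (HA.memLp_fn hw f)] with x h1 h2
  change afn (hk.op hw (hk'.op hw f)) x = _
  rw [h1]
  have h3 : ∫ y, k x y * afn (hk'.op hw f) y ∂μ = ∫ y, ∫ z, k x y * (k' y z * afn f z) ∂μ ∂μ := by
    refine integral_congr_ae ?_
    filter_upwards [hk'.op_ae hw f] with y hy
    rw [hy, ← integral_const_mul]
  rw [h3, integral_integral_swap h2]
  refine integral_congr_ae (Filter.Eventually.of_forall fun z => ?_)
  change _ = (∫ y, k x y * k' y z ∂μ) * afn f z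
  rw [← integral_mul_const]
  refine integral_congr_ae (Filter.Eventually.of_forall fun y => ?_)
  ring

end IsFK

end Fermat.Agent.LT.FA
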