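import Mathlib

/-!
# Fundamental domains of countable groups
-/

set_option autoImplicit false
set_option linter.unusedSectionVars false

open scoped ENNReal Pointwise Topology
open MeasureTheory Set

namespace Fermat.Agent.LT.FA

section existence

variable {G Y : Type*} [Group G] [Countable G] [TopologicalSpace Y] [SecondCountableTopology Y]
  [MeasurableSpace Y] [OpensMeasurableSpace Y] [MulAction G Y] [ContinuousConstSMul G Y]

/-- **Existence of fundamental domains** for actions which are free and properly discontinuous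
almost everywhere. -/
theorem exists_isFundamentalDomain (μ : Measure Y)
    (hfree : ∀ᵐ y ∂μ, ∃ U ∈ 𝓝 y, ∀ g : G, g ≠ 1 → Disjoint (g • U) U) :
    ∃ D : Set Y, MeasurableSet D ∧ (∀ g : G, g ≠ 1 → Disjoint (g • D) D) ∧
      IsFundamentalDomain G D μ := by
  classical
  -- the good basis elements
  let W : Set (Set Y) := {B ∈ TopologicalSpace.countableBasis Y |
    ∀ g : G, g ≠ 1 → Disjoint (g • B) B}
  have hW : W.Countable := (TopologicalSpace.countable_countableBasis Y).mono fun B hB => hB.1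
  have hWo : ∀ B ∈ W, IsOpen B := fun B hB => TopologicalSpace.isOpen_of_mem_countableBasis hB.1
  obtain ⟨B, hB⟩ : ∃ B : ℕ → Set Y, ∀ n, (B n ∈ W ∨ B n = ∅) ∧ ∀ C ∈ W, ∃ n, B n = C := by
    have h1 : (insert ∅ W).Countable := hW.insert _
    obtain ⟨B, hB⟩ := h1.exists_eq_range (insert_nonempty _ _)
    refine ⟨B, fun n => ⟨?_, fun C hC => ?_⟩⟩
    · have : B n ∈ insert ∅ W := hB ▸ mem_range_self n
      rcases this with h | h
      · exact Or.inr h
      · exact Or.inl h
    · have : C ∈ range B := hB ▸ mem_insert_of_mem _ hC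
      exact this
  have hBo : ∀ n, IsOpen (B n) := fun n => by
    rcases (hB n).1 with h | h
    · exact hWo _ h
    · rw [h]; exact isOpen_empty
  have hBd : ∀ n (g : G), g ≠ 1 → Disjoint (g • B n) (B n) := fun n g hg => by
    rcases (hB n).1 with h | h
    · exact h.2 g hg
    · rw [h]; exact disjoint_empty _
  let GB : ℕ → Set Y := fun n => ⋃ g : G, g • B n
  have hGBo : ∀ n, IsOpen (GB n) := fun n => isOpen_iUnion fun g => (hBo n).smul g
  have hGB : ∀ n (g : G) (x : Y), g • x ∈ GB n ↔ x ∈ GB n := by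
    have h1 : ∀ n (g : G) (x : Y), x ∈ GB n → g • x ∈ GB n := by
      intro n g x hx
      obtain ⟨h, hh⟩ := mem_iUnion.mp hx
      refine mem_iUnion.mpr ⟨g * h, ?_⟩
      rw [mul_smul]
      exact smul_mem_smul_set hh
    intro n g x
    refine ⟨fun hx => ?_, h1 n g x⟩
    have := h1 n g⁻¹ _ hx
    rwa [inv_smul_smul] at this
  let D : Set Y := ⋃ n, (B n \ ⋃ m ∈ {m | m < n}, GB m)
  have hDm : MeasurableSet D := MeasurableSet.iUnion fun n => (hBo n).measurableSet.diff
    (MeasurableSet.biUnion (to_countable _) fun m _ => (hGBo m).measurableSet)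
  have hDdisj : ∀ g : G, g ≠ 1 → Disjoint (g • D) D := by
    intro g hg
    rw [Set.disjoint_left]
    intro x hx hxD
    obtain ⟨n, hn, hn'⟩ := mem_iUnion.mp hxD
    obtain ⟨m, hm, hm'⟩ := mem_iUnion.mp (mem_smul_set_iff_inv_smul_mem.mp hx)
    simp only [mem_iUnion, not_exists] at hn' hm'
    have hxn : ∀ k, k < n → x ∉ GB k := fun k hk h => hn' k hk h
    have hxm : ∀ k, k < m → x ∉ GB k := fun k hk h => hm' k hk ((hGB k g⁻¹ x).mpr h)
    have h1 : x ∈ GB n := mem_iUnion.mpr ⟨1, by rwa [one_smul]⟩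
    have h2 : x ∈ GB m := mem_iUnion.mpr ⟨g, mem_smul_set_iff_inv_smul_mem.mpr hm⟩
    rcases lt_trichotomy m n with h | h | h
    · exact hxn m h h2
    · subst h
      exact (Set.disjoint_left.mp (hBd m g hg)) (mem_smul_set_iff_inv_smul_mem.mpr hm) hn
    · exact hxm n h h1
  refine ⟨D, hDm, hDdisj, ⟨hDm.nullMeasurableSet, ?_, ?_⟩⟩
  · filter_upwards [hfree] with y hy
    obtain ⟨U, hU, hUg⟩ := hy
    obtain ⟨V, hVb, hyV, hVU⟩ := (TopologicalSpace.isBasis_countableBasis Y).mem_nhds_iff.mp hU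
    have hVW : V ∈ W := ⟨hVb, fun g hg => (hUg g hg).mono (smul_set_mono hVU) hVU⟩
    obtain ⟨n₀, hn₀⟩ := (hB 0).2 V hVW
    have hex : ∃ n, y ∈ GB n := ⟨n₀, mem_iUnion.mpr ⟨1, by rw [hn₀, one_smul]; exact hyV⟩⟩
    have h1 := Nat.find_spec hex
    have h2 : ∀ m, m < Nat.find hex → y ∉ GB m := fun m hm => Nat.find_min hex hm
    obtain ⟨g, hg⟩ := mem_iUnion.mp h1
    refine ⟨g⁻¹, mem_iUnion.mpr ⟨Nat.find hex, mem_smul_set_iff_inv_smul_mem.mp hg, ?_⟩⟩
    simp only [mem_iUnion, not_exists]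
    intro m hm h3
    exact h2 m hm ((hGB m g⁻¹ y).mp h3)
  · intro g h hgh
    refine Disjoint.aedisjoint ?_
    change Disjoint (g • D) (h • D)
    have h1 : h⁻¹ * g ≠ 1 := fun h0 => hgh (by rw [inv_mul_eq_one] at h0; exact h0.symm)
    have h2 := hDdisj _ h1
    rw [← Set.disjoint_smul_set (a := h)] at h2
    rwa [smul_smul, mul_inv_cancel_left] at h2

end existence

end Fermat.Agent.LT.FA
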