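import Mathlib

/-!
# Hilbert–Schmidt operators and the trace of a product of two of them
-/

set_option autoImplicit false

open scoped InnerProductSpace ENNReal NNReal

namespace Fermat.Agent.LT.FA

variable {H : Type*} [NormedAddCommGroup H] [InnerProductSpace ℂ H]
variable {J J' : Type*}

theorem hasSum_norm_sq (b : HilbertBasis J ℂ H) (x : H) :
    HasSum (fun j => ‖⟪b j, x⟫_ℂ‖ ^ 2) (‖x‖ ^ 2) := by
  have h := b.hasSum_inner_mul_inner x x
  have h2 : HasSum (fun j => (RCLike.re (⟪x, b j⟫_ℂ * ⟪b j, x⟫_ℂ))) (RCLike.re ⟪x, x⟫_ℂ) :=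
    RCLike.hasSum_re (𝕜 := ℂ) h
  rw [inner_self_eq_norm_sq] at h2
  convert h2 using 2 with j
  rw [← inner_conj_symm x (b j), RCLike.conj_mul]
  norm_cast

theorem tsum_enorm_sq (b : HilbertBasis J ℂ H) (x : H) :
    ∑' j, ‖⟪b j, x⟫_ℂ‖ₑ ^ 2 = ‖x‖ₑ ^ 2 := by
  have h := hasSum_norm_sq b x
  have h2 := ENNReal.ofReal_tsum_of_nonneg (fun j => sq_nonneg ‖⟪b j, x⟫_ℂ‖) h.summable
  rw [h.tsum_eq] at h2
  rw [← ofReal_norm, ← ENNReal.ofReal_pow (norm_nonneg _), h2]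
  congr 1
  ext j
  rw [← ofReal_norm, ← ENNReal.ofReal_pow (norm_nonneg _)]

variable [CompleteSpace H]

/-- the squared Hilbert–Schmidt norm in a basis -/
noncomputable def hsSq (b : HilbertBasis J ℂ H) (T : H →L[ℂ] H) : ℝ≥0∞ := ∑' j, ‖T (b j)‖ₑ ^ 2

theorem hsSq_adjoint (b : HilbertBasis J ℂ H) (b' : HilbertBasis J' ℂ H) (T : H →L[ℂ] H) :
    hsSq b T = hsSq b' (ContinuousLinearMap.adjoint T) := by
  have h1 : hsSq b T = ∑' j, ∑' k, ‖⟪b' k, T (b j)⟫_ℂ‖ₑ ^ 2 := by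
    rw [hsSq]
    congr 1
    ext j
    rw [tsum_enorm_sq]
  rw [h1, ENNReal.tsum_comm, hsSq]
  congr 1
  ext k
  rw [← tsum_enorm_sq b]
  congr 1
  ext j
  rw [← ContinuousLinearMap.adjoint_inner_left, ← ofReal_norm, ← ofReal_norm, norm_inner_symm]

theorem hsSq_eq (b : HilbertBasis J ℂ H) (b' : HilbertBasis J' ℂ H) (T : H →L[ℂ] H) :
    hsSq b T = hsSq b' T := by
  rw [hsSq_adjoint b b' T, hsSq_adjoint b' b', ContinuousLinearMap.adjoint_adjoint]

/-- a Hilbert basis -/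
noncomputable def stdSet (H : Type*) [NormedAddCommGroup H] [InnerProductSpace ℂ H]
    [CompleteSpace H] : Set H := (exists_hilbertBasis ℂ H).choose

/-- a Hilbert basis -/
noncomputable def stdB (H : Type*) [NormedAddCommGroup H] [InnerProductSpace ℂ H]
    [CompleteSpace H] : HilbertBasis (stdSet H) ℂ H := (exists_hilbertBasis ℂ H).choose_spec.choose

/-- Hilbert–Schmidt operators -/
def IsHS (T : H →L[ℂ] H) : Prop := hsSq (stdB H) T ≠ ∞

theorem isHS_iff (b : HilbertBasis J ℂ H) (T : H →L[ℂ] H) : IsHS T ↔ hsSq b T ≠ ∞ := by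
  rw [IsHS, hsSq_eq (stdB H) b]

theorem IsHS.adjoint {T : H →L[ℂ] H} (h : IsHS T) : IsHS (ContinuousLinearMap.adjoint T) := by
  rw [IsHS, ← hsSq_adjoint (stdB H)]
  exact h

theorem IsHS.summable {T : H →L[ℂ] H} (h : IsHS T) (b : HilbertBasis J ℂ H) :
    Summable fun j => ‖T (b j)‖ ^ 2 := by
  rw [isHS_iff b, hsSq] at h
  have h2 := ENNReal.summable_toReal h
  convert h2 using 2 with j
  simp

theorem isHS_of_summable {T : H →L[ℂ] H} (b : HilbertBasis J ℂ H)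
    (h : Summable fun j => ‖T (b j)‖ ^ 2) : IsHS T := by
  rw [isHS_iff b, hsSq]
  have h2 := h.tsum_ofReal_ne_top
  convert h2 using 4 with j
  rw [ENNReal.ofReal_pow (norm_nonneg _), ofReal_norm]

theorem IsHS.comp_left {T : H →L[ℂ] H} (h : IsHS T) (A : H →L[ℂ] H) : IsHS (A * T) := by
  apply isHS_of_summable (stdB H)
  refine Summable.of_nonneg_of_le (fun j => sq_nonneg _) (fun j => ?_)
    ((h.summable (stdB H)).mul_left (‖A‖ ^ 2))
  rw [mul_apply_eq_comp, ← mul_pow]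
  exact pow_le_pow_left₀ (norm_nonneg _) (A.le_opNorm _) 2

theorem IsHS.comp_right {T : H →L[ℂ] H} (h : IsHS T) (A : H →L[ℂ] H) : IsHS (T * A) := by
  have h1 := (h.adjoint.comp_left (ContinuousLinearMap.adjoint A)).adjoint
  have h2 : ContinuousLinearMap.adjoint (ContinuousLinearMap.adjoint A *
      ContinuousLinearMap.adjoint T) = T * A := by
    change ContinuousLinearMap.adjoint (ContinuousLinearMap.adjoint A ∘L
      ContinuousLinearMap.adjoint T) = T * A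
    rw [ContinuousLinearMap.adjoint_comp, ContinuousLinearMap.adjoint_adjoint,
      ContinuousLinearMap.adjoint_adjoint]
    rfl
  rwa [h2] at h1

/-- the trace of `X * Y` -/
noncomputable def hsTrace (X Y : H →L[ℂ] H) : ℂ :=
  ∑' j, ⟪ContinuousLinearMap.adjoint X (stdB H j), Y (stdB H j)⟫_ℂ

theorem summable_prod_of_isHS {X Y : H →L[ℂ] H} (hX : IsHS X) (hY : IsHS Y)
    (b : HilbertBasis J ℂ H) (b' : HilbertBasis J' ℂ H) :
    Summable fun q : J × J' =>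
      ⟪ContinuousLinearMap.adjoint X (b q.1), b' q.2⟫_ℂ * ⟪b' q.2, Y (b q.1)⟫_ℂ := by
  have key : ∀ Z : H →L[ℂ] H, IsHS Z → Summable fun q : J × J' => ‖⟪b' q.2, Z (b q.1)⟫_ℂ‖ ^ 2 := by
    intro Z hZ
    rw [summable_prod_of_nonneg (fun q => sq_nonneg _)]
    refine ⟨fun j => (hasSum_norm_sq b' (Z (b j))).summable, ?_⟩
    convert hZ.summable b using 2 with j
    exact (hasSum_norm_sq b' (Z (b j))).tsum_eq
  refine Summable.of_norm_bounded (((key _ hX.adjoint).add (key _ hY))) fun q => ?_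
  rw [norm_mul, ← inner_conj_symm, RCLike.norm_conj]
  nlinarith [sq_nonneg (‖⟪b' q.2, ContinuousLinearMap.adjoint X (b q.1)⟫_ℂ‖ -
    ‖⟪b' q.2, Y (b q.1)⟫_ℂ‖), norm_nonneg ⟪b' q.2, ContinuousLinearMap.adjoint X (b q.1)⟫_ℂ,
    norm_nonneg ⟪b' q.2, Y (b q.1)⟫_ℂ, sq_nonneg ‖⟪b' q.2, ContinuousLinearMap.adjoint X (b q.1)⟫_ℂ‖,
    sq_nonneg ‖⟪b' q.2, Y (b q.1)⟫_ℂ‖]

theorem summable_trace {X Y : H →L[ℂ] H} (hX : IsHS X) (hY : IsHS Y) (b : HilbertBasis J ℂ H) :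
    Summable fun j => ⟪ContinuousLinearMap.adjoint X (b j), Y (b j)⟫_ℂ := by
  refine Summable.of_norm_bounded ((hX.adjoint.summable b).add (hY.summable b)) fun j => ?_
  refine (norm_inner_le_norm _ _).trans ?_
  nlinarith [sq_nonneg (‖ContinuousLinearMap.adjoint X (b j)‖ - ‖Y (b j)‖),
    sq_nonneg ‖ContinuousLinearMap.adjoint X (b j)‖, sq_nonneg ‖Y (b j)‖]

theorem tsum_trace_swap {X Y : H →L[ℂ] H} (hX : IsHS X) (hY : IsHS Y) (b : HilbertBasis J ℂ H)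
    (b' : HilbertBasis J' ℂ H) :
    ∑' j, ⟪ContinuousLinearMap.adjoint X (b j), Y (b j)⟫_ℂ =
      ∑' k, ⟪ContinuousLinearMap.adjoint Y (b' k), X (b' k)⟫_ℂ := by
  have h1 : ∀ j, ⟪ContinuousLinearMap.adjoint X (b j), Y (b j)⟫_ℂ =
      ∑' k, ⟪ContinuousLinearMap.adjoint X (b j), b' k⟫_ℂ * ⟪b' k, Y (b j)⟫_ℂ := fun j =>
    (b'.tsum_inner_mul_inner _ _).symm
  have h2 : ∀ k, ⟪ContinuousLinearMap.adjoint Y (b' k), X (b' k)⟫_ℂ =
      ∑' j, ⟪ContinuousLinearMap.adjoint X (b j), b' k⟫_ℂ * ⟪b' k, Y (b j)⟫_ℂ := by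
    intro k
    rw [← b.tsum_inner_mul_inner]
    congr 1
    ext j
    rw [ContinuousLinearMap.adjoint_inner_left, ContinuousLinearMap.adjoint_inner_left, mul_comm]
  simp_rw [h1, h2]
  exact Summable.tsum_comm (f := fun j k =>
    ⟪ContinuousLinearMap.adjoint X (b j), b' k⟫_ℂ * ⟪b' k, Y (b j)⟫_ℂ)
    (summable_prod_of_isHS hX hY b b') |>.symm

theorem hasSum_hsTrace {X Y : H →L[ℂ] H} (hX : IsHS X) (hY : IsHS Y) (b : HilbertBasis J ℂ H) :
    HasSum (fun j => ⟪ContinuousLinearMap.adjoint X (b j), Y (b j)⟫_ℂ) (hsTrace X Y) := by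
  have h : hsTrace X Y = ∑' j, ⟪ContinuousLinearMap.adjoint X (b j), Y (b j)⟫_ℂ := by
    rw [hsTrace, tsum_trace_swap hX hY (stdB H) b, tsum_trace_swap hY hX b b]
  rw [h]
  exact (summable_trace hX hY b).hasSum

theorem hsTrace_comm {X Y : H →L[ℂ] H} (hX : IsHS X) (hY : IsHS Y) :
    hsTrace X Y = hsTrace Y X := tsum_trace_swap hX hY _ _

end Fermat.Agent.LT.FA
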