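import Mathlib

/-!
# Isolation by the Stone–Weierstrass theorem
-/

set_option autoImplicit false

open scoped Topology
open Filter

namespace Fermat.Agent.LT.FA

variable {ι : Type*}

/-- the compact cube -/
abbrev Cube (R : ι → ℝ) : Type _ := {s : ι → ℝ // s ∈ Set.univ.pi fun i => Set.Icc (-R i) (R i)}

instance compactSpace_cube (R : ι → ℝ) : CompactSpace (Cube R) :=
  isCompact_iff_compactSpace.mp (isCompact_univ_pi fun _ => isCompact_Icc)

/-- coordinates -/
def coordC (R : ι → ℝ) (i : ι) : C(Cube R, ℝ) :=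
  ⟨fun s => s.1 i, (continuous_apply i).comp continuous_subtype_val⟩

theorem summable_mul_cont {X : Type*} [TopologicalSpace X] [CompactSpace X] {c : X → ℂ}
    (hc : Summable fun s => ‖c s‖) (f : C(X, ℝ)) : Summable fun s => ‖c s * (f s : ℂ)‖ := by
  refine Summable.of_nonneg_of_le (fun s => norm_nonneg _) (fun s => ?_) (hc.mul_right ‖f‖)
  rw [norm_mul, Complex.norm_real]
  exact mul_le_mul_of_nonneg_left (f.norm_coe_le_norm s) (norm_nonneg _)

/-- the functional -/
noncomputable def momL {X : Type*} [TopologicalSpace X] [CompactSpace X] {c : X → ℂ}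
    (hc : Summable fun s => ‖c s‖) : C(X, ℝ) →L[ℝ] ℂ :=
  LinearMap.mkContinuous
    { toFun := fun f => ∑' s, c s * (f s : ℂ)
      map_add' := fun f g => by
        rw [← ((summable_mul_cont hc f).of_norm).tsum_add ((summable_mul_cont hc g).of_norm)]
        refine tsum_congr fun s => ?_
        rw [ContinuousMap.add_apply, Complex.ofReal_add, mul_add]
      map_smul' := fun r f => by
        rw [RingHom.id_apply, Complex.real_smul, ← tsum_mul_left]
        refine tsum_congr fun s => ?_
        rw [ContinuousMap.smul_apply, smul_eq_mul, Complex.ofReal_mul]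
        ring } (∑' s, ‖c s‖) (fun f => by
      change ‖∑' s, c s * (f s : ℂ)‖ ≤ _
      refine (norm_tsum_le_tsum_norm (summable_mul_cont hc f)).trans ?_
      rw [← tsum_mul_right]
      refine Summable.tsum_le_tsum (fun s => ?_) (summable_mul_cont hc f) (hc.mul_right ‖f‖)
      rw [norm_mul, Complex.norm_real]
      exact mul_le_mul_of_nonneg_left (f.norm_coe_le_norm s) (norm_nonneg _))

theorem momL_apply {X : Type*} [TopologicalSpace X] [CompactSpace X] {c : X → ℂ}
    (hc : Summable fun s => ‖c s‖) (f : C(X, ℝ)) : momL hc f = ∑' s, c s * (f s : ℂ) := rfl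

theorem eq_zero_of_momL {X : Type*} [TopologicalSpace X] [CompactSpace X] [T2Space X] {c : X → ℂ}
    (hc : Summable fun s => ‖c s‖) (h : ∀ f : C(X, ℝ), ∑' s, c s * (f s : ℂ) = 0) (s₀ : X) :
    c s₀ = 0 := by
  classical
  rw [← norm_eq_zero]
  refine le_antisymm (le_of_forall_pos_le_add fun ε hε => ?_) (norm_nonneg _)
  rw [zero_add]
  have h1 := tendsto_tsum_compl_atTop_zero fun s => ‖c s‖
  have h2 : ∀ᶠ G : Finset X in atTop, ∑' s : {s // s ∉ G}, ‖c s‖ < ε :=
    h1.eventually (gt_mem_nhds hε)
  obtain ⟨G, hG, hs₀⟩ := (h2.and (eventually_ge_atTop {s₀})).exists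
  have hs₀' : s₀ ∈ G := hs₀ (Finset.mem_singleton_self s₀)
  obtain ⟨f, hf0, hf1, hf01⟩ := exists_continuous_zero_one_of_isClosed
    (s := ((G.erase s₀ : Finset X) : Set X)) (t := {s₀})
    (Finset.finite_toSet _).isClosed isClosed_singleton (by simp)
  have h3 := h f
  have hsum := (summable_mul_cont hc f).of_norm
  rw [← hsum.sum_add_tsum_compl (s := G)] at h3
  have h4 : ∑ s ∈ G, c s * (f s : ℂ) = c s₀ := by
    rw [Finset.sum_eq_single_of_mem s₀ hs₀']
    · rw [hf1 rfl]; simp
    · intro s hs hne
      rw [hf0 (by simpa [hne] using hs)]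
      simp
  rw [h4] at h3
  have h5 : c s₀ = -∑' s : {s // s ∉ G}, c s * (f s : ℂ) := eq_neg_of_add_eq_zero_left h3
  rw [h5, norm_neg]
  refine le_trans ?_ hG.le
  refine (norm_tsum_le_tsum_norm ((summable_mul_cont hc f).subtype _)).trans ?_
  refine Summable.tsum_le_tsum (fun s => ?_) ((summable_mul_cont hc f).subtype _) (hc.subtype _)
  rw [norm_mul, Complex.norm_real]
  have h6 : ‖f s‖ ≤ 1 := by
    rw [Real.norm_eq_abs, abs_le]
    exact ⟨by linarith [(hf01 (s : X)).1], (hf01 (s : X)).2⟩
  calc ‖c s‖ * ‖f s‖ ≤ ‖c s‖ * 1 := mul_le_mul_of_nonneg_left h6 (norm_nonneg _)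
    _ = ‖c s‖ := mul_one _

/-- **Isolation.** -/
theorem eq_zero_of_moments (R : ι → ℝ) (c : (ι → ℝ) → ℂ) (hc : Summable fun s => ‖c s‖)
    (hR : ∀ s, c s ≠ 0 → ∀ i, |s i| ≤ R i)
    (hm : ∀ l : List ι, ∑' s, c s * (((l.map s).prod : ℝ) : ℂ) = 0) (s₀ : ι → ℝ) : c s₀ = 0 := by
  by_cases hs₀ : s₀ ∈ Set.univ.pi fun i => Set.Icc (-R i) (R i)
  swap
  · by_contra h
    exact hs₀ (Set.mem_univ_pi.mpr fun i => abs_le.mp (hR s₀ h i))
  let c' : Cube R → ℂ := fun s => c s.1
  have hc' : Summable fun s => ‖c' s‖ := hc.subtype _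
  have key : momL hc' = 0 := by
    let A : Subalgebra ℝ C(Cube R, ℝ) := Algebra.adjoin ℝ (Set.range (coordC R))
    have hA : A.topologicalClosure = ⊤ := by
      apply ContinuousMap.subalgebra_topologicalClosure_eq_top_of_separatesPoints
      intro x y hxy
      obtain ⟨i, hi⟩ := Function.ne_iff.mp (fun h => hxy (Subtype.ext h))
      exact ⟨coordC R i, ⟨coordC R i, Algebra.subset_adjoin ⟨i, rfl⟩, rfl⟩, hi⟩
    have h1 : ∀ f ∈ A, momL hc' f = 0 := by
      intro f hf
      rw [← Subalgebra.mem_toSubmodule, Algebra.adjoin_eq_span] at hf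
      induction hf using Submodule.span_induction with
      | mem x hx =>
        obtain ⟨l, hl, rfl⟩ := Submonoid.exists_list_of_mem_closure hx
        have h2 : l ∈ Set.range (List.map (coordC R)) := by
          rw [Set.range_list_map]; exact hl
        obtain ⟨l', rfl⟩ := h2
        rw [momL_apply]
        have h3 : ∀ s : Cube R, (l'.map (coordC R)).prod s = (l'.map s.1).prod := by
          intro s
          induction l' with
          | nil => rfl
          | cons i l' ih =>
            rw [List.map_cons, List.prod_cons, List.map_cons, List.prod_cons,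
              ContinuousMap.mul_apply, ih (fun y hy => hl y (List.mem_cons_of_mem _ hy))
                (Submonoid.list_prod_mem _ fun y hy => Submonoid.subset_closure
                  (hl y (List.mem_cons_of_mem _ hy)))]
            rfl
        simp_rw [h3]
        have h4 := hm l'
        rw [← tsum_subtype_eq_of_support_subset
          (s := Set.univ.pi fun i => Set.Icc (-R i) (R i))] at h4
        · exact h4
        · intro s hs
          exact Set.mem_univ_pi.mpr fun i => abs_le.mp (hR s (left_ne_zero_of_mul hs) i)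
      | zero => exact map_zero _
      | add x y _ _ hx hy => rw [map_add, hx, hy, add_zero]
      | smul r x _ hx => rw [map_smul, hx, smul_zero]
    ext f
    have hf : f ∈ A.topologicalClosure := by rw [hA]; trivial
    have hcl : IsClosed {f : C(Cube R, ℝ) | momL hc' f = 0} :=
      isClosed_eq (momL hc').continuous continuous_const
    exact closure_minimal (s := (A : Set C(Cube R, ℝ))) h1 hcl hf
  exact eq_zero_of_momL hc' (fun f => by rw [← momL_apply hc', key]; rfl) ⟨s₀, hs₀⟩

end Fermat.Agent.LT.FA
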