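import Fermat.Agent.LT.FA.Decomp
import Fermat.Agent.LT.FA.Moments

/-!
# Comparison of two trace formulas: isolation of joint eigensystems
-/

set_option autoImplicit false

open scoped InnerProductSpace ENNReal NNReal Topology
open Filter Module.End

namespace Fermat.Agent.LT.FA

section One

variable {H : Type*} [NormedAddCommGroup H] [InnerProductSpace ℂ H]
variable {ι : Type*} {T : ι → H →L[ℂ] H}

theorem exists_of_cTr_ne_zero {V : H →L[ℂ] H} {W : Submodule ℂ H} [FiniteDimensional ℂ W]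
    (h : cTr V W ≠ 0) : ∃ x ∈ W, ⟪x, V x⟫_ℂ ≠ 0 := by
  obtain ⟨a, -, ha⟩ := Finset.exists_ne_zero_of_sum_ne_zero h
  exact ⟨_, Subtype.mem _, ha⟩

theorem abs_le_of_mem_jointE {s : ι → ℝ} {x : H} (hx : x ∈ jointE T s) (hx0 : x ≠ 0) (i : ι) :
    |s i| ≤ ‖T i‖ := by
  have h1 := (T i).le_opNorm x
  rw [mem_jointE.mp hx i, norm_smul, Complex.norm_real, Real.norm_eq_abs] at h1
  exact le_of_mul_le_mul_right h1 (norm_pos_iff.mpr hx0)

open Classical in
/-- the weights of the trace -/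
noncomputable def wt (T : ι → H →L[ℂ] H) (iA iB : ι) (V : H →L[ℂ] H) (s : ι → ℝ) : ℂ :=
  if h : s iA ≠ 0 ∧ FiniteDimensional ℂ (jointE T s) then
    ((s iA * s iB : ℝ) : ℂ) * (haveI := h.2; cTr V (jointE T s)) else 0

theorem wt_ne_zero {iA iB : ι} {V : H →L[ℂ] H} {s : ι → ℝ} (h : wt T iA iB V s ≠ 0) (i : ι) :
    |s i| ≤ ‖T i‖ := by
  rw [wt] at h
  split_ifs at h with h1
  · have := h1.2
    obtain ⟨x, hx, hx0⟩ := exists_of_cTr_ne_zero (right_ne_zero_of_mul h)
    refine abs_le_of_mem_jointE hx (fun h0 => hx0 ?_) i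
    rw [h0, inner_zero_left]
  · exact absurd rfl h

variable [CompleteSpace H]

theorem hasSum_wt (hT : IsCommSymm T) (iA iB : ι) (hA : IsHS (T iA)) (hB : IsHS (T iB))
    (V : H →L[ℂ] H) (l : List ι) :
    HasSum (fun s : ι → ℝ => wt T iA iB V s * (((l.map s).prod : ℝ) : ℂ))
      (hsTrace (mulL T l * T iA) (T iB * V)) := by
  have hfin : ∀ s : {s : ι → ℝ // s iA ≠ 0}, FiniteDimensional ℂ (jointE T s.1) := fun s =>
    finiteDimensional_jointE hA.isCompactOperator s.2
  have h1 := hasSum_trace_decomp hT iA iB hA hB hfin V l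
  rw [← hasSum_subtype_iff_of_support_subset (s := {s : ι → ℝ | s iA ≠ 0})]
  · have e : ((fun s : ι → ℝ => wt T iA iB V s * (((l.map s).prod : ℝ) : ℂ)) ∘
        (fun s : {s : ι → ℝ // s iA ≠ 0} => (s : ι → ℝ))) =
        fun s : {s : ι → ℝ // s iA ≠ 0} =>
          ((s.1 iA * s.1 iB * (l.map s.1).prod : ℝ) : ℂ) * cTr V (jointE T s.1) := by
      funext s
      have h2 : s.1 iA ≠ 0 ∧ FiniteDimensional ℂ (jointE T s.1) := ⟨s.2, hfin s⟩
      rw [Function.comp_apply, wt, dif_pos h2]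
      push_cast
      ring
    exact e ▸ h1
  · intro s hs
    rw [Function.mem_support] at hs
    have h3 := left_ne_zero_of_mul hs
    rw [wt] at h3
    split_ifs at h3 with h4
    · exact h4.1
    · exact absurd rfl h3

end One

variable {HE HK : Type*} [NormedAddCommGroup HE] [InnerProductSpace ℂ HE] [CompleteSpace HE]
  [NormedAddCommGroup HK] [InnerProductSpace ℂ HK] [CompleteSpace HK] {ι : Type*}

/-- **Isolation theorem**: equality of traces implies equality for each joint eigensystem. -/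
theorem cTr_eq_of_trace_eq {TE : ι → HE →L[ℂ] HE} {TK : ι → HK →L[ℂ] HK}
    (hE : IsCommSymm TE) (hK : IsCommSymm TK) (iA iB : ι)
    (hEA : IsHS (TE iA)) (hEB : IsHS (TE iB)) (hKA : IsHS (TK iA)) (hKB : IsHS (TK iB))
    (V : HE →L[ℂ] HE) (W : HK →L[ℂ] HK)
    (htr : ∀ l : List ι, hsTrace (mulL TE l * TE iA) (TE iB * V) =
      hsTrace (mulL TK l * TK iA) (TK iB * W))
    (s : ι → ℝ) (hsA : s iA ≠ 0) (hsB : s iB ≠ 0)
    [FiniteDimensional ℂ (jointE TE s)] [FiniteDimensional ℂ (jointE TK s)] :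
    cTr V (jointE TE s) = cTr W (jointE TK s) := by
  have h1 := fun l => hasSum_wt hE iA iB hEA hEB V l
  have h2 := fun l => hasSum_wt hK iA iB hKA hKB W l
  have h3 := eq_zero_of_moments (fun i => max ‖TE i‖ ‖TK i‖)
    (fun s => wt TE iA iB V s - wt TK iA iB W s) (by
      have e1 := (h1 []).summable
      have e2 := (h2 []).summable
      have e3 := (e1.sub e2).norm
      refine e3.congr fun s => ?_
      simp) (by
      intro s hs i
      by_cases h : wt TE iA iB V s = 0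
      · have h' : wt TK iA iB W s ≠ 0 := by
          intro h'
          rw [h, h', sub_zero] at hs
          exact hs rfl
        exact (wt_ne_zero h' i).trans (le_max_right _ _)
      · exact (wt_ne_zero h i).trans (le_max_left _ _)) (by
      intro l
      have e1 := (h1 l).sub (h2 l)
      rw [htr l, sub_self] at e1
      rw [← e1.tsum_eq]
      refine tsum_congr fun s => ?_
      ring) s
  rw [sub_eq_zero, wt, wt, dif_pos ⟨hsA, inferInstance⟩, dif_pos ⟨hsA, inferInstance⟩] at h3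
  refine mul_left_cancel₀ ?_ h3
  rw [Ne, Complex.ofReal_eq_zero]
  exact mul_ne_zero hsA hsB

/-- **Transfer of a joint eigensystem.** -/
theorem exists_of_trace_eq {TE : ι → HE →L[ℂ] HE} {TK : ι → HK →L[ℂ] HK}
    (hE : IsCommSymm TE) (hK : IsCommSymm TK) (iA iB : ι)
    (hEA : IsHS (TE iA)) (hEB : IsHS (TE iB)) (hKA : IsHS (TK iA)) (hKB : IsHS (TK iB))
    (V : HE →L[ℂ] HE) (W : HK →L[ℂ] HK)
    (htr : ∀ l : List ι, hsTrace (mulL TE l * TE iA) (TE iB * V) =
      hsTrace (mulL TK l * TK iA) (TK iB * W))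
    (s : ι → ℝ) (hsA : s iA ≠ 0) (hsB : s iB ≠ 0)
    (hV : ∀ x ∈ jointE TE s, V x ∈ jointE TE s)
    (hne : LinearMap.trace ℂ (jointE TE s) ((V : HE →ₗ[ℂ] HE).restrict hV) ≠ 0) :
    ∃ x ∈ jointE TK s, ⟪x, W x⟫_ℂ ≠ 0 := by
  have h1 := finiteDimensional_jointE hEA.isCompactOperator hsA
  have h2 := finiteDimensional_jointE hKA.isCompactOperator hsA
  apply exists_of_cTr_ne_zero
  rw [← cTr_eq_of_trace_eq hE hK iA iB hEA hEB hKA hKB V W htr s hsA hsB, cTr_eq_trace V _ hV]
  exact hne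

end Fermat.Agent.LT.FA
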