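import Mathlib

/-!
# Traces twisted by a cyclic permutation of three commuting Iwahori–Hecke algebras

`σ` permutes cyclically three commuting copies of the Iwahori–Hecke algebra `⟨e, ω⟩` and `c` is
the (normalised) central character on the support of `B`. If `c² ≠ 1` then
`tr (B σ) = 2 tr (B e₀ e₁ e₂ σ)`.
-/

set_option autoImplicit false

open Module LinearMap

namespace Fermat.Agent.LT.FA

section Alg

variable {k M : Type*} [Field k] [AddCommGroup M] [Module k M]

/-- one step of the cyclic permutation -/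
theorem trace_step {B σ : End k M} {A : Fin 3 → End k M} (hσA : ∀ i, σ * A i = A (i + 1) * σ)
    (hBA : ∀ i, Commute B (A i)) (C : End k M) (i : Fin 3) :
    trace k M (B * (A i * C) * σ) = trace k M (B * (C * A (i + 1)) * σ) := by
  have h1 : B * (A i * C) * σ = A i * (B * C * σ) := by
    rw [← mul_assoc B, (hBA i).eq]; simp only [mul_assoc]
  have h2 : B * (C * A (i + 1)) * σ = (B * C * σ) * A i := by
    simp only [mul_assoc]; rw [← hσA i]
  rw [h1, h2, trace_mul_comm]

/-- the twisted trace is a trace function -/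
theorem trace_twist_comm {B σ : End k M} {A A' : Fin 3 → End k M}
    (hσA : ∀ i, σ * A i = A (i + 1) * σ) (hBA : ∀ i, Commute B (A i))
    (hAA' : ∀ i j, i ≠ j → Commute (A i) (A' j)) :
    trace k M (B * (A 0 * A' 0) * σ) = trace k M (B * (A' 0 * A 0) * σ) := by
  have h1 := trace_step hσA hBA (A' 0) 0
  have h2 := trace_step hσA hBA (A' 0) 1
  have h3 := trace_step hσA hBA (A' 0) 2
  have c1 : A' 0 * A (0 + 1) = A 1 * A' 0 := (hAA' 1 0 (by decide)).eq.symm
  have c2 : A' 0 * A (1 + 1) = A 2 * A' 0 := (hAA' 2 0 (by decide)).eq.symm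
  have c3 : A (2 + 1) = A 0 := rfl
  rw [c1] at h1
  rw [c2] at h2
  rw [c3] at h3
  rw [h1, h2, h3]

/-- three commuting idempotents permuted by `σ` -/
theorem trace_idem_three {B σ : End k M} {e : Fin 3 → End k M} (idem : ∀ i, e i * e i = e i)
    (ee : ∀ i j, Commute (e i) (e j)) (se : ∀ i, σ * e i = e (i + 1) * σ)
    (Be : ∀ i, Commute B (e i)) :
    trace k M (B * e 0 * σ) = trace k M (B * (e 0 * e 1 * e 2) * σ) := by
  have h3 := trace_step se Be (e 0) 0
  rw [idem 0, show e 0 * e (0 + 1) = e 0 * e 1 from rfl] at h3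
  rw [h3]
  -- the idempotent `X = e₀ e₁`
  have h4 : (e 0 * e 1) * (e 0 * e 1) = e 0 * e 1 := by
    rw [mul_assoc, ← mul_assoc (e 1), (ee 1 0).eq, mul_assoc (e 0), idem 1, ← mul_assoc,
      idem 0]
  have hBX : Commute B (e 0 * e 1) := (Be 0).mul_right (Be 1)
  have hσX : σ * (e 0 * e 1) = e 1 * e 2 * σ := by
    rw [← mul_assoc, se 0, mul_assoc, se 1, ← mul_assoc]; rfl
  have h5 : trace k M (B * (e 0 * e 1) * σ) = trace k M (B * (e 0 * e 1) * σ * (e 0 * e 1)) := by
    conv_lhs => rw [← h4, ← mul_assoc B, hBX.eq]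
    rw [show e 0 * e 1 * B * (e 0 * e 1) * σ = (e 0 * e 1) * (B * (e 0 * e 1) * σ) by
      simp only [mul_assoc], trace_mul_comm]
  rw [h5, mul_assoc _ σ, hσX]
  congr 1
  rw [show B * (e 0 * e 1) * (e 1 * e 2 * σ) = B * (e 0 * (e 1 * e 1) * e 2) * σ by
    simp only [mul_assoc], idem 1]

/-- data of three commuting Iwahori–Hecke algebras permuted by `σ` -/
structure IwData (σ B : End k M) (e ω : Fin 3 → End k M) (c : k) : Prop where
  idem : ∀ i, e i * e i = e i
  invol : ∀ i, ω i * ω i = 1
  ee : ∀ i j, Commute (e i) (e j)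
  eo : ∀ i j, i ≠ j → Commute (e i) (ω j)
  oo : ∀ i j, i ≠ j → Commute (ω i) (ω j)
  se : ∀ i, σ * e i = e (i + 1) * σ
  so : ∀ i, σ * ω i = ω (i + 1) * σ
  Be : ∀ i, Commute B (e i)
  Bo : ∀ i, Commute B (ω i)
  /-- the central character on the support of `B`, `c = z / (q + 1)` -/
  central : B * (e 0 * ω 0 * e 0 - (1 - e 0) * ω 0 * (1 - e 0)) = c • B

variable {σ B : End k M} {e ω : Fin 3 → End k M} {c : k}

theorem eoe {B e ω : End k M} (he : e * e = e)
    (hz : B * (e * ω * e - (1 - e) * ω * (1 - e)) = c • B) : B * (e * ω * e) = c • (B * e) := by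
  have h1 : (1 - e) * e = 0 := by rw [sub_mul, one_mul, he, sub_self]
  have h2 := congrArg (fun x => x * e) hz
  simp only [smul_mul_assoc] at h2
  rw [← h2, mul_assoc B]
  congr 1
  rw [sub_mul, show e * ω * e * e = e * ω * (e * e) by simp only [mul_assoc], he,
    show (1 - e) * ω * (1 - e) * e = (1 - e) * ω * ((1 - e) * e) by simp only [mul_assoc], h1,
    mul_zero, sub_zero]

theorem fof {B e ω : End k M} (he : e * e = e)
    (hz : B * (e * ω * e - (1 - e) * ω * (1 - e)) = c • B) :
    B * ((1 - e) * ω * (1 - e)) = -(c • (B * (1 - e))) := by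
  have h1 : e * (1 - e) = 0 := by rw [mul_sub, mul_one, he, sub_self]
  have h1' : (1 - e) * e = 0 := by rw [sub_mul, one_mul, he, sub_self]
  have hf : (1 - e) * (1 - e) = 1 - e := by rw [mul_sub, mul_one, h1', sub_zero]
  have h2 := congrArg (fun x => x * (1 - e)) hz
  simp only [smul_mul_assoc] at h2
  rw [← h2, mul_assoc B, ← mul_neg]
  congr 1
  rw [sub_mul (e * ω * e), show e * ω * e * (1 - e) = e * ω * (e * (1 - e)) by
    simp only [mul_assoc], h1,
    show (1 - e) * ω * (1 - e) * (1 - e) = (1 - e) * ω * ((1 - e) * (1 - e)) by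
      simp only [mul_assoc], hf, mul_zero, zero_sub, neg_neg]

theorem mid1 {B e ω : End k M} (he : e * e = e) (hω : ω * ω = 1)
    (hz : B * (e * ω * e - (1 - e) * ω * (1 - e)) = c • B) :
    B * ((e * ω * (1 - e)) * ((1 - e) * ω * e)) = (1 - c ^ 2) • (B * e) := by
  have h1 : (1 - e) * e = 0 := by rw [sub_mul, one_mul, he, sub_self]
  have hf : (1 - e) * (1 - e) = 1 - e := by rw [mul_sub, mul_one, h1, sub_zero]
  have h3 : (e * ω * (1 - e)) * ((1 - e) * ω * e) = e * ω * ω * e - (e * ω * e) * (e * ω * e) := by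
    rw [show (e * ω * (1 - e)) * ((1 - e) * ω * e) = e * ω * ((1 - e) * (1 - e)) * (ω * e) by
      simp only [mul_assoc], hf, show (e * ω * e) * (e * ω * e) = e * ω * (e * e) * (ω * e) by
      simp only [mul_assoc], he]
    noncomm_ring
  have h4 : B * ((e * ω * e) * (e * ω * e)) = c ^ 2 • (B * e) := by
    rw [← mul_assoc, eoe he hz, smul_mul_assoc,
      show B * e * (e * ω * e) = B * ((e * e) * ω * e) by simp only [mul_assoc], he, eoe he hz,
      smul_smul, pow_two]
  rw [h3, mul_sub, h4, show e * ω * ω * e = e * (ω * ω) * e by simp only [mul_assoc], hω, mul_one,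
    he, sub_smul, one_smul]

theorem mid2 {B e ω : End k M} (he : e * e = e) (hω : ω * ω = 1)
    (hz : B * (e * ω * e - (1 - e) * ω * (1 - e)) = c • B) :
    B * (((1 - e) * ω * e) * (e * ω * (1 - e))) = (1 - c ^ 2) • (B * (1 - e)) := by
  have h1 : (1 - e) * e = 0 := by rw [sub_mul, one_mul, he, sub_self]
  have hf : (1 - e) * (1 - e) = 1 - e := by rw [mul_sub, mul_one, h1, sub_zero]
  have h3 : ((1 - e) * ω * e) * (e * ω * (1 - e)) =
      (1 - e) * ω * ω * (1 - e) - ((1 - e) * ω * (1 - e)) * ((1 - e) * ω * (1 - e)) := by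
    rw [show ((1 - e) * ω * (1 - e)) * ((1 - e) * ω * (1 - e)) =
      (1 - e) * ω * ((1 - e) * (1 - e)) * (ω * (1 - e)) by simp only [mul_assoc], hf,
      show ((1 - e) * ω * e) * (e * ω * (1 - e)) = (1 - e) * ω * (e * e) * (ω * (1 - e)) by
      simp only [mul_assoc], he]
    noncomm_ring
  have h4 : B * (((1 - e) * ω * (1 - e)) * ((1 - e) * ω * (1 - e))) =
      c ^ 2 • (B * (1 - e)) := by
    rw [← mul_assoc, fof he hz, neg_mul, smul_mul_assoc,
      show B * (1 - e) * ((1 - e) * ω * (1 - e)) = B * (((1 - e) * (1 - e)) * ω * (1 - e)) by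
        simp only [mul_assoc], hf, fof he hz, smul_neg, neg_neg, smul_smul, pow_two]
  rw [h3, mul_sub B, h4, show (1 - e) * ω * ω * (1 - e) = (1 - e) * (ω * ω) * (1 - e) by
    simp only [mul_assoc], hω, mul_one, hf, sub_smul (1 : k), one_smul]

theorem IwData.trace_e (h : IwData σ B e ω c) (hc : c ^ 2 ≠ 1) :
    trace k M (B * e 0 * σ) = trace k M (B * (1 - e 0) * σ) := by
  have hc' : (1 - c ^ 2) ≠ 0 := fun h0 => hc (sub_eq_zero.mp h0).symm
  have hsf : ∀ i, σ * (1 - e i) = (1 - e (i + 1)) * σ := fun i => by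
    rw [mul_sub, sub_mul, h.se, mul_one, one_mul]
  have key := trace_twist_comm (B := B) (σ := σ) (A := fun i => e i * ω i * (1 - e i))
    (A' := fun i => (1 - e i) * ω i * e i)
    (fun i => by
      rw [← mul_assoc, ← mul_assoc, h.se, mul_assoc _ σ, h.so, ← mul_assoc, mul_assoc _ σ, hsf,
        ← mul_assoc])
    (fun i => ((h.Be i).mul_right (h.Bo i)).mul_right ((Commute.one_right B).sub_right (h.Be i)))
    (fun i j hij => by
      have c1 : Commute (e i) (1 - e j) := (Commute.one_right _).sub_right (h.ee i j)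
      have c2 : Commute (ω i) (e j) := (h.eo j i hij.symm).symm
      have c3 : Commute (ω i) (1 - e j) := (Commute.one_right _).sub_right c2
      have c4 : Commute (e i) (ω j) := h.eo i j hij
      have c5 : Commute (1 - e i) (e j) := (Commute.one_left _).sub_left (h.ee i j)
      have c6 : Commute (1 - e i) (ω j) := (Commute.one_left _).sub_left c4
      have c7 : Commute (1 - e i) (1 - e j) := (Commute.one_right _).sub_right c5
      exact ((c1.mul_right c4).mul_right (h.ee i j) |>.mul_left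
        ((c3.mul_right (h.oo i j hij)).mul_right c2)).mul_left
        ((c7.mul_right c6).mul_right c5))
  rw [mid1 (h.idem 0) (h.invol 0) h.central, mid2 (h.idem 0) (h.invol 0) h.central,
    smul_mul_assoc, smul_mul_assoc, map_smul, map_smul] at key
  exact smul_right_injective _ hc' key

/-- **Twisted Iwahori trace.** -/
theorem IwData.trace_eq (h : IwData σ B e ω c) (hc : c ^ 2 ≠ 1) :
    trace k M (B * σ) = 2 * trace k M (B * (e 0 * e 1 * e 2) * σ) := by
  have h1 : trace k M (B * σ) = 2 * trace k M (B * e 0 * σ) := by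
    have h2 : B * σ = B * e 0 * σ + B * (1 - e 0) * σ := by noncomm_ring
    rw [h2, map_add, ← h.trace_e hc, two_mul]
  rw [h1, trace_idem_three h.idem h.ee h.se h.Be]

end Alg

section Nonzero

variable {k M : Type*} [Field k] [CharZero k] [AddCommGroup M] [Module k M]
  [FiniteDimensional k M]

/-- if `σ` is the identity on the (nonzero) image of the idempotent `P`, then `tr (P σ) ≠ 0` -/
theorem trace_idem_mul_ne_zero {P σ : End k M} (hP : P * P = P) (hPσ : Commute P σ)
    (hid : ∀ x, P x = x → σ x = x) {x : M} (hx : P x = x) (hx0 : x ≠ 0) :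
    trace k M (P * σ) ≠ 0 := by
  have h1 : P * σ = P := by
    rw [hPσ.eq]
    refine LinearMap.ext fun y => ?_
    change σ (P y) = P y
    refine hid _ ?_
    change (P * P) y = P y
    rw [hP]
  rw [h1]
  have h2 : LinearMap.IsProj (LinearMap.range P) P := by
    refine ⟨fun y => LinearMap.mem_range_self P y, ?_⟩
    rintro _ ⟨y, rfl⟩
    change (P * P) y = P y
    rw [hP]
  rw [h2.trace]
  have h3 : (0 : ℕ) < finrank k (LinearMap.range P) := by
    rw [Module.finrank_pos_iff_exists_ne_zero]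
    exact ⟨⟨x, x, hx⟩, fun h => hx0 (congrArg Subtype.val h)⟩
  exact_mod_cast h3.ne'

end Nonzero

end Fermat.Agent.LT.FA
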