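import Fermat.Agent.LT.FA.Compact

/-!
# Joint spectral decomposition for a commuting family of self-adjoint operators
-/

set_option autoImplicit false

open scoped InnerProductSpace ENNReal NNReal Topology
open Filter Module.End

namespace Fermat.Agent.LT.FA

variable {H : Type*} [NormedAddCommGroup H] [InnerProductSpace ℂ H]
variable {ι : Type*}

/-- joint eigenspaces -/
def jointE (T : ι → H →L[ℂ] H) (s : ι → ℝ) : Submodule ℂ H :=
  ⨅ i, eigenspace ((T i : H →ₗ[ℂ] H)) (s i : ℂ)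

theorem mem_jointE {T : ι → H →L[ℂ] H} {s : ι → ℝ} {x : H} :
    x ∈ jointE T s ↔ ∀ i, T i x = (s i : ℂ) • x := by
  simp [jointE, Submodule.mem_iInf, mem_eigenspace_iff]

/-- a commuting family of symmetric operators -/
structure IsCommSymm (T : ι → H →L[ℂ] H) : Prop where
  symm : ∀ i, ((T i : H →ₗ[ℂ] H)).IsSymmetric
  comm : ∀ i j x, T i (T j x) = T j (T i x)

variable {T : ι → H →L[ℂ] H}

theorem IsCommSymm.inner (hT : IsCommSymm T) (i : ι) (x y : H) :
    ⟪T i x, y⟫_ℂ = ⟪x, T i y⟫_ℂ := hT.symm i x y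

theorem IsCommSymm.orthogonal (hT : IsCommSymm T) {s s' : ι → ℝ} (h : s ≠ s') {x y : H}
    (hx : x ∈ jointE T s) (hy : y ∈ jointE T s') : ⟪x, y⟫_ℂ = 0 := by
  obtain ⟨i, hi⟩ := Function.ne_iff.mp h
  have h1 := hT.inner i x y
  rw [mem_jointE.mp hx, mem_jointE.mp hy, inner_smul_left, inner_smul_right, Complex.conj_ofReal]
    at h1
  have h2 : ((s i : ℂ) - (s' i : ℂ)) * ⟪x, y⟫_ℂ = 0 := by linear_combination h1
  rcases mul_eq_zero.mp h2 with h3 | h3
  · exact absurd (by exact_mod_cast sub_eq_zero.mp h3) hi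
  · exact h3

theorem IsCommSymm.exists_mem_of_finite (hT : IsCommSymm T) (W : Submodule ℂ H)
    [FiniteDimensional ℂ W] (hW : W ≠ ⊥) (hinv : ∀ i, ∀ x ∈ W, T i x ∈ W) :
    ∃ x ∈ W, x ≠ 0 ∧ ∃ s, x ∈ jointE T s := by
  let T' : ι → W →ₗ[ℂ] W := fun i => (T i : H →ₗ[ℂ] H).restrict (hinv i)
  have hs : ∀ i, (T' i).IsSymmetric := fun i => (hT.symm i).restrict_invariant (hinv i)
  have hc : Pairwise (Function.onFun Commute T') := by
    intro i j _
    refine LinearMap.ext fun x => Subtype.ext ?_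
    exact hT.comm i j x
  have htop := LinearMap.IsSymmetric.iSup_iInf_eq_top_of_commute hs hc
  have hne : ∃ χ : ι → ℂ, (⨅ i, eigenspace (T' i) (χ i)) ≠ ⊥ := by
    by_contra hcon
    push Not at hcon
    simp only [hcon, iSup_bot] at htop
    have : Subsingleton (Submodule ℂ W) := ⟨fun a b => by
      have ha : a ≤ ⊤ := le_top
      have hb : b ≤ ⊤ := le_top
      rw [← htop, le_bot_iff] at ha hb
      rw [ha, hb]⟩
    apply hW
    rw [Submodule.subsingleton_iff] at this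
    rw [← Submodule.subsingleton_iff_eq_bot]
    exact this
  obtain ⟨χ, hχ⟩ := hne
  obtain ⟨x, hx, hx0⟩ := Submodule.exists_mem_ne_zero_of_ne_bot hχ
  rw [Submodule.mem_iInf] at hx
  have hx1 : ∀ i, T i (x : H) = χ i • (x : H) := fun i => by
    have h := mem_eigenspace_iff.mp (hx i)
    exact congrArg Subtype.val h
  have hx0' : (x : H) ≠ 0 := fun h => hx0 (Subtype.ext h)
  refine ⟨x, x.2, hx0', fun i => (χ i).re, mem_jointE.mpr fun i => ?_⟩
  have hev : HasEigenvalue (T i : H →ₗ[ℂ] H) (χ i) :=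
    hasEigenvalue_of_hasEigenvector ⟨mem_eigenspace_iff.mpr (hx1 i), hx0'⟩
  have h2 := (hT.symm i).conj_eigenvalue_eq_self hev
  have h3 : ((χ i).re : ℂ) = χ i := Complex.conj_eq_iff_re.mp h2
  rw [h3, hx1]

variable [CompleteSpace H]

/-- If an invariant subspace contains all joint eigenvectors with nonzero eigenvalue of the
compact operator `T i₀`, then `T i₀` vanishes on the orthogonal complement. -/
theorem IsCommSymm.eq_zero_of_mem_orthogonal (hT : IsCommSymm T) (i₀ : ι)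
    (hcpt : IsCompactOperator (T i₀)) (U : Submodule ℂ H) (hU : ∀ i, ∀ x ∈ U, T i x ∈ U)
    (hcont : ∀ s : ι → ℝ, s i₀ ≠ 0 → jointE T s ≤ U) {x : H} (hx : x ∈ Uᗮ) : T i₀ x = 0 := by
  have hinv : ∀ i, ∀ x ∈ Uᗮ, T i x ∈ Uᗮ := by
    intro i x hx
    rw [Submodule.mem_orthogonal] at hx ⊢
    intro u hu
    rw [← hT.inner]
    exact hx _ (hU i u hu)
  let C : Uᗮ →L[ℂ] Uᗮ := (T i₀).restrict (hinv i₀)
  have hCc : IsCompactOperator C := hcpt.restrict' (hinv i₀)
  have hCs : (C : Uᗮ →ₗ[ℂ] Uᗮ).IsSymmetric := (hT.symm i₀).restrict_invariant (hinv i₀)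
  suffices hC : C = 0 by
    have := DFunLike.congr_fun hC ⟨x, hx⟩
    exact congrArg Subtype.val this
  rw [← ContinuousLinearMap.eq_zero_of_forall_hasEigenvalue_eq_zero hCc hCs]
  intro μ hμ
  by_contra hμ0
  have hfd := ContinuousLinearMap.finite_dimensional_eigenspace hCc μ hμ0
  let W : Submodule ℂ H := (eigenspace (C : Uᗮ →ₗ[ℂ] Uᗮ) μ).map (Uᗮ).subtype
  have hWfd : FiniteDimensional ℂ W := by
    have := hfd
    exact inferInstanceAs (FiniteDimensional ℂ
      ((eigenspace (C : Uᗮ →ₗ[ℂ] Uᗮ) μ).map (Uᗮ).subtype))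
  have hWmem : ∀ y : H, y ∈ W ↔ y ∈ Uᗮ ∧ T i₀ y = μ • y := by
    intro y
    constructor
    · rintro ⟨z, hz, rfl⟩
      exact ⟨z.2, congrArg Subtype.val (mem_eigenspace_iff.mp hz)⟩
    · rintro ⟨h1, h2⟩
      exact ⟨⟨y, h1⟩, mem_eigenspace_iff.mpr (Subtype.ext h2), rfl⟩
  have hWne : W ≠ ⊥ := by
    obtain ⟨v, hv⟩ := hμ.exists_hasEigenvector
    intro h
    have h1 : (v : H) ∈ W := ⟨v, hv.1, rfl⟩
    rw [h, Submodule.mem_bot] at h1
    exact hv.2 (Subtype.ext h1)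
  obtain ⟨y, hyW, hy0, s, hys⟩ := hT.exists_mem_of_finite W hWne (by
    intro i y hy
    rw [hWmem] at hy ⊢
    refine ⟨hinv i y hy.1, ?_⟩
    rw [hT.comm, hy.2, map_smul])
  rw [hWmem] at hyW
  have h1 := mem_jointE.mp hys i₀
  rw [hyW.2] at h1
  have h2 : μ = (s i₀ : ℂ) := smul_left_injective ℂ hy0 h1
  have h3 : s i₀ ≠ 0 := by
    intro h
    rw [h, Complex.ofReal_zero] at h2
    exact hμ0 h2
  have h4 := hcont s h3 hys
  have h5 := Submodule.inner_right_of_mem_orthogonal h4 hyW.1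
  exact hy0 (inner_self_eq_zero.mp h5)

theorem finiteDimensional_jointE {i₀ : ι} (hcpt : IsCompactOperator (T i₀)) {s : ι → ℝ}
    (hs : s i₀ ≠ 0) : FiniteDimensional ℂ (jointE T s) := by
  have h1 := ContinuousLinearMap.finite_dimensional_eigenspace hcpt (s i₀ : ℂ)
    (by exact_mod_cast hs)
  have h2 : jointE T s ≤ eigenspace (T i₀ : H →ₗ[ℂ] H) (s i₀ : ℂ) := iInf_le _ i₀
  exact Submodule.finiteDimensional_of_le h2

end Fermat.Agent.LT.FA
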