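import Fermat.Agent.LT.FA.AutKer

/-!
# The trace formula: unfolding into twisted conjugacy classes
-/

set_option autoImplicit false
set_option linter.unusedSectionVars false
set_option linter.unusedVariables false

open scoped ENNReal NNReal InnerProductSpace
open MeasureTheory ProbabilityTheory

namespace Fermat.Agent.LT.FA

variable {G Y : Type*} [Group G] [MulAction G Y] [MeasurableSpace Y] [MeasurableConstSMul G Y]
  {μ : Measure Y} [SMulInvariantMeasure G Y μ] [Countable G] {w : Y → ℝ≥0}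

/-- convolution of kernels -/
noncomputable def cvK {Y : Type*} [MeasurableSpace Y] (μ : Measure Y) (k₁ k₂ : Y → Y → ℂ)
    (x z : Y) : ℂ := ∫ y, k₁ x y * k₂ y z ∂μ

theorem measurable_cvK [SFinite μ] {k₁ k₂ : Y → Y → ℂ} (h₁ : Measurable (Function.uncurry k₁))
    (h₂ : Measurable (Function.uncurry k₂)) : Measurable (Function.uncurry (cvK μ k₁ k₂)) := by
  have h : Measurable (fun p : (Y × Y) × Y => k₁ p.1.1 p.2 * k₂ p.2 p.1.2) :=
    (h₁.comp ((measurable_fst.comp measurable_fst).prodMk measurable_snd)).mul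
      (h₂.comp (measurable_snd.prodMk (measurable_snd.comp measurable_fst)))
  exact (h.stronglyMeasurable.integral_prod_right').measurable

theorem cvK_smul {k₁ k₂ : Y → Y → ℂ} {e₁ e₂ : G → G}
    (h₁ : ∀ (g : G) x y, k₁ (g • x) (e₁ g • y) = k₁ x y)
    (h₂ : ∀ (g : G) x y, k₂ (g • x) (e₂ g • y) = k₂ x y) (g : G) (x z : Y) :
    cvK μ k₁ k₂ (g • x) (e₂ (e₁ g) • z) = cvK μ k₁ k₂ x z := by
  rw [cvK, cvK, ← integral_smul' (μ := μ) (e₁ g) (fun y => k₁ (g • x) y * k₂ y (e₂ (e₁ g) • z))]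
  simp_rw [h₁, h₂]

namespace KRep

variable {A B : HA G μ →L[ℂ] HA G μ} {k₁ k₂ : Y → Y → ℂ}

/-- **the trace as an integral over the quotient** -/
theorem trace [SigmaFinite μ] [SigmaFinite (wtM μ w)]
    [TopologicalSpace.SeparableSpace (Lp ℂ 2 (wtM μ w))] (hw : IsWt G μ w)
    (hA : KRep A k₁) (hB : KRep B k₂) (hK₁ : IsL2Ker₂ (wtM μ w) (perK G k₁))
    (hK₂ : IsL2Ker₂ (wtM μ w) (perK G k₂)) {e₂ : G → G}
    (h₂ : ∀ (g : G) x y, k₂ (g • x) (e₂ g • y) = k₂ x y)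
    (hfin : ∫⁻ y, ∑' g : G, ∫⁻ x, ‖k₁ y x‖ₑ * ‖k₂ x (g • y)‖ₑ ∂μ ∂(wtM μ w) ≠ ∞) :
    hsTrace A B = ∫ y, ∑' g : G, cvK μ k₁ k₂ y (g • y) ∂(wtM μ w) := by
  rw [hsTrace_comm (hA.isHS hw hK₁.toIsL2Ker) (hB.isHS hw hK₂.toIsL2Ker),
    hB.hsTrace_eq hw hA hK₂ hK₁]
  have hmeas : Measurable (fun y => ∑' g : G, ∫⁻ x, ‖k₁ y x‖ₑ * ‖k₂ x (g • y)‖ₑ ∂μ) := by
    refine Measurable.tsum fun g => ?_
    have h : Measurable (fun p : Y × Y => ‖k₁ p.1 p.2‖ₑ * ‖k₂ p.2 (g • p.1)‖ₑ) :=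
      (hA.meas.enorm).mul
        ((hB.meas.comp (measurable_snd.prodMk ((measurable_const_smul g).comp measurable_fst))).enorm)
    exact h.lintegral_prod_right'
  refine integral_congr_ae ?_
  filter_upwards [ae_lt_top hmeas hfin] with y hy
  have hm1 : ∀ g : G, AEStronglyMeasurable (fun x => k₁ y x * k₂ x (g • y)) μ := fun g => by
    refine Measurable.aestronglyMeasurable ?_
    exact (hA.meas.comp (measurable_const.prodMk measurable_id)).mul
      (hB.meas.comp (measurable_id.prodMk measurable_const))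
  have hs : ∑' g : G, ∫⁻ x, ‖k₁ y x * k₂ x (g • y)‖ₑ ∂μ ≠ ∞ := by
    simp_rw [enorm_mul]
    exact hy.ne
  have hint := integrable_tsum hm1 hs
  have e1 : ∀ x, ∑' g : G, k₁ y x * k₂ x (g • y) = k₁ y x * perK G k₂ x y := fun x =>
    tsum_mul_left
  simp_rw [e1] at hint
  have h3 := hw.integral_sum hint
  have e2 : ∀ x, ∑' g : G, k₁ y (g • x) * perK G k₂ (g • x) y = perK G k₁ y x * perK G k₂ x y := by
    intro x
    simp_rw [perK_smul_left h₂]
    rw [tsum_mul_right]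
    rfl
  simp_rw [e2] at h3
  rw [h3]
  simp_rw [← e1]
  rw [MeasureTheory.integral_tsum hm1 hs]
  rfl

end KRep

/-- twisted conjugation: `g • h = e g * h * g⁻¹` -/
def TwG {G : Type*} [Group G] (_e : G →* G) : Type _ := G

namespace TwG

variable {e : G →* G}

/-- the underlying element -/
def val (h : TwG e) : G := h

instance instMulActionTwG : MulAction G (TwG e) where
  smul g h := (e g * h.val * g⁻¹ : G)
  one_smul h := by
    change (e 1 * h.val * 1⁻¹ : G) = h.val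
    simp
  mul_smul g g' h := by
    change (e (g * g') * h.val * (g * g')⁻¹ : G) = (e g * (e g' * h.val * g'⁻¹ : G) * g⁻¹ : G)
    simp [mul_assoc]

theorem val_smul (g : G) (h : TwG e) : (g • h).val = e g * h.val * g⁻¹ := rfl

instance instCountableTwG : Countable (TwG e) := inferInstanceAs (Countable G)

theorem mem_stabilizer (h : TwG e) (g : G) :
    g ∈ MulAction.stabilizer G h ↔ e g * h.val = h.val * g := by
  rw [MulAction.mem_stabilizer_iff]
  constructor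
  · intro h1
    have h2 := congrArg val h1
    rw [val_smul] at h2
    exact mul_inv_eq_iff_eq_mul.mp h2
  · intro h1
    change (g • h).val = h.val
    rw [val_smul]
    exact mul_inv_eq_iff_eq_mul.mpr h1

end TwG

namespace KRep

variable {A B : HA G μ →L[ℂ] HA G μ} {k₁ k₂ : Y → Y → ℂ}

/-- **the trace formula**: the trace is the sum over the twisted conjugacy classes -/
theorem trace_classes [SigmaFinite μ] [SigmaFinite (wtM μ w)]
    [TopologicalSpace.SeparableSpace (Lp ℂ 2 (wtM μ w))] (hw : IsWt G μ w)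
    (hA : KRep A k₁) (hB : KRep B k₂) (hK₁ : IsL2Ker₂ (wtM μ w) (perK G k₁))
    (hK₂ : IsL2Ker₂ (wtM μ w) (perK G k₂)) {e : G →* G}
    (h₁ : ∀ (g : G) x y, k₁ (g • x) (g • y) = k₁ x y)
    (h₂ : ∀ (g : G) x y, k₂ (g • x) (e g • y) = k₂ x y)
    (hfin : ∫⁻ y, ∑' g : G, ∫⁻ x, ‖k₁ y x‖ₑ * ‖k₂ x (g • y)‖ₑ ∂μ ∂(wtM μ w) ≠ ∞) :
    HasSum (fun ω : MulAction.orbitRel.Quotient G (TwG e) =>
      qint (MulAction.stabilizer G ω.out) μ (fun y => cvK μ k₁ k₂ y (ω.out.val • y)))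
      (hsTrace A B) := by
  rw [hA.trace hw hB hK₁ hK₂ h₂ hfin]
  have hmc : ∀ h : G, Measurable (fun y => cvK μ k₁ k₂ y (h • y)) := fun h =>
    (measurable_cvK hA.meas hB.meas).comp (measurable_id.prodMk (measurable_const_smul h))
  have hi : ∀ (g : G) (X : TwG e), ∀ᵐ y ∂μ, cvK μ k₁ k₂ (g • y) ((g • X).val • (g • y)) =
      cvK μ k₁ k₂ y (X.val • y) := by
    intro g X
    refine Filter.Eventually.of_forall fun y => ?_
    have h3 : (g • X).val • (g • y) = e g • (X.val • y) := by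
      rw [TwG.val_smul, smul_smul, smul_smul]
      simp
    rw [h3]
    exact cvK_smul (e₁ := id) (e₂ := e) h₁ h₂ g y (X.val • y)
  have hle : ∀ (y : Y) (g : G), ‖cvK μ k₁ k₂ y (g • y)‖ₑ ≤
      ∫⁻ x, ‖k₁ y x‖ₑ * ‖k₂ x (g • y)‖ₑ ∂μ := by
    intro y g
    refine (enorm_integral_le_lintegral_enorm _).trans (le_of_eq ?_)
    simp_rw [enorm_mul]
  have hfin3 : ∑' g : G, ∫⁻ y, ‖cvK μ k₁ k₂ y (g • y)‖ₑ ∂(wtM μ w) ≠ ∞ := by
    rw [← lintegral_tsum (fun g => (hmc g).enorm.aemeasurable)]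
    refine ne_top_of_le_ne_top hfin (lintegral_mono fun y => ?_)
    exact ENNReal.tsum_le_tsum fun g => hle y g
  have hfin2 : ∑' X : TwG e, ∫⁻ y, ‖cvK μ k₁ k₂ y (X.val • y)‖ₑ ∂(wtM μ w) ≠ ∞ := hfin3
  have h5 := hw.integral_classes_qint (F := fun (X : TwG e) y => cvK μ k₁ k₂ y (X.val • y))
    (fun X => (hmc X.val).aestronglyMeasurable) hi hfin2
  exact h5

end KRep

end Fermat.Agent.LT.FA
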