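import Mathlib

/-!
# Weights for actions of countable groups; integration over the quotient
-/

set_option autoImplicit false
set_option linter.unusedSectionVars false
set_option linter.unusedVariables false

open scoped ENNReal NNReal
open MeasureTheory

namespace Fermat.Agent.LT.FA

/-- weights: `∑ g, w (g • y) = 1` -/
structure IsWt (G : Type*) {Y : Type*} [Group G] [MulAction G Y] [MeasurableSpace Y]
    (μ : Measure Y) (w : Y → ℝ≥0) : Prop where
  meas : Measurable w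
  sum_eq : ∀ᵐ y ∂μ, ∑' g : G, (w (g • y) : ℝ≥0∞) = 1

theorem enorm_nnreal_smul {E : Type*} [NormedAddCommGroup E] [NormedSpace ℝ E] (r : ℝ≥0) (x : E) :
    ‖r • x‖ₑ = r * ‖x‖ₑ := by
  rw [NNReal.smul_def, enorm_smul]
  congr 1
  simp

theorem tsum_nnreal_smul {ι E : Type*} [NormedAddCommGroup E] [NormedSpace ℝ E] {a : ι → ℝ≥0}
    (ha : ∑' i, (a i : ℝ≥0∞) = 1) (x : E) : ∑' i, a i • x = x := by
  have h5 : Summable a := by
    rw [← ENNReal.tsum_coe_ne_top_iff_summable, ha]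
    exact ENNReal.one_ne_top
  have h6 : ∑' i, a i = 1 := by
    have := ENNReal.coe_tsum h5
    rw [ha] at this
    exact_mod_cast this
  have h8 : HasSum (fun i => (a i : ℝ)) 1 := by
    have := h5.hasSum
    rw [h6] at this
    have h9 := NNReal.hasSum_coe.mpr this
    simpa using h9
  have h9 := (h8.smul_const x).tsum_eq
  rw [one_smul] at h9
  exact h9

/-- the measure with density `w` -/
noncomputable def wtM {Y : Type*} [MeasurableSpace Y] (μ : Measure Y) (w : Y → ℝ≥0) : Measure Y :=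
  μ.withDensity (fun y => (w y : ℝ≥0∞))

section tsum

variable {Y ι E : Type*} [MeasurableSpace Y] {ν : Measure Y} [Countable ι] [NormedAddCommGroup E]
  [NormedSpace ℝ E] [CompleteSpace E] {F : ι → Y → E}

theorem ae_summable_of_lintegral (hF : ∀ i, AEStronglyMeasurable (F i) ν)
    (hs : ∑' i, ∫⁻ y, ‖F i y‖ₑ ∂ν ≠ ∞) : ∀ᵐ y ∂ν, Summable (fun i => ‖F i y‖) := by
  rw [← lintegral_tsum (fun i => (hF i).enorm)] at hs
  have h2 : ∀ᵐ y ∂ν, ∑' i, ‖F i y‖ₑ < ∞ := by
    refine ae_lt_top' ?_ hs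
    exact AEMeasurable.tsum (fun i => (hF i).enorm)
  filter_upwards [h2] with y hy
  have := ENNReal.summable_toReal hy.ne
  simpa using this

theorem aestronglyMeasurable_tsum (hF : ∀ i, AEStronglyMeasurable (F i) ν)
    (hs : ∑' i, ∫⁻ y, ‖F i y‖ₑ ∂ν ≠ ∞) : AEStronglyMeasurable (fun y => ∑' i, F i y) ν := by
  refine aestronglyMeasurable_of_tendsto_ae (Filter.atTop : Filter (Finset ι))
    (f := fun s y => ∑ i ∈ s, F i y) (fun s => ?_) ?_
  · exact Finset.aestronglyMeasurable_fun_sum s (fun i _ => hF i)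
  · filter_upwards [ae_summable_of_lintegral hF hs] with y hy
    exact hy.of_norm.hasSum

theorem integrable_tsum (hF : ∀ i, AEStronglyMeasurable (F i) ν)
    (hs : ∑' i, ∫⁻ y, ‖F i y‖ₑ ∂ν ≠ ∞) : Integrable (fun y => ∑' i, F i y) ν := by
  refine ⟨aestronglyMeasurable_tsum hF hs, ?_⟩
  rw [← lintegral_tsum (fun i => (hF i).enorm)] at hs
  refine lt_of_le_of_lt (lintegral_mono fun y => ?_) hs.lt_top
  exact enorm_tsum_le_tsum_enorm

end tsum

section basic

variable {Y : Type*} [MeasurableSpace Y] {μ : Measure Y} {w : Y → ℝ≥0}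

theorem wtM_ac : wtM μ w ≪ μ := withDensity_absolutelyContinuous _ _

theorem lintegral_wtM (hw : Measurable w) {F : Y → ℝ≥0∞} (hF : AEMeasurable F μ) :
    ∫⁻ y, F y ∂(wtM μ w) = ∫⁻ y, w y * F y ∂μ := by
  rw [wtM, lintegral_withDensity_eq_lintegral_mul₀ hw.coe_nnreal_ennreal.aemeasurable hF]
  rfl

theorem integral_wtM {E : Type*} [NormedAddCommGroup E] [NormedSpace ℝ E] (hw : Measurable w)
    (F : Y → E) : ∫ y, F y ∂(wtM μ w) = ∫ y, w y • F y ∂μ := by
  rw [wtM, integral_withDensity_eq_integral_smul hw]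

theorem integrable_wtM {E : Type*} [NormedAddCommGroup E] [NormedSpace ℝ E] (hw : Measurable w)
    {F : Y → E} : Integrable F (wtM μ w) ↔ Integrable (fun y => w y • F y) μ := by
  rw [wtM, integrable_withDensity_iff_integrable_smul hw]

instance instSFiniteWtM [SigmaFinite μ] : SFinite (wtM μ w) := by
  unfold wtM; infer_instance

theorem wtM_univ : wtM μ w Set.univ = ∫⁻ y, w y ∂μ := by
  rw [wtM, withDensity_apply _ MeasurableSet.univ, Measure.restrict_univ]

end basic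

section group

variable {G Y : Type*} [Group G] [MulAction G Y] [MeasurableSpace Y] [MeasurableConstSMul G Y]
  {μ : Measure Y} [SMulInvariantMeasure G Y μ]

theorem lintegral_smul' (g : G) (F : Y → ℝ≥0∞) : ∫⁻ y, F (g • y) ∂μ = ∫⁻ y, F y ∂μ :=
  (measurePreserving_smul g μ).lintegral_comp_emb (measurableEmbedding_const_smul g) F

theorem integral_smul' {E : Type*} [NormedAddCommGroup E] [NormedSpace ℝ E] (g : G) (F : Y → E) :
    ∫ y, F (g • y) ∂μ = ∫ y, F y ∂μ :=
  (measurePreserving_smul g μ).integral_comp (measurableEmbedding_const_smul g) F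

theorem ae_smul {p : Y → Prop} (h : ∀ᵐ y ∂μ, p y) (g : G) : ∀ᵐ y ∂μ, p (g • y) :=
  (measurePreserving_smul g μ).quasiMeasurePreserving.ae h

theorem aemeasurable_smul {E : Type*} [MeasurableSpace E] {F : Y → E} (hF : AEMeasurable F μ)
    (g : G) : AEMeasurable (fun y => F (g • y)) μ :=
  hF.comp_quasiMeasurePreserving (measurePreserving_smul g μ).quasiMeasurePreserving

theorem aesm_smul {E : Type*} [TopologicalSpace E] {F : Y → E} (hF : AEStronglyMeasurable F μ)
    (g : G) : AEStronglyMeasurable (fun y => F (g • y)) μ :=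
  hF.comp_quasiMeasurePreserving (measurePreserving_smul g μ).quasiMeasurePreserving

variable [Countable G] {w w' : Y → ℝ≥0}

namespace IsWt

/-- weights are at most `1` -/
theorem le_one (hw : IsWt G μ w) : ∀ᵐ y ∂μ, w y ≤ 1 := by
  filter_upwards [hw.sum_eq] with y hy
  have h1 : (w y : ℝ≥0∞) ≤ ∑' g : G, (w (g • y) : ℝ≥0∞) := by
    have := ENNReal.le_tsum (f := fun g : G => (w (g • y) : ℝ≥0∞)) 1
    simpa using this
  rw [hy] at h1
  exact_mod_cast h1

theorem sum_inv (hw : IsWt G μ w) : ∀ᵐ y ∂μ, ∑' g : G, (w (g⁻¹ • y) : ℝ≥0∞) = 1 := by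
  filter_upwards [hw.sum_eq] with y hy
  rw [← hy]
  exact (Equiv.inv G).tsum_eq (fun g => (w (g • y) : ℝ≥0∞))

theorem lintegral_smul_wtM (hw : IsWt G μ w) {F : Y → ℝ≥0∞} (hF : AEMeasurable F μ) (g : G) :
    ∫⁻ y, F (g • y) ∂(wtM μ w) = ∫⁻ y, w (g⁻¹ • y) * F y ∂μ := by
  rw [lintegral_wtM hw.meas (aemeasurable_smul hF g),
    ← lintegral_smul' (μ := μ) g (fun y => w (g⁻¹ • y) * F y)]
  simp

theorem integral_smul_wtM (hw : IsWt G μ w) {E : Type*} [NormedAddCommGroup E] [NormedSpace ℝ E]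
    (F : Y → E) (g : G) :
    ∫ y, F (g • y) ∂(wtM μ w) = ∫ y, w (g⁻¹ • y) • F y ∂μ := by
  rw [integral_wtM hw.meas, ← integral_smul' (μ := μ) g (fun y => w (g⁻¹ • y) • F y)]
  simp

/-- **unfolding** -/
theorem lintegral_smul_eq (hw : IsWt G μ w) {F : Y → ℝ≥0∞} (hF : AEMeasurable F μ) :
    ∑' g : G, ∫⁻ y, F (g • y) ∂(wtM μ w) = ∫⁻ y, F y ∂μ := by
  simp_rw [hw.lintegral_smul_wtM hF]
  have h2 : ∀ g : G, AEMeasurable (fun y => (w (g⁻¹ • y) : ℝ≥0∞) * F y) μ := fun g =>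
    (aemeasurable_smul hw.meas.coe_nnreal_ennreal.aemeasurable g⁻¹).mul hF
  rw [← lintegral_tsum h2]
  refine lintegral_congr_ae ?_
  filter_upwards [hw.sum_inv] with y hy
  rw [ENNReal.tsum_mul_right, hy, one_mul]

/-- **unfolding** -/
theorem lintegral_sum (hw : IsWt G μ w) {F : Y → ℝ≥0∞} (hF : AEMeasurable F μ) :
    ∫⁻ y, ∑' g : G, F (g • y) ∂(wtM μ w) = ∫⁻ y, F y ∂μ := by
  rw [lintegral_tsum (fun g => (aemeasurable_smul hF g).mono_ac wtM_ac), hw.lintegral_smul_eq hF]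

variable {E : Type*} [NormedAddCommGroup E] [NormedSpace ℝ E] [CompleteSpace E]

theorem sum_lt_top (hw : IsWt G μ w) {F : Y → E} (hF : Integrable F μ) :
    ∑' g : G, ∫⁻ y, ‖F (g • y)‖ₑ ∂(wtM μ w) ≠ ∞ := by
  rw [hw.lintegral_smul_eq (F := fun y => ‖F y‖ₑ) hF.1.enorm]
  exact hF.2.ne

theorem aesm_smul_wtM {F : Y → E} (hF : AEStronglyMeasurable F μ) (g : G) :
    AEStronglyMeasurable (fun y => F (g • y)) (wtM μ w) :=
  (aesm_smul hF g).mono_ac wtM_ac

theorem integrable_smul (hw : IsWt G μ w) {F : Y → E} (hF : Integrable F μ) (g : G) :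
    Integrable (fun y => F (g • y)) (wtM μ w) := by
  refine ⟨(aesm_smul hF.1 g).mono_ac wtM_ac, ?_⟩
  exact lt_of_le_of_lt (ENNReal.le_tsum (f := fun g : G => ∫⁻ y, ‖F (g • y)‖ₑ ∂(wtM μ w)) g)
    (hw.sum_lt_top hF).lt_top

/-- the sum over the group is integrable -/
theorem integrable_sum (hw : IsWt G μ w) {F : Y → E} (hF : Integrable F μ) :
    Integrable (fun y => ∑' g : G, F (g • y)) (wtM μ w) :=
  integrable_tsum (fun g => aesm_smul_wtM hF.1 g) (hw.sum_lt_top hF)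

theorem ae_summable (hw : IsWt G μ w) {F : Y → E} (hF : Integrable F μ) :
    ∀ᵐ y ∂(wtM μ w), Summable (fun g : G => ‖F (g • y)‖) :=
  ae_summable_of_lintegral (fun g => aesm_smul_wtM hF.1 g) (hw.sum_lt_top hF)

/-- **unfolding** -/
theorem integral_sum (hw : IsWt G μ w) {F : Y → E} (hF : Integrable F μ) :
    ∫ y, ∑' g : G, F (g • y) ∂(wtM μ w) = ∫ y, F y ∂μ := by
  rw [MeasureTheory.integral_tsum (fun g => aesm_smul_wtM hF.1 g) (hw.sum_lt_top hF)]
  simp_rw [hw.integral_smul_wtM]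
  have h2 : ∀ g : G, AEStronglyMeasurable (fun y => w (g⁻¹ • y) • F y) μ := fun g =>
    (aesm_smul hw.meas.aestronglyMeasurable g⁻¹).smul hF.1
  have h3 : ∑' g : G, ∫⁻ y, ‖w (g⁻¹ • y) • F y‖ₑ ∂μ ≠ ∞ := by
    have h4 := hw.sum_lt_top hF
    simp_rw [hw.lintegral_smul_wtM (F := fun y => ‖F y‖ₑ) hF.1.enorm] at h4
    convert h4 using 5 with g y
    rw [enorm_nnreal_smul]
  rw [← MeasureTheory.integral_tsum h2 h3]
  refine integral_congr_ae ?_
  filter_upwards [hw.sum_inv] with y hy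
  exact tsum_nnreal_smul hy (F y)

end IsWt

/-- functions which are invariant almost everywhere -/
def AEInv (G : Type*) {Y E : Type*} [Group G] [MulAction G Y] [MeasurableSpace Y]
    (μ : Measure Y) (F : Y → E) : Prop := ∀ g : G, ∀ᵐ y ∂μ, F (g • y) = F y

namespace IsWt

theorem ae_inv_all {E : Type*} {F : Y → E} (hF : AEInv G μ F) :
    ∀ᵐ y ∂μ, ∀ g : G, F (g • y) = F y := by
  rw [ae_all_iff]; exact hF

/-- **independence of the weight** -/
theorem lintegral_eq (hw : IsWt G μ w) (hw' : IsWt G μ w') {F : Y → ℝ≥0∞} (hF : AEMeasurable F μ)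
    (hi : AEInv G μ F) : ∫⁻ y, F y ∂(wtM μ w) = ∫⁻ y, F y ∂(wtM μ w') := by
  have h1 := hw'.lintegral_sum (F := fun y => w y * F y)
    (hw.meas.coe_nnreal_ennreal.aemeasurable.mul hF)
  rw [lintegral_wtM hw.meas hF, ← h1]
  refine lintegral_congr_ae (wtM_ac.ae_le ?_)
  filter_upwards [ae_inv_all hi, hw.sum_eq] with y hy hy2
  simp_rw [hy]
  rw [ENNReal.tsum_mul_right, hy2, one_mul]

variable {E : Type*} [NormedAddCommGroup E] [NormedSpace ℝ E] [CompleteSpace E]

theorem integrable_iff (hw : IsWt G μ w) (hw' : IsWt G μ w') {F : Y → E}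
    (hF : AEStronglyMeasurable F μ) (hi : AEInv G μ F) :
    Integrable F (wtM μ w) ↔ Integrable F (wtM μ w') := by
  have h1 : ∫⁻ y, ‖F y‖ₑ ∂(wtM μ w) = ∫⁻ y, ‖F y‖ₑ ∂(wtM μ w') :=
    hw.lintegral_eq hw' hF.enorm (fun g => by
      filter_upwards [hi g] with y hy
      rw [hy])
  constructor
  · intro h
    exact ⟨hF.mono_ac wtM_ac, by rw [HasFiniteIntegral, ← h1]; exact h.2⟩
  · intro h
    exact ⟨hF.mono_ac wtM_ac, by rw [HasFiniteIntegral, h1]; exact h.2⟩

/-- **independence of the weight** -/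
theorem integral_eq (hw : IsWt G μ w) (hw' : IsWt G μ w') {F : Y → E}
    (hF : AEStronglyMeasurable F μ) (hi : AEInv G μ F) :
    ∫ y, F y ∂(wtM μ w) = ∫ y, F y ∂(wtM μ w') := by
  by_cases h : Integrable F (wtM μ w)
  · have h0 : Integrable (fun y => w y • F y) μ := (integrable_wtM hw.meas).mp h
    have h1 := hw'.integral_sum h0
    rw [integral_wtM hw.meas, ← h1]
    refine integral_congr_ae (wtM_ac.ae_le ?_)
    filter_upwards [ae_inv_all hi, hw.sum_eq] with y hy hy2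
    simp_rw [hy]
    exact tsum_nnreal_smul hy2 (F y)
  · rw [integral_undef h, integral_undef (fun h' => h ((hw.integrable_iff hw' hF hi).mpr h'))]

/-- null sets -/
theorem ae_of_inv (hw : IsWt G μ w) {p : Y → Prop} (hp : ∀ᵐ y ∂(wtM μ w), p y)
    (hi : ∀ᵐ y ∂μ, ∀ g : G, p (g • y) → p y) : ∀ᵐ y ∂μ, p y := by
  have h1 : ∀ᵐ y ∂μ, w y ≠ 0 → p y := by
    have := (ae_withDensity_iff (μ := μ) hw.meas.coe_nnreal_ennreal).mp hp
    filter_upwards [this] with y hy h0
    exact hy (by exact_mod_cast h0)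
  have h2 : ∀ᵐ y ∂μ, ∀ g : G, w (g • y) ≠ 0 → p (g • y) := by
    rw [ae_all_iff]
    exact fun g => ae_smul h1 g
  filter_upwards [h2, hi, hw.sum_eq] with y hy hy2 hy3
  have h3 : ∃ g : G, w (g • y) ≠ 0 := by
    by_contra hcon
    push Not at hcon
    simp [hcon] at hy3
  obtain ⟨g, hg⟩ := h3
  exact hy2 g (hy g hg)

end IsWt

end group

end Fermat.Agent.LT.FA
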